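import Fermat.Agent.S13.FreyBasic
import Fermat.Agent.S54.Frobenius

set_option autoImplicit false
set_option linter.unusedSectionVars false
set_option linter.unusedVariables false

/-!
# The Frey curve at `2`

`E : y² + xy = x³ + a₂x² + a₄x`, `Roots E 0 (a^p/4) (-b^p/4)` (`S05.frey_roots`); use it in the order
`e = 0`, `e' = -b^p/4`, `e'' = a^p/4` (`.swap`): `κ = e' e'' = a₄`, `N := ord κ = p v₂(b) - 4 > 0`,
`ord e'' = -2`, `ord 4 + ord e'' = 0`, `4 (e' + e'') = a^p - b^p ∈ A`.  So `S13.node_struct`,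
`S13.node_ord'`, `S13.xSeq_E0` apply at a valuation subring `A` over `2` (`S05.exists_isOrd`).
Points of order `p` are integral at `A` (`S05.xSeq_integral`, `p` is a unit; `frey_b_mem`).
With `X k = x(kR)`:  `X(i+j) X(i-j) (X i - X j)² = (X i X j - κ)²`  (`YSeq.mulK`, `ySeq_of_xSeq`).
-/

namespace Fermat.Agent.S13

open WeierstrassCurve WeierstrassCurve.Affine WeierstrassCurve.Affine.Point
open Fermat.Agent.S05

local notation "Kb" => AlgebraicClosure ℚ

section Units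

variable {K : Type*} [Field K] (A : ValuationSubring K)

lemma not_nu_mul {x y : K} (hx : x ∈ A) (hx' : x ∉ A.nonunits) (hy : y ∈ A)
    (hy' : y ∉ A.nonunits) : x * y ∉ A.nonunits := by
  have h1 := (val_one_iff A).mpr ⟨hx, hx'⟩
  have h2 := (val_one_iff A).mpr ⟨hy, hy'⟩
  have : A.valuation (x * y) = 1 := by rw [map_mul, h1, h2, one_mul]
  exact ((val_one_iff A).mp this).2

end Units

/-- the local data of a curve `y² + xy = x³ + a₂x² + a₄x` with a node at `(0,0)` in residue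
characteristic `2`. -/
structure TwoData {K : Type*} [Field K] (V : WeierstrassCurve.Affine K) (A : ValuationSubring K)
    (ord : K → ℚ) (p : ℕ) (e' e'' : K) (N : ℚ) : Prop where
  isOrd : IsOrd A ord
  two_nu : (2 : K) ∈ A.nonunits
  four_ne : (4 : K) ≠ 0
  roots : Roots V 0 e' e''
  ne1 : e' ≠ 0
  ne2 : e'' ≠ 0
  h4r : ord (4 : K) + ord e'' = 0
  hr2 : ord e'' ≤ 0
  hN : 0 < N
  hκ : ord (e' * e'') = N
  hρ : 4 * (e' + e'') ∈ A
  a1 : V.a₁ = 1
  a3 : V.a₃ = 0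
  a6 : V.a₆ = 0
  a2 : V.a₂ ∈ A
  a4 : V.a₄ = e' * e''
  bm : V.b₂ ∈ A ∧ V.b₄ ∈ A ∧ V.b₆ ∈ A ∧ V.b₈ ∈ A
  pp : p.Prime
  p5 : 5 ≤ p

namespace TwoData

variable {K : Type*} [Field K] [DecidableEq K] {V : WeierstrassCurve.Affine K}
  {A : ValuationSubring K} {ord : K → ℚ} {p : ℕ} {e' e'' : K} {N : ℚ}
  (D : TwoData V A ord p e' e'' N)
include D

lemma odd : Odd p := D.pp.odd_of_ne_two (by have := D.p5; omega)

lemma p_not_nu : (p : K) ∉ A.nonunits := by
  intro h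
  obtain ⟨m, hm⟩ := D.odd
  apply one_not_nu A
  have : (1 : K) = (p : K) - 2 * m := by rw [hm]; push_cast; ring
  rw [this]
  exact nu_sub A h (nu_mul_right A D.two_nu (S05.natCast_mem A m))

lemma κ_nu : e' * e'' ∈ A.nonunits :=
  (D.isOrd.pos_iff (mul_ne_zero D.ne1 D.ne2)).mp (by rw [D.hκ]; exact D.hN)

lemma xSeq {R : V.Point} (hR : R ≠ 0) (hpR : p • R = 0) : XSeq V p (fun k => xc V (k • R)) :=
  xSeq_of_prime_order D.pp hR hpR

lemma ySeq {R : V.Point} (hR : R ≠ 0) (hpR : p • R = 0) :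
    YSeq p e' e'' (fun k => xc V (k • R)) := by
  have := ySeq_of_xSeq D.roots D.odd (D.xSeq hR hpR)
  simpa only [sub_zero] using this

lemma integral {R : V.Point} (hR : R ≠ 0) (hpR : p • R = 0) : xc V R ∈ A := by
  have := xSeq_integral A D.bm.1 D.bm.2.1 D.bm.2.2.1 D.bm.2.2.2 D.p5 D.odd D.p_not_nu
    (D.xSeq hR hpR)
  simpa only [one_nsmul] using this

lemma xc_ne_zero {R : V.Point} (hR : R ≠ 0) (hpR : p • R = 0) : xc V R ≠ 0 := by
  have := (D.ySeq hR hpR).ne0 1 one_pos (by have := D.p5; omega)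
  simpa only [one_nsmul] using this

lemma mul_pt {R : V.Point} (hR : R ≠ 0) (hpR : p • R = 0) {k : ℕ} (hk : 0 < k) (hkp : k < p) :
    k • R ≠ 0 ∧ p • (k • R) = 0 :=
  ⟨nsmul_ne_zero_of_lt D.pp hR hpR hk hkp, by rw [nsmul_left_comm, hpR, nsmul_zero]⟩

lemma unit_all {R : V.Point} (hR : R ≠ 0) (hpR : p • R = 0) (h1 : xc V R ∉ A.nonunits)
    {k : ℕ} (hk : 0 < k) (hkp : k < p) : xc V (k • R) ∈ A ∧ xc V (k • R) ∉ A.nonunits := by
  obtain ⟨h0, hp0⟩ := D.mul_pt hR hpR hk hkp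
  refine ⟨D.integral h0 hp0, ?_⟩
  have := xSeq_E0 A D.roots D.odd (by have := D.p5; omega) (D.xSeq hR hpR)
    (by simpa only [sub_zero] using D.κ_nu) (by simpa only [sub_zero] using D.hρ)
    (by simpa only [sub_zero, one_nsmul] using inv_mem_of_not_nu A h1) k hk hkp
  simp only [sub_zero] at this
  intro hm
  apply one_not_nu A
  rw [← mul_inv_cancel₀ (D.xc_ne_zero h0 hp0)]
  exact nu_mul_right A hm this

/-- Case A: the point does not reduce to the node. -/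
lemma caseA {R : V.Point} (hR : R ≠ 0) (hpR : p • R = 0) (h1 : xc V R ∉ A.nonunits)
    {k : ℕ} (hk : 1 < k) (hkp : k + 1 < p) : xc V (k • R) - xc V R ∉ A.nonunits := by
  intro hm
  have e := (D.ySeq hR hpR).mulK k 1 one_pos hk hkp
  simp only [one_nsmul] at e
  obtain ⟨a1, a2⟩ := D.unit_all hR hpR h1 (k := k) (by omega) (by omega)
  have b1 := D.integral hR hpR
  have c1 := (D.unit_all hR hpR h1 (k := k + 1) (by omega) hkp).1
  have c2 := (D.unit_all hR hpR h1 (k := k - 1) (by omega) (by omega)).1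
  have hL : (xc V (k • R) * xc V R - e' * e'') ^ 2 ∈ A.nonunits := by
    rw [← e, sq]
    exact nu_mul_left A (mul_mem c1 c2) (nu_mul_left A (nu_mem A hm) hm)
  have h3 := nu_of_sq A hL
  have h4 : xc V (k • R) * xc V R ∈ A.nonunits := by
    have := nu_add A h3 D.κ_nu
    simpa using this
  exact not_nu_mul A a1 a2 b1 h1 h4

/-- Case B: the point reduces to the node. -/
lemma caseB {R : V.Point} (hR : R ≠ 0) (hpR : p • R = 0) (h1 : xc V R ∈ A.nonunits) :
    (∀ k, 0 < k → k < p → 0 < ord (xc V (k • R)) ∧ ord (xc V (k • R)) < N) ∧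
    ∃ k₀, 0 < k₀ ∧ k₀ < p ∧
      ∀ j : ℕ, 0 < j → 2 * j < p → ord (xc V (j • k₀ • R)) = j * (2 * N / p) := by
  have hx0 := D.xc_ne_zero hR hpR
  have := node_struct D.isOrd D.roots D.pp D.p5 D.four_ne D.hN
    (by simpa only [sub_zero] using D.ne1) (by simpa only [sub_zero] using D.ne2)
    (by simpa only [sub_zero] using D.h4r) (by simpa only [sub_zero] using D.hr2)
    (by simpa only [sub_zero] using D.hκ) (by simpa only [sub_zero] using D.hρ) hR hpR
    (by simpa only [sub_zero] using (D.isOrd.pos_iff hx0).mpr h1)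
  simpa only [sub_zero] using this

lemma a4_mem : V.a₄ ∈ A := by rw [D.a4]; exact nu_mem A D.κ_nu

lemma y_mem {x y : K} (h : V.Equation x y) (hx : x ∈ A) : y ∈ A := by
  by_contra hy
  have hu := inv_nu_of_not_mem A hy
  have hy0 : y ≠ 0 := by rintro rfl; exact hy A.zero_mem
  rw [equation_iff, D.a1, D.a3, D.a6] at h
  have key : (1 : K) = y⁻¹ * (-x + (x ^ 3 + V.a₂ * x ^ 2 + V.a₄ * x) * y⁻¹) := by
    field_simp
    linear_combination h
  apply one_not_nu A
  rw [key]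
  apply nu_mul_right A hu
  exact add_mem (neg_mem hx) (mul_mem (add_mem (add_mem (pow_mem hx 3)
    (mul_mem D.a2 (pow_mem hx 2))) (mul_mem D.a4_mem hx)) (nu_mem A hu))

lemma w_mem {x y : K} (h : V.Equation x y) (hx : x ∈ A) (hx0 : x ≠ 0) (h4 : V.a₄ / x ∈ A) :
    y / x ∈ A := by
  by_contra hw
  have hu := inv_nu_of_not_mem A hw
  have hy0 : y ≠ 0 := by rintro rfl; exact hw (by rw [zero_div]; exact A.zero_mem)
  rw [equation_iff, D.a1, D.a3, D.a6] at h
  have key : (1 : K) = (y / x)⁻¹ * (-1 + (x + V.a₂ + V.a₄ / x) * (y / x)⁻¹) := by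
    field_simp
    linear_combination h
  apply one_not_nu A
  rw [key]
  apply nu_mul_right A hu
  exact add_mem (neg_mem A.one_mem) (mul_mem (add_mem (add_mem hx D.a2) h4) (nu_mem A hu))

end TwoData

section Eigen

variable {K : Type*} [Field K] [DecidableEq K] [Algebra ℚ K] {W : WeierstrassCurve.Affine ℚ}
  {L : IntermediateField ℚ K} {A : ValuationSubring K} {σ : K ≃ₐ[ℚ] K}
  {ord : K → ℚ} {p : ℕ} {e' e'' : K} {N : ℚ}

lemma smul_nsmul_comm (σ : K ≃ₐ[ℚ] K) (n : ℕ) (R : (W⁄K).Point) :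
    σ • (n • R) = n • (σ • R) := by
  rw [algEquiv_smul_def, algEquiv_smul_def, map_nsmul]

lemma InL.xc_mem {R : (W⁄K).Point} (h : InL L R) : xc (W⁄K) R ∈ L := by
  cases R with
  | zero => exact L.zero_mem
  | some x y hxy => exact (h x y hxy rfl).1

lemma TwoData.smul_ne_neg (D : TwoData (W⁄K) A ord p e' e'' N) (hσ : RI L A σ)
    {R : (W⁄K).Point} (hR : R ≠ 0) (hpR : p • R = 0) (hRL : InL L R) : σ • R ≠ -R := by
  intro hneg
  obtain ⟨x, y, h, rfl⟩ := exists_some_of_ne_zero hR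
  obtain ⟨hxL, hyL⟩ := hRL x y h rfl
  obtain ⟨h', e1⟩ := smul_some σ h
  rw [e1, neg_some] at hneg
  have hxy : σ x = x ∧ σ y = (W⁄K).negY x y := by
    simpa only [Point.some.injEq] using hneg
  obtain ⟨hx, hy⟩ := hxy
  simp only [negY, D.a1, D.a3] at hy
  have hxA : x ∈ A := D.integral hR hpR
  by_cases hm : x ∈ A.nonunits
  · obtain ⟨hi, -⟩ := D.caseB hR hpR hm
    have h1 := (hi 1 one_pos (by have := D.p5; omega)).2
    rw [one_nsmul] at h1
    simp only [xc_some] at h1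
    have hx0 : x ≠ 0 := D.xc_ne_zero hR hpR
    have h4 : (W⁄K).a₄ / x ∈ A := by
      rw [D.a4, ← D.isOrd.nonneg_iff _ (div_ne_zero (mul_ne_zero D.ne1 D.ne2) hx0),
        D.isOrd.div (mul_ne_zero D.ne1 D.ne2) hx0, D.hκ]
      linarith
    have hw := D.w_mem h.1 hxA hx0 h4
    have hwL : y / x ∈ L := L.div_mem hyL hxL
    have := hσ _ hwL hw
    rw [map_div₀, hx, hy] at this
    apply one_not_nu A
    have e : (1 : K) = -((-y - 1 * x - 0) / x - y / x) - 2 * (y / x) := by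
      field_simp; ring
    rw [e]
    exact nu_sub A (nu_neg A this) (nu_mul_right A D.two_nu hw)
  · have hyA := D.y_mem h.1 hxA
    have := hσ _ hyL hyA
    rw [hy] at this
    apply hm
    have e : x = -((-y - 1 * x - 0) - y) - 2 * y := by ring
    rw [e]
    exact nu_sub A (nu_neg A this) (nu_mul_right A D.two_nu hyA)

theorem TwoData.eigen (D : TwoData (W⁄K) A ord p e' e'' N) (hord2 : ord ((2 : ℕ) : K) = 1)
    (hL : ∀ R : (W⁄K).Point, p • R = 0 → InL L R) (hσ : RI L A σ)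
    {R : (W⁄K).Point} (hR : R ≠ 0) (hpR : p • R = 0) {k : ℕ} (hk : σ • R = k • R) :
    σ • R = R := by
  have hp5 := D.p5
  have h20 : ((2 : ℕ) : K) ≠ 0 := by
    intro h
    apply D.four_ne
    have : (4 : K) = ((2 : ℕ) : K) * 2 := by push_cast; norm_num
    rw [this, h, zero_mul]
  obtain ⟨k', hk'p, hk'⟩ : ∃ k', k' < p ∧ σ • R = k' • R :=
    ⟨k % p, Nat.mod_lt _ (by omega), by rw [hk, nsmul_mod_of_nsmul_eq_zero hpR]⟩
  have hk'0 : 0 < k' := by
    rcases Nat.eq_zero_or_pos k' with h | h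
    · exfalso; rw [h, zero_nsmul] at hk'; exact smul_ne_zero σ hR hk'
    · exact h
  have hcases : k' = 1 ∨ k' = p - 1 := by
    by_cases hm : xc (W⁄K) R ∈ A.nonunits
    · obtain ⟨hi, k₀, hk₀, hk₀p, hlin⟩ := D.caseB hR hpR hm
      obtain ⟨hQ, hpQ⟩ := D.mul_pt hR hpR hk₀ hk₀p
      have hσQ : σ • (k₀ • R) = k' • (k₀ • R) := by
        rw [smul_nsmul_comm, hk', nsmul_left_comm]
      have hc := hlin 1 one_pos (by omega)
      rw [one_nsmul] at hc
      have hpQ0 : (0 : ℚ) < p := by exact_mod_cast (by omega : 0 < p)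
      have hcpos : 0 < 2 * N / p := by have := D.hN; positivity
      have h1 : ord (xc (W⁄K) (k' • k₀ • R)) = ord (xc (W⁄K) (k₀ • R)) := by
        rw [← hσQ, xc_smul]
        exact hσ.ord_eq D.isOrd h20 hord2 (hL _ hpQ).xc_mem (D.xc_ne_zero hQ hpQ)
      obtain ⟨hh, hhp⟩ := D.odd
      rcases Nat.lt_or_ge hh k' with hlt | hge
      · right
        have h2 := hlin (p - k') (by omega) (by omega)
        have hs := (D.xSeq hQ hpQ).sym k' hk'0 hk'p
        rw [hs, h1, hc] at h2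
        have h3 : ((1 : ℕ) : ℚ) = ((p - k' : ℕ) : ℚ) := mul_right_cancel₀ hcpos.ne' h2
        have h4 : 1 = p - k' := by exact_mod_cast h3
        omega
      · left
        have h2 := hlin k' hk'0 (by omega)
        rw [h1, hc] at h2
        have h3 : ((1 : ℕ) : ℚ) = ((k' : ℕ) : ℚ) := mul_right_cancel₀ hcpos.ne' h2
        have h4 : 1 = k' := by exact_mod_cast h3
        omega
    · by_contra hcon
      push Not at hcon
      apply D.caseA hR hpR hm (k := k') (by omega) (by omega)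
      rw [← hk', xc_smul]
      exact hσ _ (hL R hpR).xc_mem (D.integral hR hpR)
  rcases hcases with h | h
  · rw [hk', h, one_nsmul]
  · exfalso
    apply D.smul_ne_neg hσ hR hpR (hL R hpR)
    rw [hk', h]
    have : (p - 1) • R + R = 0 := by
      rw [← succ_nsmul, Nat.sub_add_cancel (by omega), hpR]
    exact eq_neg_of_add_eq_zero_left this

end Eigen

section OrdInt

variable {K : Type*} [Field K] [CharZero K] {A : ValuationSubring K} {ord : K → ℚ}

lemma int_unit_of_odd (h2A : (2 : K) ∈ A.nonunits) {n : ℤ} (hn : ¬ (2 : ℤ) ∣ n) :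
    (n : K) ∈ A ∧ (n : K) ∉ A.nonunits :=
  (val_one_iff A).mp
    (val_int_of_not_dvd A Nat.prime_two (by exact_mod_cast h2A) (by exact_mod_cast hn))

lemma int_nu_of_even (h2A : (2 : K) ∈ A.nonunits) {n : ℤ} (hn : (2 : ℤ) ∣ n) :
    (n : K) ∈ A.nonunits := by
  obtain ⟨m, rfl⟩ := hn
  push_cast
  exact nu_mul_right A h2A (intCast_mem A m)

lemma ord_int_two (h : IsOrd A ord) (h2A : (2 : K) ∈ A.nonunits) (h2 : ord (2 : K) = 1)
    {n : ℤ} (hn : n ≠ 0) : ∃ s : ℕ, ord (n : K) = s ∧ ((2 : ℤ) ∣ n → 0 < s) := by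
  obtain ⟨s, c, hc, hd⟩ := exists_pow_mul_not_dvd Nat.prime_two hn
  have hc0 : (c : K) ≠ 0 := by
    have : c ≠ 0 := by rintro rfl; exact hd (dvd_zero _)
    exact_mod_cast this
  obtain ⟨u1, u2⟩ := int_unit_of_odd h2A (by exact_mod_cast hd : ¬ (2 : ℤ) ∣ c)
  refine ⟨s, ?_, ?_⟩
  · rw [hc]
    push_cast
    rw [h.mul _ _ (pow_ne_zero _ two_ne_zero) hc0, h.pow two_ne_zero, h2,
      h.eq_zero_of_unit u1 u2]
    ring
  · intro h2n
    rcases Nat.eq_zero_or_pos s with h0 | h0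
    · exfalso
      rw [h0, pow_zero, one_mul] at hc
      rw [hc] at h2n
      exact hd (by exact_mod_cast h2n)
    · exact h0

variable [Algebra ℚ K]

lemma algebraMap_rat_eq (r : ℚ) : algebraMap ℚ K r = (r.num : K) / ((r.den : ℤ) : K) := by
  conv_lhs => rw [← Rat.num_div_den r]
  simp

lemma ord_rat_int (h : IsOrd A ord) (h2A : (2 : K) ∈ A.nonunits) (h2 : ord (2 : K) = 1)
    {r : ℚ} (hr : r ≠ 0) : ∃ m : ℤ, ord (algebraMap ℚ K r) = m := by
  have hn0 : r.num ≠ 0 := Rat.num_ne_zero.mpr hr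
  have hd0 : (r.den : ℤ) ≠ 0 := by exact_mod_cast r.den_ne_zero
  obtain ⟨s, hs, -⟩ := ord_int_two h h2A h2 hn0
  obtain ⟨t, ht, -⟩ := ord_int_two h h2A h2 hd0
  refine ⟨s - t, ?_⟩
  rw [algebraMap_rat_eq, h.div (by exact_mod_cast hn0) (by exact_mod_cast hd0), hs, ht]
  push_cast; ring

lemma rat_unit_sub_one (h2A : (2 : K) ∈ A.nonunits) {r : ℚ} (h1 : algebraMap ℚ K r ∈ A)
    (h2 : algebraMap ℚ K r ∉ A.nonunits) : algebraMap ℚ K r - 1 ∈ A.nonunits := by
  have hd0 : (r.den : ℤ) ≠ 0 := by exact_mod_cast r.den_ne_zero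
  have hd0' : ((r.den : ℤ) : K) ≠ 0 := by exact_mod_cast hd0
  have e := algebraMap_rat_eq (K := K) r
  have e' : algebraMap ℚ K r * ((r.den : ℤ) : K) = (r.num : K) := by
    rw [e]; field_simp
  by_cases hde : (2 : ℤ) ∣ (r.den : ℤ)
  · exfalso
    have hno : ¬ (2 : ℤ) ∣ r.num := by
      intro hne
      have hcop : IsCoprime r.num (r.den : ℤ) := by
        rw [Int.isCoprime_iff_gcd_eq_one]
        exact r.reduced
      exact (by decide : ¬ IsUnit (2 : ℤ)) (hcop.isUnit_of_dvd' hne hde)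
    apply (int_unit_of_odd h2A hno).2
    rw [← e']
    exact nu_mul_left A h1 (int_nu_of_even h2A hde)
  · obtain ⟨d1, d2⟩ := int_unit_of_odd h2A hde
    have dinv := inv_mem_of_not_nu A d2
    have hno : ¬ (2 : ℤ) ∣ r.num := by
      intro hne
      apply h2
      rw [e, div_eq_mul_inv]
      exact nu_mul_right A (int_nu_of_even h2A hne) dinv
    have hev : (2 : ℤ) ∣ r.num - (r.den : ℤ) := by omega
    have e2 : algebraMap ℚ K r - 1 = ((r.num - (r.den : ℤ) : ℤ) : K) * ((r.den : ℤ) : K)⁻¹ := by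
      rw [e]; push_cast; field_simp
    rw [e2]
    exact nu_mul_right A (int_nu_of_even h2A hev) dinv

end OrdInt

section Frey

local notation "ι" => algebraMap ℚ (AlgebraicClosure ℚ)

theorem frey_twoData (P : FreyPackage) (A : ValuationSubring Kb) (h2A : (2 : Kb) ∈ A.nonunits) :
    ∃ (ord : Kb → ℚ) (e' e'' : Kb) (s : ℕ),
      TwoData ((P.freyCurve : WeierstrassCurve.Affine ℚ)⁄Kb) A ord P.p e' e''
        ((P.p : ℚ) * s - 4) ∧ ord (2 : Kb) = 1 := by
  have : Algebra.IsAlgebraic ℚ Kb := AlgebraicClosure.isAlgebraic ℚ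
  obtain ⟨ord, hord, h2⟩ := exists_isOrd A Nat.prime_two (by exact_mod_cast h2A)
  have h2' : ord (2 : Kb) = 1 := by exact_mod_cast h2
  obtain ⟨s, hs, hspos⟩ := ord_int_two hord h2A h2' P.hb0
  have hs0 : 0 < s := hspos (frey_b_even P)
  obtain ⟨ua1, ua2⟩ := int_unit_of_odd h2A (frey_a_odd P)
  have ha : ord (P.a : Kb) = 0 := hord.eq_zero_of_unit ua1 ua2
  have hr := ((frey_roots P).baseChange (K := Kb)).swap
  have ea : ι ((P.a : ℚ) ^ P.p / 4) = (P.a : Kb) ^ P.p / 4 := by simp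
  have eb : ι (-((P.b : ℚ) ^ P.p) / 4) = -((P.b : Kb) ^ P.p / 4) := by simp [neg_div]
  have e0 : ι 0 = 0 := map_zero _
  rw [ea, eb, e0] at hr
  have h4 : ord (4 : Kb) = 2 := by
    have : (4 : Kb) = 2 * 2 := by norm_num
    rw [this, hord.mul _ _ two_ne_zero two_ne_zero, h2']; norm_num
  have ha0 : (P.a : Kb) ≠ 0 := by exact_mod_cast P.ha0
  have hb0 : (P.b : Kb) ≠ 0 := by exact_mod_cast P.hb0
  have h40 : (4 : Kb) ≠ 0 := by norm_num
  have oa : ord ((P.a : Kb) ^ P.p / 4) = -2 := by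
    rw [hord.div (pow_ne_zero _ ha0) h40, hord.pow ha0, ha, h4]; ring
  have ob : ord (-((P.b : Kb) ^ P.p / 4)) = (P.p : ℚ) * s - 2 := by
    rw [hord.neg, hord.div (pow_ne_zero _ hb0) h40, hord.pow hb0, hs, h4]
  have n1 : -((P.b : Kb) ^ P.p / 4) ≠ 0 := neg_ne_zero.mpr (div_ne_zero (pow_ne_zero _ hb0) h40)
  have n2 : (P.a : Kb) ^ P.p / 4 ≠ 0 := div_ne_zero (pow_ne_zero _ ha0) h40
  refine ⟨ord, -((P.b : Kb) ^ P.p / 4), (P.a : Kb) ^ P.p / 4, s, ⟨hord, h2A, h40, hr, n1, n2,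
    ?_, ?_, ?_, ?_, ?_, frey_a₁ P, frey_a₃ P, frey_a₆ P, frey_a₂_mem A P, ?_, frey_b_mem A P,
    P.pp, P.hp5⟩, h2'⟩
  · rw [h4, oa]; norm_num
  · rw [oa]; norm_num
  · have h5 : (5 : ℚ) ≤ P.p := by exact_mod_cast P.hp5
    have h1 : (1 : ℚ) ≤ s := by exact_mod_cast hs0
    nlinarith
  · rw [hord.mul _ _ n1 n2, oa, ob]; ring
  · have : 4 * (-((P.b : Kb) ^ P.p / 4) + (P.a : Kb) ^ P.p / 4)
        = (P.a : Kb) ^ P.p - (P.b : Kb) ^ P.p := by ring
    rw [this]
    exact sub_mem (pow_mem (intCast_mem A _) _) (pow_mem (intCast_mem A _) _)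
  · rw [bc_a₄]
    simp only [FreyPackage.freyCurve]
    simp only [map_div₀, map_mul, map_neg, map_pow, map_intCast, map_ofNat]
    ring

theorem frey_eigen_two (P : FreyPackage) (A : ValuationSubring Kb) (h2A : (2 : Kb) ∈ A.nonunits)
    (L : IntermediateField ℚ Kb)
    (hL : ∀ R : ((P.freyCurve : WeierstrassCurve.Affine ℚ)⁄Kb).Point, P.p • R = 0 → InL L R)
    {σ : Kb ≃ₐ[ℚ] Kb} (hσ : RI L A σ)
    {R : ((P.freyCurve : WeierstrassCurve.Affine ℚ)⁄Kb).Point} (hR0 : R ≠ 0) (hR : P.p • R = 0)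
    {k : ℕ} (hk : σ • R = k • R) : σ • R = R := by
  obtain ⟨ord, e', e'', s, D, h2⟩ := frey_twoData P A h2A
  exact D.eigen (by exact_mod_cast h2) hL hσ hR0 hR hk

theorem frey_no_rational_torsion (P : FreyPackage)
    {R : ((P.freyCurve : WeierstrassCurve.Affine ℚ)⁄Kb).Point} (hR0 : R ≠ 0) (hR : P.p • R = 0)
    (hfix : ∀ σ : Kb ≃ₐ[ℚ] Kb, σ • R = R) : False := by
  have := S54.isGalois_algebraicClosure_rat
  obtain ⟨A, hA⟩ := S54.exists_liesOverPrime Kb Nat.prime_two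
  have h2A : (2 : Kb) ∈ A.nonunits := by exact_mod_cast hA
  obtain ⟨ord, e', e'', s, D, h2⟩ := frey_twoData P A h2A
  have hp5 := P.hp5
  have hrat : ∀ k : ℕ, ∃ r : ℚ, ι r = xc _ (k • R) := by
    intro k
    apply (InfiniteGalois.mem_range_algebraMap_iff_fixed _).mpr
    intro σ
    rw [← xc_smul, smul_nsmul_comm, hfix]
  by_cases hm : xc _ R ∈ A.nonunits
  · obtain ⟨hi, k₀, hk₀, hk₀p, hlin⟩ := D.caseB hR0 hR hm
    obtain ⟨hQ, hpQ⟩ := D.mul_pt hR0 hR hk₀ hk₀p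
    have hc := hlin 1 one_pos (by omega)
    rw [one_nsmul] at hc
    obtain ⟨r, hr⟩ := hrat k₀
    have hr0 : r ≠ 0 := by
      rintro rfl
      rw [_root_.map_zero] at hr
      exact D.xc_ne_zero hQ hpQ hr.symm
    obtain ⟨m, hm'⟩ := ord_rat_int D.isOrd h2A h2 hr0
    rw [hr, hc] at hm'
    have hpQ0 : (P.p : ℚ) ≠ 0 := by exact_mod_cast P.hp0
    have h8 : (8 : ℚ) = P.p * (2 * s - m) := by
      field_simp at hm'
      push_cast at hm'
      linarith
    have h8' : (8 : ℤ) = P.p * (2 * s - m) := by exact_mod_cast h8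
    have hdvd : (P.p : ℤ) ∣ 8 := ⟨_, h8'⟩
    have hdvd' : P.p ∣ 8 := by exact_mod_cast hdvd
    have h23 : P.p ∣ 2 ^ 3 := by norm_num; exact hdvd'
    have := Nat.le_of_dvd (by norm_num) (P.pp.dvd_of_dvd_pow h23)
    omega
  · obtain ⟨r1, hr1⟩ := hrat 1
    obtain ⟨r2, hr2⟩ := hrat 2
    rw [one_nsmul] at hr1
    obtain ⟨u1, u2⟩ := D.unit_all hR0 hR hm (k := 2) (by omega) (by omega)
    apply D.caseA hR0 hR hm (k := 2) (by omega) (by omega)
    have a1 := rat_unit_sub_one h2A (r := r1) (by rw [hr1]; exact D.integral hR0 hR)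
      (by rw [hr1]; exact hm)
    have a2 := rat_unit_sub_one h2A (r := r2) (by rw [hr2]; exact u1) (by rw [hr2]; exact u2)
    rw [hr1] at a1
    rw [hr2] at a2
    have := nu_sub A a2 a1
    simpa using this

end Frey

end Fermat.Agent.S13
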