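import Fermat.Agent.S13.Ladder
import Fermat.Agent.S05.Ord
import Fermat.Prelude.Def_FLTPrelim_GaloisRep

set_option autoImplicit false

/-!
# `E[p]` over an algebraically closed field of characteristic `0`: nontrivial, dimension `≤ 2`,
and the product formula for the roots of the division polynomial.
Uses ONLY the four interface theorems of `Ladder.lean`.
-/

namespace Fermat.Agent.S13

open WeierstrassCurve WeierstrassCurve.Affine WeierstrassCurve.Affine.Point Polynomial
open Fermat.Agent.S05

section General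

variable {K : Type*} [Field K] [DecidableEq K] [IsAlgClosed K] [CharZero K]
  (V : WeierstrassCurve.Affine K)

omit [IsAlgClosed K] in
theorem torsion_divPoly_coeff_ne (h : ℕ) : (divPoly V h).coeff (2 * h * (h + 1)) ≠ 0 := by
  rw [divPoly_coeff, neg_ne_zero]
  exact_mod_cast (Nat.succ_ne_zero (2 * h))

omit [IsAlgClosed K] in
theorem torsion_divPoly_ne_zero (h : ℕ) : divPoly V h ≠ 0 := by
  intro h0
  apply torsion_divPoly_coeff_ne V h
  rw [h0, coeff_zero]

omit [IsAlgClosed K] in
theorem torsion_divPoly_natDegree (h : ℕ) : (divPoly V h).natDegree = 2 * h * (h + 1) :=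
  le_antisymm (divPoly_natDegree_le V h) (le_natDegree_of_ne_zero (torsion_divPoly_coeff_ne V h))

omit [IsAlgClosed K] in
theorem torsion_divPoly_leadingCoeff (h : ℕ) :
    (divPoly V h).leadingCoeff = -((2 * h + 1 : ℕ) : K) := by
  rw [leadingCoeff, torsion_divPoly_natDegree, divPoly_coeff]

/-- the quadratic in `y` -/
noncomputable def torsionQuad (x : K) : K[X] :=
  X ^ 2 + C (V.a₁ * x + V.a₃) * X - C (x ^ 3 + V.a₂ * x ^ 2 + V.a₄ * x + V.a₆)

omit [DecidableEq K] [IsAlgClosed K] [CharZero K] in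
theorem torsionQuad_eval (x y : K) : (torsionQuad V x).eval y = 0 ↔ V.Equation x y := by
  rw [equation_iff', torsionQuad]
  simp only [eval_sub, eval_add, eval_pow, eval_X, eval_mul, eval_C]
  constructor <;> intro h <;> linear_combination h

omit [DecidableEq K] [IsAlgClosed K] [CharZero K] in
theorem torsionQuad_natDegree (x : K) : (torsionQuad V x).natDegree = 2 := by
  unfold torsionQuad
  compute_degree!

omit [DecidableEq K] [IsAlgClosed K] [CharZero K] in
theorem torsionQuad_ne_zero (x : K) : torsionQuad V x ≠ 0 := by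
  intro h
  have := torsionQuad_natDegree V x
  rw [h] at this
  simp at this

theorem torsion_odd {p : ℕ} (hp : p.Prime) (hp2 : p ≠ 2) : ∃ h, 1 ≤ h ∧ p = 2 * h + 1 := by
  obtain ⟨h, hh⟩ := hp.odd_of_ne_two hp2
  refine ⟨h, ?_, hh⟩
  have := hp.two_le
  omega

theorem exists_torsion_point (hΔ : V.Δ ≠ 0) {p : ℕ} (hp : p.Prime) (hp2 : p ≠ 2) :
    ∃ P : V.Point, P ≠ 0 ∧ p • P = 0 := by
  obtain ⟨h, h1, rfl⟩ := torsion_odd hp hp2
  have hdeg : (divPoly V h).degree ≠ 0 := by
    rw [degree_eq_natDegree (torsion_divPoly_ne_zero V h), torsion_divPoly_natDegree]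
    have : 0 < 2 * h * (h + 1) := by positivity
    exact_mod_cast this.ne'
  obtain ⟨x, hx⟩ := IsAlgClosed.exists_root _ hdeg
  have hdeg2 : (torsionQuad V x).degree ≠ 0 := by
    rw [degree_eq_natDegree (torsionQuad_ne_zero V x), torsionQuad_natDegree]
    norm_num
  obtain ⟨y, hy⟩ := IsAlgClosed.exists_root _ hdeg2
  have heq : V.Equation x y := (torsionQuad_eval V x y).mp hy
  have hns : V.Nonsingular x y := (equation_iff_nonsingular_of_Δ_ne_zero hΔ).mp heq
  exact ⟨Point.some x y hns, Point.some_ne_zero hns, (divPoly_eval_eq_zero_iff V h hns).mp hx⟩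

/-- finite set of candidate affine points -/
noncomputable def torsionPairs (h : ℕ) : Finset (K × K) :=
  (divPoly V h).roots.toFinset.biUnion fun x =>
    (torsionQuad V x).roots.toFinset.image fun y => (x, y)

omit [IsAlgClosed K] in
theorem torsionPairs_card_le (h : ℕ) : (torsionPairs V h).card ≤ 2 * (2 * h * (h + 1)) := by
  calc (torsionPairs V h).card
      ≤ ∑ x ∈ (divPoly V h).roots.toFinset,
          ((torsionQuad V x).roots.toFinset.image fun y => (x, y)).card := Finset.card_biUnion_le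
    _ ≤ ∑ _x ∈ (divPoly V h).roots.toFinset, 2 := Finset.sum_le_sum fun x _ =>
        Finset.card_image_le.trans ((Multiset.toFinset_card_le _).trans
          ((card_roots' _).trans_eq (torsionQuad_natDegree V x)))
    _ = (divPoly V h).roots.toFinset.card * 2 := by simp
    _ ≤ (2 * h * (h + 1)) * 2 := Nat.mul_le_mul_right _
        ((Multiset.toFinset_card_le _).trans
          ((card_roots' _).trans_eq (torsion_divPoly_natDegree V h)))
    _ = 2 * (2 * h * (h + 1)) := by ring

/-- coordinates of a point -/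
def torsionCode : V.Point → Option (K × K)
  | .zero => none
  | .some x y _ => some (x, y)

omit [DecidableEq K] [IsAlgClosed K] [CharZero K] in
theorem torsionCode_injective : Function.Injective (torsionCode V) := by
  intro P Q h
  cases P <;> cases Q <;> simp_all [torsionCode]

omit [IsAlgClosed K] in
theorem torsionCode_mem (h : ℕ) (P : V.Point) (hP : (2 * h + 1) • P = 0) :
    torsionCode V P ∈ Finset.insertNone (torsionPairs V h) := by
  cases P with
  | zero => simp [torsionCode]
  | some x y hxy =>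
    simp only [torsionCode, Finset.mem_insertNone, Option.mem_def, Option.some.injEq,
      forall_eq', torsionPairs, Finset.mem_biUnion, Finset.mem_image, Multiset.mem_toFinset,
      Prod.mk.injEq]
    refine ⟨x, ?_, y, ?_, rfl, rfl⟩
    · rw [mem_roots (torsion_divPoly_ne_zero V h)]
      exact (divPoly_eval_eq_zero_iff V h hxy).mpr hP
    · rw [mem_roots (torsionQuad_ne_zero V x)]
      exact (torsionQuad_eval V x y).mpr hxy.1

theorem card_torsion_le {p : ℕ} (hp : p.Prime) (hp2 : p ≠ 2) :
    Finite {P : V.Point // p • P = 0} ∧ Nat.card {P : V.Point // p • P = 0} ≤ p ^ 2 := by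
  obtain ⟨h, h1, rfl⟩ := torsion_odd hp hp2
  let f : {P : V.Point // (2 * h + 1) • P = 0} → ↥(Finset.insertNone (torsionPairs V h)) :=
    fun P => ⟨torsionCode V P.1, torsionCode_mem V h P.1 P.2⟩
  have hf : Function.Injective f := by
    intro P Q hPQ
    exact Subtype.ext (torsionCode_injective V (congrArg Subtype.val hPQ))
  refine ⟨Finite.of_injective f hf, ?_⟩
  calc Nat.card {P : V.Point // (2 * h + 1) • P = 0}
      ≤ Nat.card ↥(Finset.insertNone (torsionPairs V h)) := Nat.card_le_card_of_injective f hf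
    _ = (torsionPairs V h).card + 1 := by
        rw [Nat.card_eq_fintype_card, Fintype.card_coe, Finset.card_insertNone]
    _ ≤ 2 * (2 * h * (h + 1)) + 1 := Nat.add_le_add_right (torsionPairs_card_le V h) 1
    _ = (2 * h + 1) ^ 2 := by ring

omit [DecidableEq K] [IsAlgClosed K] [CharZero K] in
theorem torsion_ord_prod {A : ValuationSubring K} {ord : K → ℚ} (hord : IsOrd A ord)
    (M : Multiset K) (hM : ∀ r ∈ M, r ≠ 0) :
    M.prod ≠ 0 ∧ ord M.prod = (M.map ord).sum := by
  induction M using Multiset.induction_on with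
  | empty => simp [hord.one]
  | cons a M ih =>
    have ha : a ≠ 0 := hM a (Multiset.mem_cons_self a M)
    obtain ⟨h1, h2⟩ := ih fun r hr => hM r (Multiset.mem_cons_of_mem hr)
    refine ⟨by rw [Multiset.prod_cons]; exact mul_ne_zero ha h1, ?_⟩
    rw [Multiset.prod_cons, hord.mul _ _ ha h1, h2, Multiset.map_cons, Multiset.sum_cons]

theorem torsion_sum_neg {α : Type*} (g : α → ℚ) (M : Multiset α) (hM : ∀ r ∈ M, g r < 0) :
    (M.map g).sum ≤ 0 ∧ (M ≠ 0 → (M.map g).sum < 0) := by
  induction M using Multiset.induction_on with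
  | empty => simp
  | cons a M ih =>
    have ha : g a < 0 := hM a (Multiset.mem_cons_self a M)
    obtain ⟨h1, -⟩ := ih fun r hr => hM r (Multiset.mem_cons_of_mem hr)
    rw [Multiset.map_cons, Multiset.sum_cons]
    exact ⟨by linarith, fun _ => by linarith⟩

theorem sum_ord_lt {A : ValuationSubring K} {ord : K → ℚ} (hord : IsOrd A ord)
    (h2 : V.b₂ ∈ A) (h4 : V.b₄ ∈ A) (h6 : V.b₆ ∈ A) (h8 : V.b₈ ∈ A) (h : ℕ)
    (hroots : ∀ r, (divPoly V h).eval r = 0 → r ∉ A)
    (S : Finset K) (hS : ∀ r ∈ S, (divPoly V h).eval r = 0) (hcard : S.card < 2 * h * (h + 1)) :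
    - ord ((2 * h + 1 : ℕ) : K) < ∑ r ∈ S, ord r := by
  set f := divPoly V h with hf
  have hf0 : f ≠ 0 := torsion_divPoly_ne_zero V h
  have hsp : f.Splits := IsAlgClosed.splits f
  have hcardR : f.roots.card = 2 * h * (h + 1) := by
    rw [← hsp.natDegree_eq_card_roots, hf, torsion_divPoly_natDegree]
  have hrootA : ∀ r ∈ f.roots, r ∉ A := fun r hr => hroots r ((mem_roots hf0).mp hr)
  have hroot0 : ∀ r ∈ f.roots, r ≠ 0 := fun r hr h0 => hrootA r hr (h0 ▸ A.zero_mem)
  have hev : f.eval 0 = f.leadingCoeff * (f.roots.map fun r => -r).prod := by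
    rw [hsp.eval_eq_prod_roots]
    simp
  have hmem : f.eval 0 ∈ A := divPoly_eval_mem V A.toSubring h2 h4 h6 h8 h A.zero_mem
  have hne : f.eval 0 ≠ 0 := fun h0 => hroots 0 h0 A.zero_mem
  have hlc : f.leadingCoeff = -((2 * h + 1 : ℕ) : K) := torsion_divPoly_leadingCoeff V h
  have hlc0 : f.leadingCoeff ≠ 0 := leadingCoeff_ne_zero.mpr hf0
  obtain ⟨hp0, hp1⟩ := torsion_ord_prod hord (f.roots.map fun r => -r) (by
    intro r hr
    obtain ⟨s, hs, rfl⟩ := Multiset.mem_map.mp hr
    exact neg_ne_zero.mpr (hroot0 s hs))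
  have h1 : 0 ≤ ord ((2 * h + 1 : ℕ) : K) + (f.roots.map ord).sum := by
    have := (hord.nonneg_iff _ hne).mpr hmem
    rw [hev, hord.mul _ _ hlc0 hp0, hp1, hlc, hord.neg, Multiset.map_map] at this
    have e : (f.roots.map (ord ∘ fun r => -r)) = f.roots.map ord :=
      Multiset.map_congr rfl fun r _ => hord.neg r
    rwa [e] at this
  have hle : S.val ≤ f.roots := (Multiset.le_iff_subset S.nodup).mpr fun r hr =>
    (mem_roots hf0).mpr (hS r hr)
  have hsplit : f.roots = S.val + (f.roots - S.val) := (add_tsub_cancel_of_le hle).symm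
  have hrest : f.roots - S.val ≠ 0 := by
    intro h0
    rw [h0, add_zero] at hsplit
    rw [hsplit] at hcardR
    have : S.card = 2 * h * (h + 1) := hcardR
    omega
  have hneg := (torsion_sum_neg ord (f.roots - S.val) (fun r hr => by
    have hr' : r ∈ f.roots := Multiset.mem_of_le (Multiset.sub_le_self _ _) hr
    by_contra hge
    push Not at hge
    exact hrootA r hr' ((hord.nonneg_iff r (hroot0 r hr')).mp hge))).2 hrest
  have hsum : (f.roots.map ord).sum = ∑ r ∈ S, ord r + ((f.roots - S.val).map ord).sum := by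
    conv_lhs => rw [hsplit, Multiset.map_add, Multiset.sum_add]
    rfl
  rw [hsum] at h1
  linarith

end General

section Module

variable {K : Type*} [Field K] [DecidableEq K] [IsAlgClosed K] [CharZero K] [Algebra ℚ K]
  (W : WeierstrassCurve.Affine ℚ)

omit [IsAlgClosed K] [CharZero K] in
theorem torsion_mem_iff {p : ℕ} (P : (W⁄K).Point) :
    P ∈ Submodule.torsionBy ℤ (W⁄K).Point p ↔ p • P = 0 := by
  rw [Submodule.mem_torsionBy_iff, natCast_zsmul]

theorem torsion_nontrivial (hΔ : W.Δ ≠ 0) {p : ℕ} (hp : p.Prime) (hp2 : p ≠ 2) :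
    Nontrivial (Submodule.torsionBy ℤ (W⁄K).Point p) := by
  have hΔ' : (W⁄K).Δ ≠ 0 := by
    change (W.map (algebraMap ℚ K)).Δ ≠ 0
    rw [WeierstrassCurve.map_Δ]
    exact (_root_.map_ne_zero _).mpr hΔ
  obtain ⟨P, hP0, hP⟩ := exists_torsion_point (W⁄K) hΔ' hp hp2
  refine ⟨⟨⟨P, (torsion_mem_iff W P).mpr hP⟩, 0, ?_⟩⟩
  intro h
  exact hP0 (congrArg Subtype.val h)

/-- comparison with the subtype used in `card_torsion_le` -/
def torsionToSub (p : ℕ) :
    Submodule.torsionBy ℤ (W⁄K).Point p → {P : (W⁄K).Point // p • P = 0} :=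
  fun P => ⟨P.1, (torsion_mem_iff W P.1).mp P.2⟩

omit [IsAlgClosed K] [CharZero K] in
theorem torsionToSub_injective (p : ℕ) : Function.Injective (torsionToSub (K := K) W p) := by
  intro P Q h
  exact Subtype.ext (congrArg Subtype.val h)

theorem torsion_finite {p : ℕ} (hp : p.Prime) (hp2 : p ≠ 2) :
    Finite (Submodule.torsionBy ℤ (W⁄K).Point p) := by
  haveI := (card_torsion_le (W⁄K) hp hp2).1
  exact Finite.of_injective _ (torsionToSub_injective W p)

theorem torsion_finrank_le {p : ℕ} (hp : p.Prime) (hp2 : p ≠ 2) :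
    Module.finrank (ZMod p) (Submodule.torsionBy ℤ (W⁄K).Point p) ≤ 2 := by
  haveI : Fact p.Prime := ⟨hp⟩
  haveI := (card_torsion_le (W⁄K) hp hp2).1
  haveI := torsion_finite (K := K) W hp hp2
  have h1 : Nat.card (Submodule.torsionBy ℤ (W⁄K).Point p) ≤ p ^ 2 :=
    (Nat.card_le_card_of_injective _ (torsionToSub_injective W p)).trans
      (card_torsion_le (W⁄K) hp hp2).2
  letI := Fintype.ofFinite (Submodule.torsionBy ℤ (W⁄K).Point p)
  have h2 := Module.card_eq_pow_finrank (K := ZMod p)
    (V := Submodule.torsionBy ℤ (W⁄K).Point p)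
  rw [ZMod.card, ← Nat.card_eq_fintype_card] at h2
  rw [h2] at h1
  exact (Nat.pow_le_pow_iff_right hp.one_lt).mp h1

end Module

end Fermat.Agent.S13

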