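import Fermat.Agent.S13.FreyBasic
import Fermat.Agent.S13.Torsion
import Fermat.Agent.S54.Frobenius

set_option autoImplicit false
set_option linter.unusedSectionVars false
set_option linter.unusedVariables false

/-!
# At `p`: a Galois-stable line prevents `E[p] ⊆ E₁`

Suppose every `R` with `pR = 0` has `R = 0` or `x(R) ∉ A` (`A` over `p`, `ord p = 1`).
`S := image of x on {k • P₁ : 0 < k < p}` (a `Finset Kb`) is Galois stable
(`σ x(kP₁) = x(k σP₁) = x(k m P₁)`, `S05.xc_smul`), so `π = ∏_{r ∈ S} r` is fixed by Galois, hence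
rational (`InfiniteGalois.mem_range_algebraMap_iff_fixed`, `S54.isGalois_algebraicClosure_rat`),
nonzero; `ord π = ∑_{r ∈ S} ord r < 0` is an integer, so `≤ -1`.
All `r ∈ S` are roots of `divPoly E h` (`p = 2h+1`, `divPoly_eval_eq_zero_iff`), every root `r` of
`divPoly` is `x(R)` for a point `R ≠ 0` with `pR = 0` (solve for `y`; `Δ ≠ 0`), so `r ∉ A`;
`S.card ≤ p - 1 < 2h(h+1)`.  `sum_ord_lt` gives `-1 = -ord p < ∑_{r∈S} ord r`: contradiction.
-/

namespace Fermat.Agent.S13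

open WeierstrassCurve WeierstrassCurve.Affine WeierstrassCurve.Affine.Point
open Fermat.Agent.S05

local notation "Kb" => AlgebraicClosure ℚ

section OrdRat

variable {K : Type*} [Field K] [CharZero K] {A : ValuationSubring K} {ord : K → ℚ}

lemma atP_ord_int (hord : IsOrd A ord) {p : ℕ} (hp : p.Prime) (hpA : (p : K) ∈ A.nonunits)
    (h1 : ord (p : K) = 1) {n : ℤ} (hn : n ≠ 0) : ∃ s : ℕ, ord (n : K) = s := by
  obtain ⟨s, c, hnc, hc⟩ := exists_pow_mul_not_dvd hp hn
  refine ⟨s, ?_⟩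
  have hp0 : (p : K) ≠ 0 := by exact_mod_cast hp.ne_zero
  have hc0 : (c : K) ≠ 0 := by
    intro h
    apply hc
    have : c = 0 := by exact_mod_cast h
    rw [this]
    exact dvd_zero _
  have hcu : ord (c : K) = 0 := by
    have hv := val_int_of_not_dvd A hp hpA hc
    obtain ⟨h2, h3⟩ := (val_one_iff A).1 hv
    exact hord.eq_zero_of_unit h2 h3
  rw [hnc]
  push_cast
  rw [hord.mul _ _ (pow_ne_zero _ hp0) hc0, hord.pow hp0, h1, hcu]
  ring

lemma atP_ord_rat [Algebra ℚ K] (hord : IsOrd A ord) {p : ℕ} (hp : p.Prime)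
    (hpA : (p : K) ∈ A.nonunits) (h1 : ord (p : K) = 1) {t : ℚ} (ht : t ≠ 0) :
    ∃ n : ℤ, ord (algebraMap ℚ K t) = n := by
  have hnum : t.num ≠ 0 := Rat.num_ne_zero.2 ht
  have hden : (t.den : ℤ) ≠ 0 := by exact_mod_cast t.den_ne_zero
  obtain ⟨s, hs⟩ := atP_ord_int hord hp hpA h1 hnum
  obtain ⟨s', hs'⟩ := atP_ord_int hord hp hpA h1 hden
  refine ⟨(s : ℤ) - s', ?_⟩
  have e : algebraMap ℚ K t = (t.num : K) / ((t.den : ℤ) : K) := by
    conv_lhs => rw [← Rat.num_div_den t]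
    rw [map_div₀]
    simp
  have h1' : (t.num : K) ≠ 0 := by exact_mod_cast hnum
  have h2' : ((t.den : ℤ) : K) ≠ 0 := by exact_mod_cast hden
  rw [e, hord.div h1' h2', hs, hs']
  push_cast
  ring

end OrdRat

section Main

variable (P : FreyPackage)

local notation "E" => ((P.freyCurve : WeierstrassCurve.Affine ℚ)⁄Kb)

theorem frey_not_all_E1 (A : ValuationSubring Kb)
    (hpA : (P.p : Kb) ∈ A.nonunits)
    {P₁ : ((P.freyCurve : WeierstrassCurve.Affine ℚ)⁄Kb).Point} (h0 : P₁ ≠ 0)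
    (hp : P.p • P₁ = 0) (hstab : ∀ σ : Kb ≃ₐ[ℚ] Kb, ∃ k : ℕ, σ • P₁ = k • P₁) :
    ∃ R : ((P.freyCurve : WeierstrassCurve.Affine ℚ)⁄Kb).Point, P.p • R = 0 ∧ ¬ E1 A R := by
  by_contra hcon
  push Not at hcon
  have hpp : P.p.Prime := P.pp
  have hp5 := P.hp5
  obtain ⟨h, hh1, hph⟩ := torsion_odd hpp (by omega)
  have : Algebra.IsAlgebraic ℚ Kb := AlgebraicClosure.isAlgebraic ℚ
  obtain ⟨ord, hord, hord1⟩ := exists_isOrd A hpp hpA
  obtain ⟨b2, b4, b6, b8⟩ := frey_b_mem A P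
  have hΔ : (E).Δ ≠ 0 := frey_Δ_ne_zero' P
  -- multiples of `P₁`
  have hne : ∀ k, 0 < k → k < P.p → k • P₁ ≠ 0 := fun k h1 h2 =>
    nsmul_ne_zero_of_lt hpp h0 hp h1 h2
  have hkill : ∀ k : ℕ, P.p • (k • P₁) = 0 := fun k => by
    rw [smul_comm, hp, nsmul_zero]
  set S : Finset Kb := (Finset.Ioo 0 P.p).image (fun k => xc E (k • P₁)) with hS
  -- elements of `S` are not in `A`
  have hSA : ∀ r ∈ S, r ∉ A := by
    intro r hr
    obtain ⟨k, hk, rfl⟩ := Finset.mem_image.1 hr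
    rw [Finset.mem_Ioo] at hk
    rcases hcon _ (hkill k) with h | h
    · exact absurd h (hne k hk.1 hk.2)
    · exact h
  have hS0 : ∀ r ∈ S, r ≠ 0 := fun r hr h => hSA r hr (h ▸ A.zero_mem)
  have hSroot : ∀ r ∈ S, (divPoly E h).eval r = 0 := by
    intro r hr
    obtain ⟨k, hk, rfl⟩ := Finset.mem_image.1 hr
    rw [Finset.mem_Ioo] at hk
    obtain ⟨x, y, hxy, hk'⟩ := exists_some_of_ne_zero (hne k hk.1 hk.2)
    rw [hk', xc_some, divPoly_eval_eq_zero_iff E h hxy, ← hk', ← hph]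
    exact hkill k
  have hroots : ∀ r, (divPoly E h).eval r = 0 → r ∉ A := by
    intro r hr
    have hdeg2 : (torsionQuad E r).degree ≠ 0 := by
      rw [Polynomial.degree_eq_natDegree (torsionQuad_ne_zero E r), torsionQuad_natDegree]
      norm_num
    obtain ⟨y, hy⟩ := IsAlgClosed.exists_root _ hdeg2
    have heq : (E).Equation r y := (torsionQuad_eval E r y).mp hy
    have hns : (E).Nonsingular r y := (equation_iff_nonsingular_of_Δ_ne_zero hΔ).mp heq
    have hR := (divPoly_eval_eq_zero_iff E h hns).mp hr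
    rw [← hph] at hR
    rcases hcon _ hR with h | h
    · exact absurd h (Point.some_ne_zero hns)
    · exact h
  have hcard : S.card < 2 * h * (h + 1) := by
    have h1 : S.card ≤ (Finset.Ioo 0 P.p).card := Finset.card_image_le
    rw [Nat.card_Ioo] at h1
    have h2 : 2 * h < 2 * h * (h + 1) := by nlinarith
    omega
  have hlt := sum_ord_lt E hord b2 b4 b6 b8 h hroots S hSroot hcard
  rw [← hph, hord1] at hlt
  -- the product
  have hprod : ∀ T : Finset Kb, (∀ r ∈ T, r ≠ 0) →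
      (∏ r ∈ T, r) ≠ 0 ∧ ord (∏ r ∈ T, r) = ∑ r ∈ T, ord r := by
    intro T
    induction T using Finset.induction_on with
    | empty => intro _; simp [hord.one]
    | insert a T ha ih =>
      intro hT
      obtain ⟨i1, i2⟩ := ih fun r hr => hT r (Finset.mem_insert_of_mem hr)
      have ha0 := hT a (Finset.mem_insert_self a T)
      rw [Finset.prod_insert ha, Finset.sum_insert ha]
      exact ⟨mul_ne_zero ha0 i1, by rw [hord.mul _ _ ha0 i1, i2]⟩
  obtain ⟨hπ0, hπord⟩ := hprod S hS0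
  -- Galois stability
  have hstabS : ∀ σ : Kb ≃ₐ[ℚ] Kb, S.image σ = S := by
    intro σ
    apply Finset.eq_of_subset_of_card_le
    · intro r hr
      obtain ⟨r', hr', rfl⟩ := Finset.mem_image.1 hr
      obtain ⟨k, hk, rfl⟩ := Finset.mem_image.1 hr'
      rw [Finset.mem_Ioo] at hk
      obtain ⟨m, hm⟩ := hstab σ
      have e1 : σ • (k • P₁) = ((k * m) % P.p) • P₁ := by
        rw [nsmul_mod_of_nsmul_eq_zero hp, mul_nsmul', ← hm]
        rw [algEquiv_smul_def, algEquiv_smul_def, map_nsmul]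
      have e2 : σ • (k • P₁) ≠ 0 := smul_ne_zero σ (hne k hk.1 hk.2)
      rw [← xc_smul, e1]
      refine Finset.mem_image.2 ⟨(k * m) % P.p, Finset.mem_Ioo.2 ⟨?_, Nat.mod_lt _ hpp.pos⟩, rfl⟩
      rcases Nat.eq_zero_or_pos ((k * m) % P.p) with h | h
      · rw [e1, h, zero_nsmul] at e2
        exact absurd rfl e2
      · exact h
    · rw [Finset.card_image_of_injective _ σ.injective]
  have hfix : ∀ σ : Kb ≃ₐ[ℚ] Kb, σ (∏ r ∈ S, r) = ∏ r ∈ S, r := by
    intro σ
    rw [map_prod]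
    conv_rhs => rw [← hstabS σ]
    rw [Finset.prod_image fun x _ y _ hxy => σ.injective hxy]
  have := Fermat.Agent.S54.isGalois_algebraicClosure_rat
  obtain ⟨t, ht⟩ := (InfiniteGalois.mem_range_algebraMap_iff_fixed (k := ℚ) (K := Kb) _).2 hfix
  have ht0 : t ≠ 0 := by
    rintro rfl
    rw [_root_.map_zero] at ht
    exact hπ0 ht.symm
  obtain ⟨n, hn⟩ := atP_ord_rat hord hpp hpA hord1 ht0
  rw [ht, hπord] at hn
  -- the sum is negative
  have hneg : ∑ r ∈ S, ord r < 0 := by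
    apply Finset.sum_neg
    · intro r hr
      by_contra hge
      push Not at hge
      exact hSA r hr ((hord.nonneg_iff r (hS0 r hr)).1 hge)
    · exact ⟨xc E (1 • P₁), Finset.mem_image.2 ⟨1, Finset.mem_Ioo.2 ⟨one_pos, by omega⟩, rfl⟩⟩
  rw [hn] at hneg hlt
  have h1 : n < 0 := by exact_mod_cast hneg
  have h2 : -1 < n := by exact_mod_cast hlt
  omega

end Main

end Fermat.Agent.S13
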