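import Mathlib
import Fermat.Agent.S54.Frobenius

set_option autoImplicit false

/-!
# Minkowski: the absolute Galois group of `ℚ` is generated by (restricted) inertia

`L` is a finite Galois extension of `ℚ` inside `AlgebraicClosure ℚ`, `H` a normal subgroup of the
absolute Galois group containing the automorphisms fixing `L`.  If for every prime `q` there is ONE
valuation subring `A` over `q` such that every `σ` acting trivially on `(A ∩ L) / (m_A ∩ L)` lies
in `H`, then `H = ⊤`.
-/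

open NumberField

namespace Fermat.Agent.S13

local notation "Kb" => AlgebraicClosure ℚ

theorem Mink.unram {L : Type*} [Field L] [NumberField L] [IsGalois ℚ L] (H' : Subgroup Gal(L/ℚ))
    (P : Ideal (𝓞 L)) [P.IsMaximal] (hI : P.inertia Gal(L/ℚ) ≤ H') :
    (P.under (𝓞 (FixedPoints.intermediateField H' : IntermediateField ℚ L))).ramificationIdx ℤ
      = 1 := by
  set F : IntermediateField ℚ L := FixedPoints.intermediateField H' with hF
  set 𝔭 : Ideal (𝓞 F) := P.under (𝓞 F) with h𝔭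
  set p : Ideal ℤ := P.under ℤ with hp
  have : P.LiesOver 𝔭 := ⟨rfl⟩
  have : P.LiesOver p := ⟨rfl⟩
  have : 𝔭.LiesOver p := ⟨by rw [hp, h𝔭, Ideal.under_under]⟩
  have h1 : Nat.card (P.inertia Gal(L/ℚ)) = Ideal.ramificationIdxIn p (𝓞 L) :=
    Ideal.card_inertia_eq_ramificationIdxIn p P
  have : IsGaloisGroup H' F L := IsGaloisGroup.subgroup Gal(L/ℚ) ℚ L H'
  have : IsGaloisGroup H' (𝓞 F) (𝓞 L) := IsGaloisGroup.of_isFractionRing H' _ _ F L
  have h2 : Nat.card (P.inertia H') = Ideal.ramificationIdxIn 𝔭 (𝓞 L) :=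
    Ideal.card_inertia_eq_ramificationIdxIn 𝔭 P
  have h3 : Nat.card (P.inertia H') = Nat.card (P.inertia Gal(L/ℚ)) := by
    exact Nat.card_congr (Subgroup.subgroupOfEquivOfLe hI).toEquiv
  have h4 := Ideal.ramificationIdx_tower (R := ℤ) 𝔭 P
  rw [Ideal.ramificationIdxIn_eq_ramificationIdx p P Gal(L/ℚ)] at h1
  rw [Ideal.ramificationIdxIn_eq_ramificationIdx 𝔭 P H'] at h2
  rw [← h1, ← h2, h3] at h4
  have hpos : 0 < Nat.card (P.inertia Gal(L/ℚ)) := Nat.card_pos
  exact (Nat.mul_eq_right hpos.ne').1 h4.symm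

theorem Mink.inertia_sub {L' : Type*} [Field L'] [NumberField L']
    (A' : ValuationSubring L') {q : ℕ} (hq : q.Prime) (hA : (q : L') ∈ A'.nonunits)
    (τ : L' ≃ₐ[ℚ] L') (hτ : ∀ x : L', IsIntegral ℤ x → τ x - x ∈ A'.nonunits)
    (z : L') (hz : z ∈ A') : τ z - z ∈ A'.nonunits := by
  have halg : IsAlgebraic ℤ z := by
    have h1 : IsAlgebraic ℚ z := Algebra.IsAlgebraic.isAlgebraic z
    exact (IsFractionRing.isAlgebraic_iff ℤ ℚ L').2 h1
  obtain ⟨b, s, hs, hzs⟩ := Fermat.Agent.S54.exists_fraction A' hq hA ⟨z, hz⟩ halg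
  simp only at hzs
  set v := A'.valuation with hv
  have hvs : v (s : L') = 1 := by
    have h1 : IsUnit (Fermat.Agent.S54.intToVal A' s) := by
      by_contra hcon
      exact hs ((IsLocalRing.mem_maximalIdeal _).2 hcon)
    exact (A'.valuation_eq_one_iff _).1 h1
  have hvb : v (b : L') ≤ 1 :=
    (A'.valuation_le_one_iff _).2 (Fermat.Agent.S54.mem_valuationSubring_of_isIntegral A' b.2)
  have hτb : v (τ b - b) < 1 := A'.mem_nonunits_iff.1 (hτ _ b.2)
  have hτs : v (τ s - s) < 1 := A'.mem_nonunits_iff.1 (hτ _ s.2)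
  have hvτs : v (τ (s : L')) = 1 := by
    have : τ (s : L') = s + (τ s - s) := by ring
    rw [this, Valuation.map_add_eq_of_lt_left v (by rw [hvs]; exact hτs), hvs]
  have hs0 : (s : L') ≠ 0 := by
    intro h0; rw [h0, map_zero] at hvs; exact zero_ne_one hvs
  have hτs0 : τ (s : L') ≠ 0 := by
    intro h0; rw [h0, map_zero] at hvτs; exact zero_ne_one hvτs
  have hz' : z = b / s := by field_simp; exact hzs
  have key : τ z - z = ((τ b - b) * s - b * (τ s - s)) / (s * τ s) := by
    rw [hz', map_div₀]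
    field_simp
    ring
  rw [A'.mem_nonunits_iff, key, map_div₀, map_mul, hvs, hvτs, mul_one, div_one]
  apply Valuation.map_sub_lt
  · rw [map_mul, hvs, mul_one]; exact hτb
  · rw [map_mul]
    exact lt_of_le_of_lt (by simpa using mul_le_mul_left hvb (v (τ s - s))) hτs

/-- the centre of a valuation subring on the ring of integers -/
noncomputable def Mink.toVal {L' : Type*} [Field L'] [NumberField L'] (A' : ValuationSubring L') :
    𝓞 L' →+* A' where
  toFun b := ⟨(b : L'), Fermat.Agent.S54.mem_valuationSubring_of_isIntegral A'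
    (RingOfIntegers.isIntegral_coe b)⟩
  map_one' := rfl
  map_mul' _ _ := rfl
  map_zero' := rfl
  map_add' _ _ := rfl

theorem Mink.nonunits_comap {K₁ K₂ : Type*} [Field K₁] [Field K₂] (f : K₁ →+* K₂)
    (A : ValuationSubring K₂) (x : K₁) : x ∈ (A.comap f).nonunits ↔ f x ∈ A.nonunits := by
  rw [ValuationSubring.mem_nonunits_iff_or, ValuationSubring.mem_nonunits_iff_or,
    ValuationSubring.mem_comap, map_inv₀, map_eq_zero]

theorem mink (L : IntermediateField ℚ Kb) [FiniteDimensional ℚ L] [IsGalois ℚ L]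
    (H : Subgroup (Kb ≃ₐ[ℚ] Kb)) [H.Normal]
    (hL : ∀ σ : Kb ≃ₐ[ℚ] Kb, (∀ z ∈ L, σ z = z) → σ ∈ H)
    (hloc : ∀ q : ℕ, q.Prime → ∃ A : ValuationSubring Kb, (q : Kb) ∈ A.nonunits ∧
      ∀ σ : Kb ≃ₐ[ℚ] Kb, (∀ z ∈ L, z ∈ A → σ z - z ∈ A.nonunits) → σ ∈ H) :
    H = ⊤ := by
  classical
  have : NumberField L := { to_charZero := inferInstance, to_finiteDimensional := inferInstance }
  let res : (Kb ≃ₐ[ℚ] Kb) →* (L ≃ₐ[ℚ] L) := AlgEquiv.restrictNormalHom L
  have hgal : IsGalois ℚ Kb := Fermat.Agent.S54.isGalois_algebraicClosure_rat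
  have hnormal : Normal ℚ Kb := hgal.to_normal
  have hres : Function.Surjective res := AlgEquiv.restrictNormalHom_surjective Kb
  have hres_apply : ∀ (σ : Kb ≃ₐ[ℚ] Kb) (z : L), ((res σ z : L) : Kb) = σ z :=
    fun σ z => AlgEquiv.restrictNormal_commutes σ L z
  let HL : Subgroup (L ≃ₐ[ℚ] L) := H.map res
  have hHLn : HL.Normal := Subgroup.Normal.map inferInstance res hres
  suffices hHL : HL = ⊤ by
    rw [eq_top_iff]
    intro σ _
    have h1 : res σ ∈ HL := by rw [hHL]; trivial
    obtain ⟨h, hh, hhσ⟩ := h1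
    have h2 : h⁻¹ * σ ∈ H := hL _ (fun z hz => by
      have e1 := hres_apply σ ⟨z, hz⟩
      have e2 := hres_apply h ⟨z, hz⟩
      rw [hhσ] at e2
      simp only at e1 e2
      rw [AlgEquiv.mul_apply, ← e1, e2]
      exact h.symm_apply_apply z)
    have h3 := H.mul_mem hh h2
    simpa using h3
  by_contra hne
  let F : IntermediateField ℚ L := FixedPoints.intermediateField HL
  have hGalF : IsGalois ℚ F := IsGalois.of_fixedField_normal_subgroup HL
  have hrank : 1 < Module.finrank ℚ F := by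
    by_contra hcon
    have h1 : Module.finrank ℚ F = 1 := by
      have : 0 < Module.finrank ℚ F := Module.finrank_pos
      omega
    have h2 : F = ⊥ := IntermediateField.finrank_eq_one_iff.1 h1
    apply hne
    have h3 : (IntermediateField.fixedField HL).fixingSubgroup = HL :=
      IntermediateField.fixingSubgroup_fixedField HL
    rw [← h3]
    change F.fixingSubgroup = ⊤
    rw [h2, IntermediateField.fixingSubgroup_bot]
  obtain ⟨q, hq, hram⟩ :=
    NumberField.exists_not_isUnramifiedAt_int_of_isGalois (K := F) (𝒪 := 𝓞 F) hrank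
  obtain ⟨A, hqA, hA⟩ := hloc q hq
  let A' : ValuationSubring L := A.comap (algebraMap L Kb)
  have hqA' : (q : L) ∈ A'.nonunits := by
    rw [Mink.nonunits_comap, map_natCast]; exact hqA
  let P : Ideal (𝓞 L) := (IsLocalRing.maximalIdeal A').comap (Mink.toVal A')
  have hPmem : ∀ x : 𝓞 L, x ∈ P ↔ (x : L) ∈ A'.nonunits := by
    intro x
    exact (ValuationSubring.coe_mem_nonunits_iff (A := A') (a := Mink.toVal A' x)).symm
  have hPprime : P.IsPrime := Ideal.comap_isPrime _ _
  have hqP : (q : 𝓞 L) ∈ P := by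
    rw [hPmem]; simpa using hqA'
  have hPbot : P ≠ ⊥ := by
    intro h0
    rw [h0, Ideal.mem_bot] at hqP
    exact hq.ne_zero (by exact_mod_cast hqP)
  have hPmax : P.IsMaximal := hPprime.isMaximal hPbot
  have hI : P.inertia Gal(L/ℚ) ≤ HL := by
    intro τ hτ
    obtain ⟨σ, rfl⟩ := hres τ
    refine ⟨σ, hA σ ?_, rfl⟩
    intro z hz hzA
    have h1 := Mink.inertia_sub A' hq hqA' (res σ) (fun x hx => by
      obtain ⟨y, rfl⟩ := (IsIntegralClosure.isIntegral_iff (A := 𝓞 L)).1 hx
      exact (hPmem _).1 (hτ y)) ⟨z, hz⟩ hzA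
    rw [Mink.nonunits_comap] at h1
    have e1 := hres_apply σ ⟨z, hz⟩
    simp only at e1
    rw [← e1]
    exact h1
  have hU := Mink.unram HL P hI
  have hprime' : (P.under (𝓞 F)).IsPrime := inferInstance
  apply hram (P.under (𝓞 F)) hprime'
  · change algebraMap (𝓞 F) (𝓞 L) (q : 𝓞 F) ∈ P
    rw [map_natCast]; exact hqP
  · exact Ideal.ramificationIdx_eq_one_iff.1 hU

end Fermat.Agent.S13
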