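import Fermat.Agent.S13.LocalOdd
import Fermat.Agent.S13.At2
import Fermat.Agent.S13.AtP
import Fermat.Agent.S13.Mink
import Fermat.Agent.S54.Frobenius
import Fermat.Prelude.Def_FLTPrelim_CofixedLine

set_option autoImplicit false
set_option linter.unusedSectionVars false
set_option linter.unusedVariables false

/-!
# Assembly of S13
-/

namespace Fermat.Agent.S13

open WeierstrassCurve WeierstrassCurve.Affine WeierstrassCurve.Affine.Point
open Fermat.Agent.S05

local notation "Kb" => AlgebraicClosure ℚ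

section Field

variable {K : Type*} [Field K] [DecidableEq K] {V : WeierstrassCurve.Affine K}

/-- the `y`-coordinate of a point (junk value `0` at infinity). -/
def yc (V : WeierstrassCurve.Affine K) : V.Point → K
  | .zero => 0
  | .some _ y _ => y

end Field

/-- the Frey curve over `ℚ̄`. -/
noncomputable abbrev FE (P : FreyPackage) : WeierstrassCurve.Affine Kb :=
  (P.freyCurve : WeierstrassCurve.Affine ℚ)⁄Kb

/-- its `p`-torsion. -/
noncomputable abbrev FT (P : FreyPackage) : Submodule ℤ (FE P).Point :=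
  Submodule.torsionBy ℤ (FE P).Point P.p

section L

variable (P : FreyPackage)

local notation "E" => FE P
local notation "T" => FT P

lemma tors_nsmul (v : T) : P.p • (v : (E).Point) = 0 := by
  have := v.2
  rw [Submodule.mem_torsionBy_iff] at this
  simpa using this

/-- the coordinates of the `p`-torsion points. -/
def coordSet : Set Kb :=
  Set.range (fun v : T => xc (E) v.1) ∪ Set.range (fun v : T => yc (E) v.1)

lemma coordSet_finite : (coordSet P).Finite := by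
  have := torsion_finite (K := Kb) (P.freyCurve : WeierstrassCurve.Affine ℚ) P.pp
    (by have := P.hp5; omega)
  exact (Set.finite_range _).union (Set.finite_range _)

/-- a finite Galois extension containing the coordinates of the `p`-torsion points. -/
noncomputable def fieldL : IntermediateField ℚ Kb :=
  IntermediateField.normalClosure ℚ (IntermediateField.adjoin ℚ (coordSet P)) Kb

instance : FiniteDimensional ℚ (IntermediateField.adjoin ℚ (coordSet P)) := by
  have : Finite (coordSet P) := (coordSet_finite P).to_subtype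
  have : Algebra.IsAlgebraic ℚ Kb := AlgebraicClosure.isAlgebraic ℚ
  exact IntermediateField.finiteDimensional_adjoin
    (fun x _ => (Algebra.IsAlgebraic.isAlgebraic x).isIntegral)

instance : FiniteDimensional ℚ (fieldL P) := by
  unfold fieldL; infer_instance

instance : IsGalois ℚ (fieldL P) := by
  have := Fermat.Agent.S54.isGalois_algebraicClosure_rat
  exact IsGalois.normalClosure ℚ (IntermediateField.adjoin ℚ (coordSet P)) Kb

lemma coordSet_subset : coordSet P ⊆ (fieldL P : Set Kb) := by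
  intro z hz
  have h1 : z ∈ IntermediateField.adjoin ℚ (coordSet P) := IntermediateField.subset_adjoin _ _ hz
  exact IntermediateField.le_normalClosure _ h1

lemma inL_fieldL {R : (E).Point} (hR : P.p • R = 0) : InL (fieldL P) R := by
  intro x y h hRe
  have hmem : R ∈ T := by
    rw [Submodule.mem_torsionBy_iff]; simpa using hR
  constructor
  · apply coordSet_subset
    left
    exact ⟨⟨R, hmem⟩, by simp only [hRe]; rfl⟩
  · apply coordSet_subset
    right
    exact ⟨⟨R, hmem⟩, by simp only [hRe]; rfl⟩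

end L


section Groups

variable {P : FreyPackage} (N : Submodule (ZMod P.p) (FT P))

/-- automorphisms fixing `N` pointwise. -/
def subH1 : Subgroup (Kb ≃ₐ[ℚ] Kb) where
  carrier := {σ | ∀ v ∈ N, σ • v = v}
  mul_mem' := by
    intro σ τ hσ hτ v hv
    rw [mul_smul, hτ v hv, hσ v hv]
  one_mem' := by
    intro v _
    exact one_smul _ v
  inv_mem' := by
    intro σ hσ v hv
    rw [inv_smul_eq_iff, hσ v hv]

/-- automorphisms acting trivially on the quotient by `N`. -/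
def subH2 (hN : IsGaloisStable ℚ N) : Subgroup (Kb ≃ₐ[ℚ] Kb) where
  carrier := {σ | ∀ v : FT P, σ • v - v ∈ N}
  mul_mem' := by
    intro σ τ hσ hτ v
    have : (σ * τ) • v - v = σ • (τ • v - v) + (σ • v - v) := by
      rw [mul_smul, smul_sub]; abel
    rw [this]
    exact N.add_mem (hN σ _ (hτ v)) (hσ v)
  one_mem' := by
    intro v
    rw [one_smul, sub_self]; exact N.zero_mem
  inv_mem' := by
    intro σ hσ v
    have : σ⁻¹ • v - v = -(σ⁻¹ • (σ • v - v)) := by
      rw [smul_sub, inv_smul_smul]; abel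
    rw [this]
    exact N.neg_mem (hN σ⁻¹ _ (hσ v))

variable {N}

lemma mem_subH1 {σ : Kb ≃ₐ[ℚ] Kb} : σ ∈ subH1 N ↔ ∀ v ∈ N, σ • v = v := Iff.rfl

lemma mem_subH2 {hN : IsGaloisStable ℚ N} {σ : Kb ≃ₐ[ℚ] Kb} :
    σ ∈ subH2 N hN ↔ ∀ v : FT P, σ • v - v ∈ N := Iff.rfl

lemma subH1_normal (hN : IsGaloisStable ℚ N) : (subH1 N).Normal := by
  constructor
  intro σ hσ τ v hv
  rw [mul_smul, mul_smul, hσ _ (hN τ⁻¹ v hv), smul_inv_smul]

lemma subH2_normal (hN : IsGaloisStable ℚ N) : (subH2 N hN).Normal := by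
  constructor
  intro σ hσ τ v
  have : (τ * σ * τ⁻¹) • v - v = τ • (σ • (τ⁻¹ • v) - τ⁻¹ • v) := by
    rw [mul_smul, mul_smul, smul_sub, smul_inv_smul]
  rw [this]
  exact hN τ _ (hσ _)

/-- an automorphism fixing `L` fixes the `p`-torsion. -/
lemma smul_eq_of_fix {σ : Kb ≃ₐ[ℚ] Kb} (hσ : ∀ z ∈ fieldL P, σ z = z) (v : FT P) :
    σ • v = v := by
  apply Subtype.ext
  change σ • (v : (FE P).Point) = v
  by_cases h0 : (v : (FE P).Point) = 0
  · rw [h0, algEquiv_smul_def, Point.map_zero]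
  obtain ⟨x, y, h, hv⟩ := exists_some_of_ne_zero h0
  obtain ⟨hx, hy⟩ := inL_fieldL P (tors_nsmul P v) x y h hv
  rw [hv]
  obtain ⟨h', e⟩ := smul_some σ h
  rw [e]
  simp only [hσ x hx, hσ y hy]

end Groups


section LinAlg

variable {P : FreyPackage} {N : Submodule (ZMod P.p) (FT P)}

instance factPrime (P : FreyPackage) : Fact P.p.Prime := ⟨P.pp⟩

lemma p_ne_two (P : FreyPackage) : P.p ≠ 2 := by have := P.hp5; omega

instance finiteFT (P : FreyPackage) : Finite (FT P) :=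
  torsion_finite (K := Kb) (P.freyCurve : WeierstrassCurve.Affine ℚ) P.pp (p_ne_two P)

lemma zmod_smul_eq (c : ZMod P.p) (v : FT P) : c • v = c.val • v := by
  conv_lhs => rw [← ZMod.natCast_zmod_val c]
  exact Nat.cast_smul_eq_nsmul _ _ _

lemma gal_smul_nsmul (σ : Kb ≃ₐ[ℚ] Kb) (k : ℕ) (v : FT P) : σ • (k • v) = k • (σ • v) :=
  (DistribSMul.toAddMonoidHom (FT P) σ).map_nsmul k v

lemma gal_smul_zmod (σ : Kb ≃ₐ[ℚ] Kb) (c : ZMod P.p) (v : FT P) : σ • (c • v) = c • (σ • v) := by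
  rw [zmod_smul_eq, zmod_smul_eq, gal_smul_nsmul]

lemma finrank_facts (hbot : N ≠ ⊥) (htop : N ≠ ⊤) :
    Module.finrank (ZMod P.p) N = 1 ∧ Module.finrank (ZMod P.p) (FT P) = 2 := by
  have h2 : Module.finrank (ZMod P.p) (FT P) ≤ 2 :=
    torsion_finrank_le (K := Kb) (P.freyCurve : WeierstrassCurve.Affine ℚ) P.pp (p_ne_two P)
  have hlt := Submodule.finrank_lt htop
  have hpos : Module.finrank (ZMod P.p) N ≠ 0 := by
    intro h0
    exact hbot (Submodule.finrank_eq_zero.mp h0)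
  constructor <;> omega

lemma exists_gen (hbot : N ≠ ⊥) (htop : N ≠ ⊤) :
    ∃ P₁ ∈ N, P₁ ≠ 0 ∧ ∀ w ∈ N, ∃ c : ZMod P.p, w = c • P₁ := by
  obtain ⟨v, hv0, hv⟩ := finrank_eq_one_iff'.mp (finrank_facts hbot htop).1
  refine ⟨v.1, v.2, fun h => hv0 (Subtype.ext h), fun w hw => ?_⟩
  obtain ⟨c, hc⟩ := hv ⟨w, hw⟩
  exact ⟨c, (congrArg Subtype.val hc).symm⟩

lemma exists_decomp (hbot : N ≠ ⊥) (htop : N ≠ ⊤) {v : FT P} (hv : v ∉ N) (w : FT P) :
    ∃ c : ZMod P.p, ∃ n ∈ N, w = c • v + n := by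
  obtain ⟨h1, h2⟩ := finrank_facts hbot htop
  have hlt : N < N ⊔ Submodule.span (ZMod P.p) {v} := by
    refine lt_of_le_of_ne le_sup_left fun h => hv ?_
    rw [h]
    exact Submodule.mem_sup_right (Submodule.mem_span_singleton_self v)
  have h3 := Submodule.finrank_lt_finrank_of_lt hlt
  have h4 := Submodule.finrank_le (N ⊔ Submodule.span (ZMod P.p) {v})
  have htop' : N ⊔ Submodule.span (ZMod P.p) {v} = ⊤ :=
    Submodule.eq_top_of_finrank_eq (by omega)
  have hw : w ∈ N ⊔ Submodule.span (ZMod P.p) {v} := by rw [htop']; trivial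
  obtain ⟨n, hn, z, hz, rfl⟩ := Submodule.mem_sup.mp hw
  obtain ⟨c, rfl⟩ := Submodule.mem_span_singleton.mp hz
  exact ⟨c, n, hn, add_comm _ _⟩

lemma eq_of_le_ne_top (hbot : N ≠ ⊥) (htop : N ≠ ⊤) {V₁ : Submodule (ZMod P.p) (FT P)}
    (hV : V₁ ≠ ⊤) (hle : N ≤ V₁) : V₁ = N := by
  obtain ⟨h1, h2⟩ := finrank_facts hbot htop
  have h3 := Submodule.finrank_lt hV
  exact (Submodule.eq_of_le_of_finrank_le hle (by omega)).symm

lemma inf_eq_bot_of_not_le (hbot : N ≠ ⊥) (htop : N ≠ ⊤) {V₁ : Submodule (ZMod P.p) (FT P)}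
    (hle : ¬ N ≤ V₁) : N ⊓ V₁ = ⊥ := by
  obtain ⟨h1, h2⟩ := finrank_facts hbot htop
  have hlt : N ⊓ V₁ < N := lt_of_le_of_ne inf_le_left fun h => hle (h ▸ inf_le_right)
  have h3 := Submodule.finrank_lt_finrank_of_lt hlt
  exact Submodule.finrank_eq_zero.mp (by omega)

end LinAlg


section LocalParts

variable {P : FreyPackage} {N : Submodule (ZMod P.p) (FT P)}

lemma fix_of_RI_odd {q : ℕ} (hq : q.Prime) (hq2 : q ≠ 2) (hqp : q ≠ P.p)
    (A : ValuationSubring Kb) (hqA : (q : Kb) ∈ A.nonunits) {σ : Kb ≃ₐ[ℚ] Kb}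
    (hσ : RI (fieldL P) A σ) (v : FT P) : σ • v = v := by
  apply Subtype.ext
  change σ • (v : (FE P).Point) = v
  have hv := tors_nsmul P v
  have h1 := frey_local_odd P hq hq2 A hqA (fieldL P) hσ hv (inL_fieldL P hv)
  have h2 : P.p • (σ • (v : (FE P).Point) - v) = 0 := by
    rw [nsmul_sub, nsmul_smul_eq_zero σ hv, hv, sub_zero]
  exact sub_eq_zero.mp (frey_E1_torsion P hq hqp A hqA h2 h1)

lemma eigen2 (A : ValuationSubring Kb) (h2A : (2 : Kb) ∈ A.nonunits) {σ : Kb ≃ₐ[ℚ] Kb}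
    (hσ : RI (fieldL P) A σ) {v : FT P} (hv0 : v ≠ 0) {c : ZMod P.p} (hc : σ • v = c • v) :
    σ • v = v := by
  apply Subtype.ext
  change σ • (v : (FE P).Point) = v
  refine frey_eigen_two P A h2A (fieldL P) (fun R hR => inL_fieldL P hR) hσ
    (fun h => hv0 (Subtype.ext h)) (tors_nsmul P v) (k := c.val) ?_
  rw [zmod_smul_eq] at hc
  exact congrArg Subtype.val hc

lemma at2_H1 (hN : IsGaloisStable ℚ N) (hbot : N ≠ ⊥) (htop : N ≠ ⊤)
    (A : ValuationSubring Kb) (h2A : (2 : Kb) ∈ A.nonunits) {σ : Kb ≃ₐ[ℚ] Kb}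
    (hσ : RI (fieldL P) A σ) : σ ∈ subH1 N := by
  obtain ⟨P₁, hP₁, hP₁0, hgen⟩ := exists_gen hbot htop
  obtain ⟨c, hc⟩ := hgen _ (hN σ P₁ hP₁)
  have h1 := eigen2 A h2A hσ hP₁0 hc
  intro v hv
  obtain ⟨d, rfl⟩ := hgen v hv
  rw [gal_smul_zmod, h1]

lemma at2_H2 (hN : IsGaloisStable ℚ N) (hbot : N ≠ ⊥) (htop : N ≠ ⊤)
    (A : ValuationSubring Kb) (h2A : (2 : Kb) ∈ A.nonunits) {σ : Kb ≃ₐ[ℚ] Kb}
    (hσ : RI (fieldL P) A σ) : σ ∈ subH2 N hN := by
  have hH1 := at2_H1 hN hbot htop A h2A hσ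
  intro v
  by_cases hv : v ∈ N
  · exact N.sub_mem (hN σ v hv) hv
  obtain ⟨c, n, hn, hc⟩ := exists_decomp hbot htop hv (σ • v)
  by_cases hc1 : c = 1
  · rw [hc, hc1, one_smul, add_sub_cancel_left]; exact hn
  exfalso
  have hc1' : c - 1 ≠ 0 := sub_ne_zero.mpr hc1
  set v' : FT P := v + (c - 1)⁻¹ • n with hv'
  have hv'0 : v' ≠ 0 := by
    intro h0
    apply hv
    have : v = -((c - 1)⁻¹ • n) := eq_neg_of_add_eq_zero_left h0
    rw [this]
    exact N.neg_mem (N.smul_mem _ hn)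
  have he : σ • v' = c • v' := by
    rw [hv', smul_add, gal_smul_zmod, hH1 n hn, hc, smul_add, smul_smul]
    have : c * (c - 1)⁻¹ = 1 + (c - 1)⁻¹ := by field_simp; ring
    rw [this, add_smul, one_smul, add_assoc]
  have h1 := eigen2 A h2A hσ hv'0 he
  rw [he] at h1
  have h2 : (c - 1) • v' = 0 := by rw [sub_smul, one_smul, h1, sub_self]
  rcases smul_eq_zero.mp h2 with h | h
  · exact hc1' h
  · exact hv'0 h

/-- the kernel of reduction in `E[p]`. -/
def subV1 (P : FreyPackage) (A : ValuationSubring Kb) : Submodule (ZMod P.p) (FT P) where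
  carrier := {v | E1 A (v : (FE P).Point)}
  add_mem' := by
    intro v w hv hw
    obtain ⟨b2, b4, b6, b8⟩ := frey_b_mem A P
    exact E1_add b2 b4 b6 b8 hv hw
  zero_mem' := E1_zero
  smul_mem' := by
    intro c v hv
    obtain ⟨b2, b4, b6, b8⟩ := frey_b_mem A P
    rw [zmod_smul_eq]
    exact E1_nsmul b2 b4 b6 b8 hv c.val

lemma atp_dichotomy (hN : IsGaloisStable ℚ N) (hbot : N ≠ ⊥) (htop : N ≠ ⊤)
    (A : ValuationSubring Kb) (hpA : (P.p : Kb) ∈ A.nonunits) :
    (∀ σ : Kb ≃ₐ[ℚ] Kb, RI (fieldL P) A σ → σ ∈ subH1 N) ∨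
    (∀ σ : Kb ≃ₐ[ℚ] Kb, RI (fieldL P) A σ → σ ∈ subH2 N hN) := by
  obtain ⟨P₁, hP₁, hP₁0, hgen⟩ := exists_gen hbot htop
  have hV : subV1 P A ≠ ⊤ := by
    intro h
    obtain ⟨R, hR, hRE⟩ := frey_not_all_E1 P A hpA (P₁ := P₁.1)
      (fun h => hP₁0 (Subtype.ext h)) (tors_nsmul P P₁) (fun σ => by
        obtain ⟨c, hc⟩ := hgen _ (hN σ P₁ hP₁)
        rw [zmod_smul_eq] at hc
        exact ⟨c.val, congrArg Subtype.val hc⟩)
    have hmem : R ∈ FT P := by
      rw [Submodule.mem_torsionBy_iff]; simpa using hR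
    have : (⟨R, hmem⟩ : FT P) ∈ subV1 P A := by rw [h]; trivial
    exact hRE this
  have hstep : ∀ σ : Kb ≃ₐ[ℚ] Kb, RI (fieldL P) A σ → ∀ v : FT P, σ • v - v ∈ subV1 P A := by
    intro σ hσ v
    have hv := tors_nsmul P v
    exact frey_local_odd P P.pp (p_ne_two P) A hpA (fieldL P) hσ hv (inL_fieldL P hv)
  by_cases hle : N ≤ subV1 P A
  · right
    intro σ hσ v
    rw [← eq_of_le_ne_top hbot htop hV hle]
    exact hstep σ hσ v
  · left
    intro σ hσ v hv
    have h1 : σ • v - v ∈ N ⊓ subV1 P A := ⟨N.sub_mem (hN σ v hv) hv, hstep σ hσ v⟩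
    rw [inf_eq_bot_of_not_le hbot htop hle, Submodule.mem_bot] at h1
    exact sub_eq_zero.mp h1

end LocalParts

section Final

theorem main (P : FreyPackage)
    (hred : ¬ GaloisRepIsIrreducible (K := AlgebraicClosure ℚ) ℚ P.freyCurve P.p) :
    HasGaloisStableCofixedLine (K := AlgebraicClosure ℚ) ℚ P.freyCurve P.p := by
  have hnt : Nontrivial (FT P) :=
    torsion_nontrivial (K := Kb) (P.freyCurve : WeierstrassCurve.Affine ℚ) (frey_Δ_ne_zero P)
      P.pp (p_ne_two P)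
  have hex : ∃ N : Submodule (ZMod P.p) (FT P), IsGaloisStable ℚ N ∧ N ≠ ⊥ ∧ N ≠ ⊤ := by
    by_contra hcon
    apply hred
    refine ⟨hnt, fun N hN => ?_⟩
    by_contra h
    push Not at h
    exact hcon ⟨N, hN, h.1, h.2⟩
  obtain ⟨N, hN, hbot, htop⟩ := hex
  refine ⟨N, hN, hbot, htop, ?_⟩
  obtain ⟨Ap, hAp⟩ := Fermat.Agent.S54.exists_liesOverPrime Kb P.pp
  have hloc : ∀ (H : Subgroup (Kb ≃ₐ[ℚ] Kb)),
      (∀ σ : Kb ≃ₐ[ℚ] Kb, (∀ v : FT P, σ • v = v) → σ ∈ H) →
      (∀ (A : ValuationSubring Kb), (2 : Kb) ∈ A.nonunits →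
        ∀ σ : Kb ≃ₐ[ℚ] Kb, RI (fieldL P) A σ → σ ∈ H) →
      (∀ σ : Kb ≃ₐ[ℚ] Kb, RI (fieldL P) Ap σ → σ ∈ H) →
      ∀ q : ℕ, q.Prime → ∃ A : ValuationSubring Kb, (q : Kb) ∈ A.nonunits ∧
        ∀ σ : Kb ≃ₐ[ℚ] Kb, (∀ z ∈ fieldL P, z ∈ A → σ z - z ∈ A.nonunits) → σ ∈ H := by
    intro H h1 h2 hp q hq
    by_cases hqp : q = P.p
    · subst hqp
      exact ⟨Ap, hAp, hp⟩
    obtain ⟨A, hA⟩ := Fermat.Agent.S54.exists_liesOverPrime Kb hq
    refine ⟨A, hA, fun σ hσ => ?_⟩
    by_cases hq2 : q = 2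
    · subst hq2
      exact h2 A (by exact_mod_cast hA) σ hσ
    · exact h1 σ (fix_of_RI_odd hq hq2 hqp A hA hσ)
  rcases atp_dichotomy hN hbot htop Ap hAp with hd | hd
  · exfalso
    haveI := subH1_normal hN
    have htop1 : subH1 N = ⊤ := by
      apply mink (fieldL P) (subH1 N)
      · intro σ hσ v _
        exact smul_eq_of_fix hσ v
      · apply hloc
        · intro σ hσ v _
          exact hσ v
        · intro A hA σ hσ
          exact at2_H1 hN hbot htop A hA hσ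
        · exact hd
    obtain ⟨P₁, hP₁, hP₁0, -⟩ := exists_gen hbot htop
    refine frey_no_rational_torsion P (R := P₁.1) (fun h => hP₁0 (Subtype.ext h))
      (tors_nsmul P P₁) (fun σ => ?_)
    have : σ ∈ subH1 N := by rw [htop1]; trivial
    exact congrArg Subtype.val (this P₁ hP₁)
  · haveI := subH2_normal hN
    have htop2 : subH2 N hN = ⊤ := by
      apply mink (fieldL P) (subH2 N hN)
      · intro σ hσ v
        rw [smul_eq_of_fix hσ v, sub_self]; exact N.zero_mem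
      · apply hloc
        · intro σ hσ v
          rw [hσ v, sub_self]; exact N.zero_mem
        · intro A hA σ hσ
          exact at2_H2 hN hbot htop A hA hσ
        · exact hd
    intro σ x
    have : σ ∈ subH2 N hN := by rw [htop2]; trivial
    exact this x

end Final

end Fermat.Agent.S13
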