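import Fermat.Agent.S13.RI
import Fermat.Agent.S05.Frey

set_option autoImplicit false
set_option linter.unusedSectionVars false
set_option linter.unusedVariables false

/-!
# Basic facts on the Frey curve: integral coefficients, nonzero discriminant
-/

namespace Fermat.Agent.S13

open WeierstrassCurve WeierstrassCurve.Affine WeierstrassCurve.Affine.Point
open Fermat.Agent.S05

lemma frey_b_even (P : FreyPackage) : ∃ b₁ : ℤ, P.b = 2 * b₁ :=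
  (ZMod.intCast_zmod_eq_zero_iff_dvd P.b 2).1 P.hb2

lemma frey_a_odd (P : FreyPackage) : ¬ (2 : ℤ) ∣ P.a := by
  intro h
  obtain ⟨b₁, hb⟩ := frey_b_even P
  have h2 : (2 : ℤ) ∣ gcd P.a P.b := dvd_gcd h ⟨b₁, hb⟩
  rw [P.hgcdab] at h2
  norm_num at h2

lemma frey_a2_int (P : FreyPackage) : ∃ n : ℤ, P.freyCurve.a₂ = (n : ℚ) := by
  obtain ⟨b₁, hb⟩ := frey_b_even P
  have hp5 := P.hp5
  have h1 : (4 : ℤ) ∣ P.a ^ P.p + 1 := by
    apply (ZMod.intCast_zmod_eq_zero_iff_dvd _ 4).1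
    push_cast
    rw [P.ha4]
    have : (3 : ZMod 4) = -1 := by decide
    rw [this, P.hp_odd.neg_one_pow]; simp
  have h2 : (4 : ℤ) ∣ P.b ^ P.p := by
    rw [hb, mul_pow]
    have : P.p = 2 + (P.p - 2) := by omega
    rw [this, pow_add]
    exact ⟨2 ^ (P.p - 2) * b₁ ^ (2 + (P.p - 2)), by ring⟩
  obtain ⟨n, hn⟩ : (4 : ℤ) ∣ P.b ^ P.p - 1 - P.a ^ P.p := by
    have := dvd_sub h2 h1
    have e : P.b ^ P.p - 1 - P.a ^ P.p = P.b ^ P.p - (P.a ^ P.p + 1) := by ring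
    rw [e]; exact this
  refine ⟨n, ?_⟩
  have hn' : ((P.b : ℚ) ^ P.p - 1 - (P.a : ℚ) ^ P.p) = 4 * n := by exact_mod_cast hn
  simp only [FreyPackage.freyCurve]
  rw [hn']; ring

lemma frey_a4_int (P : FreyPackage) : ∃ m : ℤ, P.freyCurve.a₄ = (m : ℚ) := by
  obtain ⟨b₁, hb⟩ := frey_b_even P
  have hp5 := P.hp5
  refine ⟨-(P.a ^ P.p) * (2 ^ (P.p - 4) * b₁ ^ P.p), ?_⟩
  simp only [FreyPackage.freyCurve]
  rw [hb]
  push_cast
  rw [mul_pow]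
  have : P.p = 4 + (P.p - 4) := by omega
  have e : (2 : ℚ) ^ P.p = 16 * 2 ^ (P.p - 4) := by
    conv_lhs => rw [this, pow_add]
    norm_num
  rw [e]; ring

lemma frey_Δ (P : FreyPackage) :
    P.freyCurve.Δ = ((P.a : ℚ) * P.b * P.c) ^ (2 * P.p) / 256 := by
  have hFLT : (P.a : ℚ) ^ P.p + (P.b : ℚ) ^ P.p = (P.c : ℚ) ^ P.p := by
    exact_mod_cast congrArg (Int.cast : ℤ → ℚ) P.hFLT
  simp only [WeierstrassCurve.Δ, WeierstrassCurve.b₂, WeierstrassCurve.b₄, WeierstrassCurve.b₆,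
    WeierstrassCurve.b₈, FreyPackage.freyCurve]
  rw [mul_comm 2 P.p, pow_mul, mul_pow, mul_pow, ← hFLT]
  ring

lemma frey_Δ_ne_zero (P : FreyPackage) : P.freyCurve.Δ ≠ 0 := by
  rw [frey_Δ]
  have ha : (P.a : ℚ) ≠ 0 := by exact_mod_cast P.ha0
  have hb : (P.b : ℚ) ≠ 0 := by exact_mod_cast P.hb0
  have hc : (P.c : ℚ) ≠ 0 := by exact_mod_cast P.hc0
  positivity

section Mem

variable {K : Type*} [Field K] [Algebra ℚ K] (A : ValuationSubring K) (P : FreyPackage)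

local notation "E" => ((P.freyCurve : WeierstrassCurve.Affine ℚ)⁄K)

lemma frey_a₁ : (E).a₁ = 1 := by rw [bc_a₁]; simp [FreyPackage.freyCurve]
lemma frey_a₃ : (E).a₃ = 0 := by rw [bc_a₃]; simp [FreyPackage.freyCurve]
lemma frey_a₆ : (E).a₆ = 0 := by rw [bc_a₆]; simp [FreyPackage.freyCurve]

lemma frey_a₂_mem : (E).a₂ ∈ A := by
  obtain ⟨n, hn⟩ := frey_a2_int P
  rw [bc_a₂, hn]
  simpa using intCast_mem A n

lemma frey_a₄_mem : (E).a₄ ∈ A := by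
  obtain ⟨n, hn⟩ := frey_a4_int P
  rw [bc_a₄, hn]
  simpa using intCast_mem A n

lemma frey_b_mem : (E).b₂ ∈ A ∧ (E).b₄ ∈ A ∧ (E).b₆ ∈ A ∧ (E).b₈ ∈ A := by
  have h2 := frey_a₂_mem A P
  have h4 := frey_a₄_mem A P
  have c2 : (2 : K) ∈ A := by exact_mod_cast S05.natCast_mem A 2
  have c4 : (4 : K) ∈ A := by exact_mod_cast S05.natCast_mem A 4
  simp only [WeierstrassCurve.b₂, WeierstrassCurve.b₄, WeierstrassCurve.b₆, WeierstrassCurve.b₈,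
    frey_a₁, frey_a₃, frey_a₆]
  refine ⟨?_, ?_, ?_, ?_⟩
  · exact add_mem (pow_mem A.one_mem 2) (mul_mem c4 h2)
  · exact add_mem (mul_mem c2 h4) (mul_mem A.one_mem A.zero_mem)
  · simp [A.zero_mem]
  · have : (1 : K) ^ 2 * 0 + 4 * (E).a₂ * 0 - 1 * 0 * (E).a₄ + (E).a₂ * 0 ^ 2 - (E).a₄ ^ 2
        = - (E).a₄ ^ 2 := by ring
    rw [this]; exact neg_mem (pow_mem h4 2)

lemma frey_Δ_ne_zero' : (E).Δ ≠ 0 := by
  have : (E).Δ = algebraMap ℚ K P.freyCurve.Δ := by simp [WeierstrassCurve.baseChange]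
  rw [this]
  exact (map_ne_zero _).mpr (frey_Δ_ne_zero P)

end Mem

end Fermat.Agent.S13
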