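import Fermat.Agent.S05.XOnly

set_option autoImplicit false
set_option linter.unusedSectionVars false
set_option linter.unnecessarySeqFocus false
set_option linter.unusedTactic false

/-!
# The `(2h+1)`-division polynomial via the Montgomery ladder (no EDS theory)

For a point `P` put `xi P = (x, 1)` (affine) or `(1, 0)` (`P = 0`).  The ladder `ladPair` computes,
in any commutative ring, projective `x`-coordinates of `(n P, (n+1) P)` from `x = x(P)`; it commutes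
with ring homomorphisms.  `divPoly h = A_{h+1} B_h - A_h B_{h+1}` computed in `K[X]` at `x = X`.
-/

namespace Fermat.Agent.S13

open WeierstrassCurve WeierstrassCurve.Affine WeierstrassCurve.Affine.Point Polynomial

section Generic

variable {R : Type*} [CommRing R]

/-- numerator of `x(P+Q) x(P-Q)` -/
def ladS (b₄ b₆ b₈ s t w : R) : R := s ^ 2 - b₄ * s * w - b₆ * t * w - b₈ * w ^ 2

/-- numerator of `x(P+Q) + x(P-Q)` -/
def ladT (b₂ b₄ b₆ s t w : R) : R := 2 * t * s + b₂ * s * w + b₄ * t * w + b₆ * w ^ 2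

/-- common denominator -/
def ladU (s t w : R) : R := t ^ 2 - 4 * s * w

/-- projective doubling -/
def ladDbl (b₂ b₄ b₆ b₈ : R) (p : R × R) : R × R :=
  (ladS b₄ b₆ b₈ (p.1 ^ 2) (2 * p.1 * p.2) (p.2 ^ 2), ladT b₂ b₄ b₆ (p.1 ^ 2) (2 * p.1 * p.2) (p.2 ^ 2))

/-- projective differential addition, the difference being `(x : 1)` -/
def ladAdd (b₂ b₄ b₆ x : R) (p q : R × R) : R × R :=
  (ladT b₂ b₄ b₆ (p.1 * q.1) (p.1 * q.2 + q.1 * p.2) (p.2 * q.2)
      - x * ladU (p.1 * q.1) (p.1 * q.2 + q.1 * p.2) (p.2 * q.2),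
    ladU (p.1 * q.1) (p.1 * q.2 + q.1 * p.2) (p.2 * q.2))

/-- one step of the ladder -/
def ladStep (b₂ b₄ b₆ b₈ x : R) (b : Bool) (st : (R × R) × (R × R)) : (R × R) × (R × R) :=
  if b then (ladAdd b₂ b₄ b₆ x st.1 st.2, ladDbl b₂ b₄ b₆ b₈ st.2)
  else (ladDbl b₂ b₄ b₆ b₈ st.1, ladAdd b₂ b₄ b₆ x st.1 st.2)

/-- the Montgomery ladder: projective `x`-coordinates of `(nP, (n+1)P)` -/
def ladPair (b₂ b₄ b₆ b₈ x : R) (n : ℕ) : (R × R) × (R × R) :=
  Nat.binaryRec (motive := fun _ => (R × R) × (R × R)) ((1, 0), (x, 1))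
    (fun b _ st => ladStep b₂ b₄ b₆ b₈ x b st) n

lemma ladPair_zero (b₂ b₄ b₆ b₈ x : R) : ladPair b₂ b₄ b₆ b₈ x 0 = ((1, 0), (x, 1)) := by
  simp [ladPair]

lemma ladPair_bit (b₂ b₄ b₆ b₈ x : R) (b : Bool) (n : ℕ) :
    ladPair b₂ b₄ b₆ b₈ x (Nat.bit b n) = ladStep b₂ b₄ b₆ b₈ x b (ladPair b₂ b₄ b₆ b₈ x n) := by
  rw [ladPair, Nat.binaryRec_eq]
  · rfl
  · left
    simp [ladStep, ladDbl, ladAdd, ladS, ladT, ladU]
    ring

/-- `A_{n+1} B_n - A_n B_{n+1}` -/
def ladDiv (b₂ b₄ b₆ b₈ x : R) (n : ℕ) : R :=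
  (ladPair b₂ b₄ b₆ b₈ x n).2.1 * (ladPair b₂ b₄ b₆ b₈ x n).1.2
    - (ladPair b₂ b₄ b₆ b₈ x n).1.1 * (ladPair b₂ b₄ b₆ b₈ x n).2.2

variable {S : Type*} [CommRing S] (f : R →+* S)

lemma ladPair_map (b₂ b₄ b₆ b₈ x : R) (n : ℕ) :
    ladPair (f b₂) (f b₄) (f b₆) (f b₈) (f x) n =
      Prod.map (Prod.map f f) (Prod.map f f) (ladPair b₂ b₄ b₆ b₈ x n) := by
  induction n using Nat.binaryRec with
  | zero => simp [ladPair_zero]
  | bit b n ih =>
    rw [ladPair_bit, ladPair_bit, ih]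
    cases b <;> simp [ladStep, ladDbl, ladAdd, ladS, ladT, ladU, map_ofNat]

lemma ladDiv_map (b₂ b₄ b₆ b₈ x : R) (n : ℕ) :
    ladDiv (f b₂) (f b₄) (f b₆) (f b₈) (f x) n = f (ladDiv b₂ b₄ b₆ b₈ x n) := by
  simp [ladDiv, ladPair_map]

end Generic

section FieldLevel

variable {K : Type*} [Field K] [DecidableEq K] (V : WeierstrassCurve.Affine K)

/-- projective `x`-coordinate -/
def xi : V.Point → K × K
  | .zero => (1, 0)
  | .some x _ _ => (x, 1)

/-- `p` is a nonzero multiple of `u` -/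
def PRel (u p : K × K) : Prop := ∃ l : K, l ≠ 0 ∧ p.1 = l * u.1 ∧ p.2 = l * u.2

variable {V}

lemma xi_zero : xi V (0 : V.Point) = (1, 0) := rfl

lemma xi_some {x y : K} (h : V.Nonsingular x y) : xi V (Point.some x y h) = (x, 1) := rfl

lemma xi_of_ne_zero {Q : V.Point} (hQ : Q ≠ 0) : xi V Q = (S05.xc V Q, 1) := by
  obtain ⟨x, y, h, rfl⟩ := S05.exists_some_of_ne_zero hQ
  rfl

lemma xi_snd_eq_zero_iff (Q : V.Point) : (xi V Q).2 = 0 ↔ Q = 0 := by
  cases Q with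
  | zero => exact ⟨fun _ => rfl, fun _ => rfl⟩
  | some x y h =>
    constructor
    · intro h0
      exact absurd h0 one_ne_zero
    · intro h0
      exact absurd h0 (by simp)

lemma PRel_dbl_aux (Q : V.Point) :
    PRel (xi V (Q + Q)) (ladDbl V.b₂ V.b₄ V.b₆ V.b₈ (xi V Q)) := by
  by_cases hQ : Q = 0
  · subst hQ
    refine ⟨1, one_ne_zero, ?_, ?_⟩ <;> simp [xi_zero, ladDbl, ladS, ladT]
  · by_cases h2 : Q + Q = 0
    · obtain ⟨x, y, h, rfl⟩ := S05.exists_some_of_ne_zero hQ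
      have hy : y = V.negY x y := by
        by_contra hy
        rw [add_self_of_Y_ne hy] at h2
        exact absurd h2 (by simp)
      have hF : S05.fF V x = 0 := by
        rw [S05.fF_eq_sq h.1, ← hy]; simp
      have hns := h
      rw [nonsingular_iff] at hns
      obtain ⟨he, hns⟩ := hns
      rw [equation_iff] at he
      simp only [negY] at hy
      have hg : 3 * x ^ 2 + 2 * V.a₂ * x + V.a₄ - V.a₁ * y ≠ 0 := by
        rcases hns with h1 | h1
        · intro h0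
          exact h1 (by linear_combination -h0)
        · exact absurd hy h1
      have hD : S05.fD V x = (3 * x ^ 2 + 2 * V.a₂ * x + V.a₄ - V.a₁ * y) ^ 2 := by
        simp only [S05.fD, WeierstrassCurve.b₄, WeierstrassCurve.b₆, WeierstrassCurve.b₈]
        linear_combination (V.a₁ * (3 * x ^ 2 + 2 * V.a₂ * x + V.a₄ - V.a₁ * y)
          - (V.a₂ + 2 * x) * (2 * y + V.a₁ * x + V.a₃)) * hy + (8 * x + V.a₁ ^ 2 + 4 * V.a₂) * he
      rw [h2, xi_zero, xi_some]
      refine ⟨S05.fD V x, by rw [hD]; exact pow_ne_zero 2 hg, ?_, ?_⟩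
      · simp only [ladDbl, ladS, S05.fD]; ring
      · simp only [ladDbl, ladT, mul_zero]
        rw [← hF]; simp only [S05.fF]; ring
    · obtain ⟨hF, hD⟩ := S05.xc_two_nsmul hQ h2
      rw [xi_of_ne_zero h2, xi_of_ne_zero hQ]
      refine ⟨S05.fF V (S05.xc V Q), hF, ?_, ?_⟩
      · simp only [ladDbl, ladS]
        rw [mul_comm (S05.fF V _), hD]; simp only [S05.fD]; ring
      · simp only [ladDbl, ladT, S05.fF]; ring

lemma PRel_dbl {Q : V.Point} {p : K × K} (h : PRel (xi V Q) p) :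
    PRel (xi V (Q + Q)) (ladDbl V.b₂ V.b₄ V.b₆ V.b₈ p) := by
  obtain ⟨l, hl, h1, h2⟩ := h
  obtain ⟨m, hm, h3, h4⟩ := PRel_dbl_aux Q
  refine ⟨l ^ 4 * m, mul_ne_zero (pow_ne_zero 4 hl) hm, ?_, ?_⟩
  · rw [mul_assoc, ← h3]
    simp only [ladDbl, ladS, h1, h2]; ring
  · rw [mul_assoc, ← h4]
    simp only [ladDbl, ladT, h1, h2]; ring

lemma PRel_add_aux {x y : K} (hxy : V.Nonsingular x y) (Q : V.Point) :
    PRel (xi V (Q + (Q + Point.some x y hxy)))
      (ladAdd V.b₂ V.b₄ V.b₆ x (xi V Q) (xi V (Q + Point.some x y hxy))) := by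
  set P : V.Point := Point.some x y hxy with hPdef
  have hP0 : P ≠ 0 := by simp [hPdef]
  by_cases hQ : Q = 0
  · subst hQ
    rw [zero_add, zero_add, xi_zero, hPdef, xi_some]
    refine ⟨1, one_ne_zero, ?_, ?_⟩ <;> simp [ladAdd, ladT, ladU] <;> ring
  · by_cases hR : Q + P = 0
    · have hQP : Q = -P := eq_neg_of_add_eq_zero_left hR
      rw [hR, add_zero, xi_zero, hQP, hPdef, neg_some, xi_some]
      refine ⟨1, one_ne_zero, ?_, ?_⟩ <;> simp [ladAdd, ladT, ladU] <;> ring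
    · by_cases hx : S05.xc V (Q + P) = S05.xc V Q
      · have hRQ : Q + P = -Q := by
          rcases S05.eq_or_eq_neg_of_xc_eq hR hQ hx with h1 | h1
          · exact absurd (by simp at h1) hP0
          · exact h1
        have hsum : Q + (Q + P) = 0 := by rw [hRQ]; simp
        have hQQ : Q ≠ -Q := by
          intro h
          rw [← h] at hRQ
          exact hP0 (by simp at hRQ)
        have hF : S05.fF V (S05.xc V Q) ≠ 0 := by
          have h2 : Q + Q ≠ 0 := fun h => hQQ (eq_neg_of_add_eq_zero_left h)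
          exact (S05.xc_two_nsmul hQ h2).1
        rw [hsum, xi_zero, xi_of_ne_zero hR, xi_of_ne_zero hQ, hx]
        refine ⟨S05.fF V (S05.xc V Q), hF, ?_, ?_⟩
        · simp only [ladAdd, ladT, ladU, S05.fF]; ring
        · simp only [ladAdd, ladU]; ring
      · have hsum : Q + (Q + P) ≠ 0 := by
          intro h
          have : Q + P = -Q := eq_neg_of_add_eq_zero_right h
          exact hx (by rw [this, S05.xc_neg])
        obtain ⟨h1, -⟩ := S05.xc_add_sub hR hQ hx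
        have hsub : Q + P - Q = P := by abel
        rw [hsub, add_comm (Q + P) Q] at h1
        have hxP : S05.xc V P = x := rfl
        rw [hxP] at h1
        rw [xi_of_ne_zero hsum, xi_of_ne_zero hR, xi_of_ne_zero hQ]
        refine ⟨(S05.xc V (Q + P) - S05.xc V Q) ^ 2, pow_ne_zero 2 (sub_ne_zero.mpr hx), ?_, ?_⟩
        · simp only [ladAdd, ladT, ladU]
          simp only [S05.fG] at h1
          linear_combination -h1
        · simp only [ladAdd, ladU]; ring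

lemma PRel_add {x y : K} (hxy : V.Nonsingular x y) {Q : V.Point} {p q : K × K}
    (hp : PRel (xi V Q) p) (hq : PRel (xi V (Q + Point.some x y hxy)) q) :
    PRel (xi V (Q + (Q + Point.some x y hxy))) (ladAdd V.b₂ V.b₄ V.b₆ x p q) := by
  obtain ⟨l, hl, h1, h2⟩ := hp
  obtain ⟨l', hl', h1', h2'⟩ := hq
  obtain ⟨m, hm, h3, h4⟩ := PRel_add_aux hxy Q
  refine ⟨(l * l') ^ 2 * m, mul_ne_zero (pow_ne_zero 2 (mul_ne_zero hl hl')) hm, ?_, ?_⟩
  · rw [mul_assoc, ← h3]
    simp only [ladAdd, ladT, ladU, h1, h2, h1', h2']; ring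
  · rw [mul_assoc, ← h4]
    simp only [ladAdd, ladU, h1, h2, h1', h2']; ring

lemma PRel_ladPair {x y : K} (hxy : V.Nonsingular x y) (n : ℕ) :
    PRel (xi V (n • Point.some x y hxy)) (ladPair V.b₂ V.b₄ V.b₆ V.b₈ x n).1 ∧
    PRel (xi V (n • Point.some x y hxy + Point.some x y hxy))
      (ladPair V.b₂ V.b₄ V.b₆ V.b₈ x n).2 := by
  induction n using Nat.binaryRec with
  | zero =>
    rw [ladPair_zero, zero_smul, zero_add, xi_zero, xi_some]
    exact ⟨⟨1, one_ne_zero, by simp, by simp⟩, ⟨1, one_ne_zero, by simp, by simp⟩⟩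
  | bit b n ih =>
    obtain ⟨ih1, ih2⟩ := ih
    rw [ladPair_bit]
    set P : V.Point := Point.some x y hxy with hPdef
    cases b
    · simp only [Nat.bit_false_apply, ladStep, Bool.false_eq_true, if_false]
      have e1 : (2 * n) • P = n • P + n • P := by rw [two_mul, add_smul]
      have e2 : (2 * n) • P + P = n • P + (n • P + P) := by rw [e1, add_assoc]
      rw [e2, e1]
      exact ⟨PRel_dbl ih1, PRel_add hxy ih1 ih2⟩
    · simp only [Nat.bit_true_apply, ladStep, if_true]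
      have e1 : (2 * n + 1) • P = n • P + (n • P + P) := by
        rw [add_smul, two_mul, add_smul, one_smul, add_assoc]
      have e2 : (2 * n + 1) • P + P = (n • P + P) + (n • P + P) := by rw [e1]; abel
      rw [e2, e1]
      exact ⟨PRel_add hxy ih1 ih2, PRel_dbl ih2⟩

lemma ladDiv_eq_zero_iff {x y : K} (hxy : V.Nonsingular x y) (h : ℕ) :
    ladDiv V.b₂ V.b₄ V.b₆ V.b₈ x h = 0 ↔ (2 * h + 1) • (Point.some x y hxy) = 0 := by
  obtain ⟨h1, h2⟩ := PRel_ladPair hxy h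
  obtain ⟨l, hl, -, h4⟩ := PRel_add hxy h1 h2
  have e1 : (2 * h + 1) • (Point.some x y hxy) =
      h • (Point.some x y hxy) + (h • (Point.some x y hxy) + (Point.some x y hxy)) := by
    rw [add_smul, two_mul, add_smul, one_smul, add_assoc]
  rw [e1, ← xi_snd_eq_zero_iff]
  have e2 : (ladAdd V.b₂ V.b₄ V.b₆ x (ladPair V.b₂ V.b₄ V.b₆ V.b₈ x h).1
      (ladPair V.b₂ V.b₄ V.b₆ V.b₈ x h).2).2 = (ladDiv V.b₂ V.b₄ V.b₆ V.b₈ x h) ^ 2 := by
    simp only [ladAdd, ladU, ladDiv]; ring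
  rw [e2] at h4
  constructor
  · intro h0
    rw [h0] at h4
    have h5 := h4.symm
    rw [zero_pow two_ne_zero] at h5
    exact (mul_eq_zero.mp h5).resolve_left hl
  · intro h0
    rw [h0, mul_zero] at h4
    exact pow_eq_zero_iff (two_ne_zero) |>.mp h4

end FieldLevel
section Lead

variable {K : Type*} [CommRing K]

/-- `p` has degree `≤ m` and its coefficient of `X ^ m` is `c` (with `c = 0` when `m < 0`). -/
def IsLead (p : K[X]) (m : ℤ) (c : K) : Prop :=
  (∀ k : ℕ, m < k → p.coeff k = 0) ∧ (∀ k : ℕ, (k : ℤ) = m → p.coeff k = c) ∧ (m < 0 → c = 0)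

lemma IsLead.congr {p : K[X]} {m m' : ℤ} {c c' : K} (h : IsLead p m c) (hm : m = m')
    (hc : c = c') : IsLead p m' c' := by
  subst hm; subst hc; exact h

lemma IsLead.mul {p q : K[X]} {m m' : ℤ} {a b : K} (hp : IsLead p m a) (hq : IsLead q m' b) :
    IsLead (p * q) (m + m') (a * b) := by
  obtain ⟨hp1, hp2, hp3⟩ := hp
  obtain ⟨hq1, hq2, hq3⟩ := hq
  refine ⟨?_, ?_, ?_⟩
  · intro k hk
    rw [coeff_mul]
    apply Finset.sum_eq_zero
    rintro ⟨i, j⟩ hij
    rw [Finset.HasAntidiagonal.mem_antidiagonal] at hij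
    simp only at hij
    by_cases hi : m < i
    · rw [hp1 i hi, zero_mul]
    · rw [hq1 j (by omega), mul_zero]
  · intro k hk
    rw [coeff_mul]
    by_cases hm : m < 0
    · rw [hp3 hm, zero_mul]
      apply Finset.sum_eq_zero
      rintro ⟨i, j⟩ hij
      rw [hp1 i (by omega), zero_mul]
    · by_cases hm' : m' < 0
      · rw [hq3 hm', mul_zero]
        apply Finset.sum_eq_zero
        rintro ⟨i, j⟩ hij
        rw [hq1 j (by omega), mul_zero]
      · obtain ⟨i0, rfl⟩ := Int.eq_ofNat_of_zero_le (not_lt.mp hm)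
        obtain ⟨j0, rfl⟩ := Int.eq_ofNat_of_zero_le (not_lt.mp hm')
        have hk' : k = i0 + j0 := by omega
        subst hk'
        rw [Finset.sum_eq_single (i0, j0)]
        · rw [hp2 i0 rfl, hq2 j0 rfl]
        · rintro ⟨i, j⟩ hij hne
          rw [Finset.HasAntidiagonal.mem_antidiagonal] at hij
          simp only at hij
          by_cases hi : i0 < i
          · rw [hp1 i (by exact_mod_cast hi), zero_mul]
          · have hj : j0 < j := by
              by_contra hj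
              apply hne
              have h1 : i = i0 := by omega
              have h2 : j = j0 := by omega
              rw [h1, h2]
            rw [hq1 j (by exact_mod_cast hj), mul_zero]
        · intro h; exact absurd (by simp) h
  · intro h
    by_cases hm : m < 0
    · rw [hp3 hm, zero_mul]
    · rw [hq3 (by omega), mul_zero]

lemma IsLead.add {p q : K[X]} {m : ℤ} {a b : K} (hp : IsLead p m a) (hq : IsLead q m b) :
    IsLead (p + q) m (a + b) := by
  obtain ⟨hp1, hp2, hp3⟩ := hp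
  obtain ⟨hq1, hq2, hq3⟩ := hq
  refine ⟨?_, ?_, ?_⟩
  · intro k hk
    rw [coeff_add, hp1 k hk, hq1 k hk, add_zero]
  · intro k hk
    rw [coeff_add, hp2 k hk, hq2 k hk]
  · intro h
    rw [hp3 h, hq3 h, add_zero]

lemma IsLead.sub {p q : K[X]} {m : ℤ} {a b : K} (hp : IsLead p m a) (hq : IsLead q m b) :
    IsLead (p - q) m (a - b) := by
  obtain ⟨hp1, hp2, hp3⟩ := hp
  obtain ⟨hq1, hq2, hq3⟩ := hq
  refine ⟨?_, ?_, ?_⟩
  · intro k hk
    rw [coeff_sub, hp1 k hk, hq1 k hk, sub_zero]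
  · intro k hk
    rw [coeff_sub, hp2 k hk, hq2 k hk]
  · intro h
    rw [hp3 h, hq3 h, sub_zero]

lemma IsLead.lower {p : K[X]} {m m' : ℤ} {a : K} (hp : IsLead p m a) (h : m < m') :
    IsLead p m' 0 := by
  obtain ⟨hp1, hp2, hp3⟩ := hp
  exact ⟨fun k hk => hp1 k (by omega), fun k hk => hp1 k (by omega), fun _ => rfl⟩

lemma isLead_C (c : K) : IsLead (C c) 0 c := by
  refine ⟨?_, ?_, ?_⟩
  · intro k hk
    rw [coeff_C, if_neg (by omega)]
  · intro k hk
    rw [coeff_C, if_pos (by omega)]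
  · intro h; omega

lemma isLead_X : IsLead (X : K[X]) 1 1 := by
  refine ⟨?_, ?_, ?_⟩
  · intro k hk
    rw [coeff_X, if_neg (by omega)]
  · intro k hk
    rw [coeff_X, if_pos (by omega)]
  · intro h; omega

lemma isLead_one : IsLead (1 : K[X]) 0 1 := by
  simpa using isLead_C (1 : K)

lemma isLead_zero (m : ℤ) : IsLead (0 : K[X]) m 0 :=
  ⟨fun _ _ => by simp, fun _ _ => by simp, fun _ => rfl⟩

lemma isLead_two : IsLead (2 : K[X]) 0 2 := by
  have h : (2 : K[X]) = C 2 := (map_ofNat C 2).symm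
  rw [h]; exact isLead_C 2

lemma isLead_four : IsLead (4 : K[X]) 0 4 := by
  have h : (4 : K[X]) = C 4 := (map_ofNat C 4).symm
  rw [h]; exact isLead_C 4

lemma IsLead.sq {p : K[X]} {m : ℤ} {a : K} (hp : IsLead p m a) :
    IsLead (p ^ 2) (2 * m) (a ^ 2) := by
  rw [pow_two]
  exact (hp.mul hp).congr (by ring) (by ring)

end Lead

section LeadLadder

variable {K : Type*} [CommRing K]

lemma lead_ladS (b₄ b₆ b₈ : K) {s t w : K[X]} {M : ℤ} {σ τ ω : K} (hs : IsLead s M σ)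
    (ht : IsLead t (M - 1) τ) (hw : IsLead w (M - 2) ω) :
    IsLead (ladS (C b₄) (C b₆) (C b₈) s t w) (2 * M) (σ ^ 2) := by
  have h1 := hs.sq
  have h2 : IsLead (C b₄ * s * w) (2 * M) 0 := (((isLead_C b₄).mul hs).mul hw).lower (by omega)
  have h3 : IsLead (C b₆ * t * w) (2 * M) 0 := (((isLead_C b₆).mul ht).mul hw).lower (by omega)
  have h4 : IsLead (C b₈ * w ^ 2) (2 * M) 0 := ((isLead_C b₈).mul hw.sq).lower (by omega)
  exact (((h1.sub h2).sub h3).sub h4).congr rfl (by ring)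

lemma lead_ladT (b₂ b₄ b₆ : K) {s t w : K[X]} {M : ℤ} {σ τ ω : K} (hs : IsLead s M σ)
    (ht : IsLead t (M - 1) τ) (hw : IsLead w (M - 2) ω) :
    IsLead (ladT (C b₂) (C b₄) (C b₆) s t w) (2 * M - 1) (2 * τ * σ) := by
  have h1 : IsLead (2 * t * s) (2 * M - 1) (2 * τ * σ) :=
    ((isLead_two.mul ht).mul hs).congr (by ring) rfl
  have h2 : IsLead (C b₂ * s * w) (2 * M - 1) 0 :=
    (((isLead_C b₂).mul hs).mul hw).lower (by omega)
  have h3 : IsLead (C b₄ * t * w) (2 * M - 1) 0 :=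
    (((isLead_C b₄).mul ht).mul hw).lower (by omega)
  have h4 : IsLead (C b₆ * w ^ 2) (2 * M - 1) 0 := ((isLead_C b₆).mul hw.sq).lower (by omega)
  exact (((h1.add h2).add h3).add h4).congr rfl (by ring)

lemma lead_ladU {s t w : K[X]} {M : ℤ} {σ τ ω : K} (hs : IsLead s M σ)
    (ht : IsLead t (M - 1) τ) (hw : IsLead w (M - 2) ω) :
    IsLead (ladU s t w) (2 * M - 2) (τ ^ 2 - 4 * σ * ω) := by
  have h1 : IsLead (t ^ 2) (2 * M - 2) (τ ^ 2) := ht.sq.congr (by ring) rfl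
  have h2 : IsLead (4 * s * w) (2 * M - 2) (4 * σ * ω) :=
    ((isLead_four.mul hs).mul hw).congr (by ring) rfl
  exact h1.sub h2

/-- the degree invariant of the ladder -/
def LeadInv (n : ℕ) (p : K[X] × K[X]) : Prop :=
  IsLead p.1 ((n : ℤ) ^ 2) 1 ∧ IsLead p.2 ((n : ℤ) ^ 2 - 1) ((n : K) ^ 2)

lemma LeadInv.dbl (b₂ b₄ b₆ b₈ : K) {n : ℕ} {p : K[X] × K[X]} (h : LeadInv n p) :
    LeadInv (2 * n) (ladDbl (C b₂) (C b₄) (C b₆) (C b₈) p) := by
  obtain ⟨h1, h2⟩ := h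
  have hs : IsLead (p.1 ^ 2) (2 * (n : ℤ) ^ 2) 1 := h1.sq.congr rfl (by ring)
  have ht : IsLead (2 * p.1 * p.2) (2 * (n : ℤ) ^ 2 - 1) (2 * (n : K) ^ 2) :=
    ((isLead_two.mul h1).mul h2).congr (by ring) (by ring)
  have hw : IsLead (p.2 ^ 2) (2 * (n : ℤ) ^ 2 - 2) (((n : K) ^ 2) ^ 2) :=
    h2.sq.congr (by ring) rfl
  refine ⟨?_, ?_⟩
  · exact (lead_ladS b₄ b₆ b₈ hs ht hw).congr (by push_cast; ring) (by ring)
  · exact (lead_ladT b₂ b₄ b₆ hs ht hw).congr (by push_cast; ring) (by push_cast; ring)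

lemma LeadInv.add (b₂ b₄ b₆ : K) {n : ℕ} {p q : K[X] × K[X]} (hp : LeadInv n p)
    (hq : LeadInv (n + 1) q) :
    LeadInv (2 * n + 1) (ladAdd (C b₂) (C b₄) (C b₆) X p q) := by
  obtain ⟨h1, h2⟩ := hp
  obtain ⟨h3, h4⟩ := hq
  have hs : IsLead (p.1 * q.1) ((n : ℤ) ^ 2 + ((n : ℤ) + 1) ^ 2) 1 :=
    (h1.mul h3).congr (by push_cast; ring) (by ring)
  have ht : IsLead (p.1 * q.2 + q.1 * p.2) ((n : ℤ) ^ 2 + ((n : ℤ) + 1) ^ 2 - 1)
      (((n : K) + 1) ^ 2 + (n : K) ^ 2) :=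
    ((h1.mul h4).congr (by push_cast; ring) (by push_cast; ring)).add
      ((h3.mul h2).congr (by push_cast; ring) (by push_cast; ring))
  have hw : IsLead (p.2 * q.2) ((n : ℤ) ^ 2 + ((n : ℤ) + 1) ^ 2 - 2)
      ((n : K) ^ 2 * ((n : K) + 1) ^ 2) :=
    (h2.mul h4).congr (by push_cast; ring) (by push_cast; ring)
  have hU := lead_ladU hs ht hw
  have hT := lead_ladT b₂ b₄ b₆ hs ht hw
  refine ⟨?_, ?_⟩
  · exact (hT.sub ((isLead_X.mul hU).congr (by ring) rfl)).congr (by push_cast; ring)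
      (by ring)
  · exact hU.congr (by push_cast; ring) (by push_cast; ring)

lemma LeadInv_ladPair (b₂ b₄ b₆ b₈ : K) (n : ℕ) :
    LeadInv n (ladPair (C b₂) (C b₄) (C b₆) (C b₈) X n).1 ∧
    LeadInv (n + 1) (ladPair (C b₂) (C b₄) (C b₆) (C b₈) X n).2 := by
  induction n using Nat.binaryRec with
  | zero =>
    rw [ladPair_zero]
    refine ⟨⟨?_, ?_⟩, ⟨?_, ?_⟩⟩
    · exact isLead_one.congr (by simp) rfl
    · exact (isLead_zero _).congr rfl (by simp)
    · exact isLead_X.congr (by simp) rfl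
    · exact isLead_one.congr (by simp) (by simp)
  | bit b n ih =>
    obtain ⟨ih1, ih2⟩ := ih
    rw [ladPair_bit]
    cases b
    · simp only [Nat.bit_false_apply, ladStep, Bool.false_eq_true, if_false]
      exact ⟨ih1.dbl b₂ b₄ b₆ b₈, ih1.add b₂ b₄ b₆ ih2⟩
    · simp only [Nat.bit_true_apply, ladStep, if_true]
      have e : 2 * n + 1 + 1 = 2 * (n + 1) := by ring
      rw [e]
      exact ⟨ih1.add b₂ b₄ b₆ ih2, ih2.dbl b₂ b₄ b₆ b₈⟩

lemma isLead_ladDiv (b₂ b₄ b₆ b₈ : K) (h : ℕ) :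
    IsLead (ladDiv (C b₂) (C b₄) (C b₆) (C b₈) X h) ((2 * h * (h + 1) : ℕ) : ℤ)
      (-((2 * h + 1 : ℕ) : K)) := by
  obtain ⟨⟨h1, h2⟩, ⟨h3, h4⟩⟩ := LeadInv_ladPair b₂ b₄ b₆ b₈ h
  exact ((h3.mul h2).sub ((h1.mul h4).congr (by push_cast; ring) rfl)).congr
    (by push_cast; ring) (by push_cast; ring)

end LeadLadder

section Final

variable {K : Type*} [Field K] [DecidableEq K] (V : WeierstrassCurve.Affine K)

/-- a polynomial whose roots are the `x`-coordinates of the points killed by `2h+1`. -/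
noncomputable def divPoly (V : WeierstrassCurve.Affine K) (h : ℕ) : K[X] :=
  ladDiv (C V.b₂) (C V.b₄) (C V.b₆) (C V.b₈) X h

theorem divPoly_natDegree_le (h : ℕ) : (divPoly V h).natDegree ≤ 2 * h * (h + 1) := by
  rw [natDegree_le_iff_coeff_eq_zero]
  intro k hk
  exact (isLead_ladDiv V.b₂ V.b₄ V.b₆ V.b₈ h).1 k (by exact_mod_cast hk)

theorem divPoly_coeff (h : ℕ) :
    (divPoly V h).coeff (2 * h * (h + 1)) = -((2 * h + 1 : ℕ) : K) :=
  (isLead_ladDiv V.b₂ V.b₄ V.b₆ V.b₈ h).2.1 _ rfl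

lemma divPoly_eval (h : ℕ) (x : K) :
    (divPoly V h).eval x = ladDiv V.b₂ V.b₄ V.b₆ V.b₈ x h := by
  have := ladDiv_map (evalRingHom x) (C V.b₂) (C V.b₄) (C V.b₆) (C V.b₈) X h
  simp only [coe_evalRingHom, eval_C, eval_X] at this
  rw [this, divPoly]

theorem divPoly_eval_eq_zero_iff (h : ℕ) {x y : K} (hxy : V.Nonsingular x y) :
    (divPoly V h).eval x = 0 ↔ (2 * h + 1) • (Point.some x y hxy) = 0 := by
  rw [divPoly_eval]
  exact ladDiv_eq_zero_iff hxy h

theorem divPoly_eval_mem (A : Subring K) (h2 : V.b₂ ∈ A) (h4 : V.b₄ ∈ A) (h6 : V.b₆ ∈ A)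
    (h8 : V.b₈ ∈ A) (h : ℕ) {x : K} (hx : x ∈ A) : (divPoly V h).eval x ∈ A := by
  rw [divPoly_eval]
  have := ladDiv_map A.subtype ⟨V.b₂, h2⟩ ⟨V.b₄, h4⟩ ⟨V.b₆, h6⟩ ⟨V.b₈, h8⟩ ⟨x, hx⟩ h
  simp only [Subring.subtype_apply] at this
  rw [this]
  exact Subtype.property _

end Final

end Fermat.Agent.S13
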