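import Fermat.Agent.S13.FreyBasic

set_option autoImplicit false
set_option linter.unusedSectionVars false
set_option linter.unusedVariables false
set_option linter.unusedSimpArgs false

/-!
# The Frey curve at an odd prime `q` (including `q = p`): `(σ - 1) E[p] ⊆ E₁`
-/

namespace Fermat.Agent.S13

open WeierstrassCurve WeierstrassCurve.Affine WeierstrassCurve.Affine.Point
open Fermat.Agent.S05

section No2

variable {K : Type*} [Field K] [DecidableEq K] {V : WeierstrassCurve.Affine K}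
  {A : ValuationSubring K} {e e' e'' : K} {p : ℕ}

/-- An integral point of order `p` does not reduce to a nonsingular `2`-torsion point. -/
lemma no2' (hr : Roots V e e' e'') (he : e ∈ A) (he' : e' ∈ A) (he'' : e'' ∈ A)
    (hp : p.Prime) (hp5 : 5 ≤ p)
    (hκ : A.valuation ((e' - e) * (e'' - e)) = 1)
    {P : V.Point} (hP : P ≠ 0) (hpP : p • P = 0) (hxA : xc V P ∈ A) :
    A.valuation (xc V P - e) = 1 := by
  obtain ⟨b2, b4, b6, b8⟩ := hr.b_mem he he' he''
  rw [val_one_iff]
  refine ⟨sub_mem hxA he, fun hX => ?_⟩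
  have h2P : P + P ≠ 0 := by
    have := nsmul_ne_zero_of_lt hp hP hpP (k := 2) (by omega) (by omega)
    rwa [two_nsmul] at this
  have h2A : xc V (P + P) ∈ A := by
    by_contra hn
    have h1 : E1 A P := E1_of_dbl b2 b4 b6 b8 (hp.odd_of_ne_two (by omega)) hpP (Or.inr hn)
    exact (h1.resolve_left hP) hxA
  obtain ⟨-, hd⟩ := xc_two_nsmul hP h2P
  have h1 := hr.fD_eq (xc V P)
  have h2 := hr.fF_eq (xc V P)
  rw [← hd] at h1
  have h4mem : (4 : K) ∈ A := by exact_mod_cast S05.natCast_mem A 4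
  have hF : fF V (xc V P) ∈ A.nonunits := by
    rw [h2]
    have hXA := nu_mem A hX
    have : 4 * (xc V P - e) * (xc V P - e - (e' - e)) * (xc V P - e - (e'' - e)) =
      (xc V P - e) * (4 * (xc V P - e - (e' - e)) * (xc V P - e - (e'' - e))) := by ring
    rw [this]
    exact nu_mul_right A hX (mul_mem (mul_mem h4mem (sub_mem hXA (sub_mem he' he)))
      (sub_mem hXA (sub_mem he'' he)))
  have h3 : ((xc V P - e) ^ 2 - (e' - e) * (e'' - e)) ^ 2 ∈ A.nonunits := by
    rw [← h1]
    have : xc V (P + P) * fF V (xc V P) - e * fF V (xc V P) =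
      (xc V (P + P) - e) * fF V (xc V P) := by ring
    rw [this]
    exact nu_mul_left A (sub_mem h2A he) hF
  have h4 := nu_of_sq A h3
  have h5 : (e' - e) * (e'' - e) ∈ A.nonunits := by
    have : (e' - e) * (e'' - e) =
      (xc V P - e) * (xc V P - e) - ((xc V P - e) ^ 2 - (e' - e) * (e'' - e)) := by ring
    rw [this]
    exact nu_sub A (nu_mul_left A (nu_mem A hX) hX) h4
  exact ((val_one_iff A).mp hκ).2 h5

end No2

section Local

variable {K : Type*} [Field K] [DecidableEq K] [CharZero K] [Algebra ℚ K]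
  [Algebra.IsAlgebraic ℚ K] {W : WeierstrassCurve.Affine ℚ}

local notation "ι" => algebraMap ℚ K

theorem local_odd (A : ValuationSubring K) {q p : ℕ} (hq : q.Prime)
    (hqA : (q : K) ∈ A.nonunits) (hq2 : q ≠ 2) (hp : p.Prime) (hp5 : 5 ≤ p)
    {e e' e'' : ℚ} (hr : Roots (W⁄K) (ι e) (ι e') (ι e''))
    (he : ι e ∈ A) (he' : ι e' ∈ A) (he'' : ι e'' ∈ A)
    (hr2 : A.valuation (ι e'' - ι e) = 1) (hr3 : A.valuation (ι e'' - ι e') = 1)
    {s : ℕ} {u : K} (hu : A.valuation u = 1) (hr1 : ι e' - ι e = (q : K) ^ (p * s) * u)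
    (ha1 : (W⁄K).a₁ ∈ A) (ha2 : (W⁄K).a₂ ∈ A)
    (L : IntermediateField ℚ K) {σ : K ≃ₐ[ℚ] K} (hσ : RI L A σ)
    {P : (W⁄K).Point} (hpP : p • P = 0) (hPL : InL L P) : E1 A (σ • P - P) := by
  by_cases hP : P = 0
  · left
    rw [hP, algEquiv_smul_def, Point.map_zero, sub_zero]
  obtain ⟨b2, b4, b6, b8⟩ := hr.b_mem he he' he''
  obtain ⟨x, y, hxy, rfl⟩ := exists_some_of_ne_zero hP
  obtain ⟨hxL, hyL⟩ := hPL x y hxy rfl
  by_cases hxA : x ∈ A
  swap
  · apply E1_sub b2 b4 b6 b8
    · right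
      rw [xc_smul, xc_some]
      exact hσ.not_mem hxL hxA
    · right; exact hxA
  have hv2 : A.valuation (2 : K) = 1 := by
    have := val_int_of_not_dvd A hq hqA (n := (2 : ℤ)) (by
      intro hd
      have := (Nat.prime_dvd_prime_iff_eq hq Nat.prime_two).mp (by exact_mod_cast hd)
      exact hq2 this)
    simpa using this
  have hv4 : A.valuation (4 : K) = 1 := by
    have : (4 : K) = 2 * 2 := by norm_num
    rw [this, map_mul, hv2, one_mul]
  have h2A := ((val_one_iff A).mp hv2).2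
  have hσe : σ (ι e) = ι e := σ.commutes e
  have heL : ι e ∈ L := L.algebraMap_mem e
  have hfin : (σ • (some x y hxy : (W⁄K).Point) = some x y hxy ∨
      xc (W⁄K) (σ • (some x y hxy : (W⁄K).Point) - some x y hxy) ∉ A) →
      E1 A (σ • (some x y hxy : (W⁄K).Point) - some x y hxy) := by
    rintro (h | h)
    · left; rw [h, sub_self]
    · right; exact h
  apply hfin
  have hxc : xc (W⁄K) (some x y hxy : (W⁄K).Point) = x := rfl
  -- the third root is never hit
  have hU'' : A.valuation (x - ι e'') = 1 := by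
    have := no2' hr.rot.rot he'' he he' hp hp5 (by
      rw [map_mul, ← neg_sub, Valuation.map_neg, hr2, ← neg_sub, Valuation.map_neg, hr3, one_mul])
      hP hpP hxA
    exact this
  -- the case where `fF x` is a unit
  have hunit : A.valuation (x - ι e) = 1 → A.valuation (x - ι e') = 1 →
      (σ • (some x y hxy : (W⁄K).Point) = some x y hxy ∨
      xc (W⁄K) (σ • (some x y hxy : (W⁄K).Point) - some x y hxy) ∉ A) := by
    intro h1 h2
    have hF : A.valuation (fF (W⁄K) x) = 1 := by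
      rw [hr.fF_eq, map_mul, map_mul, map_mul, hv4, h1]
      have e1 : x - ι e - (ι e' - ι e) = x - ι e' := by ring
      have e2 : x - ι e - (ι e'' - ι e) = x - ι e'' := by ring
      rw [e1, e2, h2, hU'']; simp
    have hF' := (val_one_iff A).mp hF
    exact inertia_step hσ h2A ha1 ha2 hxy hxL hyL hxA heL hσe (t := 1) one_ne_zero L.one_mem
      (map_one σ) (by simpa using ((val_one_iff A).mp h1).1)
      (by simpa using hF'.1) (by simpa using hF'.2)
  rcases Nat.eq_zero_or_pos s with hs | hs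
  · -- good reduction
    subst hs
    have hr1' : A.valuation (ι e' - ι e) = 1 := by rw [hr1]; simpa using hu
    apply hunit
    · exact no2' hr he he' he'' hp hp5 (by rw [map_mul, hr1', hr2, one_mul]) hP hpP hxA
    · exact no2' hr.rot he' he'' he hp hp5 (by
        rw [map_mul, hr3, ← neg_sub, Valuation.map_neg, hr1', one_mul]) hP hpP hxA
  · -- multiplicative reduction
    have hq0 : (q : K) ≠ 0 := by exact_mod_cast hq.ne_zero
    have hr1M : ι e' - ι e ∈ A.nonunits := by
      rw [hr1]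
      have hps : p * s = (p * s - 1) + 1 := by
        have := Nat.mul_pos hp.pos hs; omega
      rw [hps, pow_succ]
      exact nu_mul_right A (nu_mul_left A (pow_mem (nu_mem A hqA) _) hqA) ((val_one_iff A).mp hu).1
    by_cases hX : x - ι e ∈ A.nonunits
    · obtain ⟨ord, hord, hordq⟩ := exists_isOrd A hq hqA
      have hu0 : u ≠ 0 := by
        rintro rfl; rw [_root_.map_zero] at hu; exact zero_ne_one hu
      have hordu : ord u = 0 :=
        hord.eq_zero_of_unit ((val_one_iff A).mp hu).1 ((val_one_iff A).mp hu).2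
      have hN1 : ord (ι e' - ι e) = ((p * s : ℕ) : ℚ) := by
        rw [hr1, hord.mul _ _ (pow_ne_zero _ hq0) hu0, hord.pow hq0, hordq, hordu]; ring
      have hr10 : ι e' - ι e ≠ 0 := by rw [hr1]; exact mul_ne_zero (pow_ne_zero _ hq0) hu0
      have hr20 : ι e'' - ι e ≠ 0 := by
        intro h0; rw [h0, _root_.map_zero] at hr2; exact zero_ne_one hr2
      have hN2 : ord (ι e'' - ι e) = 0 :=
        hord.eq_zero_of_unit ((val_one_iff A).mp hr2).1 ((val_one_iff A).mp hr2).2
      have hNpos : (0 : ℚ) < ((p * s : ℕ) : ℚ) := by exact_mod_cast Nat.mul_pos hp.pos hs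
      have hX0 : x - ι e ≠ 0 := by
        have := (ySeq_of_xSeq hr (hp.odd_of_ne_two (by omega))
          (xSeq_of_prime_order hp hP hpP)).ne0 1 one_pos (by omega)
        simpa using this
      have hv40 : (4 : K) ≠ 0 := by
        intro h0; rw [h0, _root_.map_zero] at hv4; exact zero_ne_one hv4
      have hord4 : ord (4 : K) = 0 :=
        hord.eq_zero_of_unit ((val_one_iff A).mp hv4).1 ((val_one_iff A).mp hv4).2
      obtain ⟨j, hj, hjX, hlt⟩ := node_ord' hord hr hp hp5 hv40 hNpos hr10 hr20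
        (by rw [hord4, hN2, add_zero]) hN2.le
        (by rw [hord.mul _ _ hr10 hr20, hN1, hN2, add_zero])
        (mul_mem ((val_one_iff A).mp hv4).1 (add_mem (sub_mem he' he) (sub_mem he'' he)))
        hP hpP ((hord.pos_iff hX0).mpr hX)
      rw [hxc] at hjX hlt
      have hpQ : (p : ℚ) ≠ 0 := by exact_mod_cast hp.ne_zero
      have hc : ord (x - ι e) = ((2 * s * j : ℕ) : ℚ) := by
        rw [hjX]; push_cast; field_simp
      set c : ℕ := 2 * s * j with hcdef
      have ht0 : (q : K) ^ c ≠ 0 := pow_ne_zero _ hq0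
      have hordt : ord ((q : K) ^ c) = c := by rw [hord.pow hq0, hordq, mul_one]
      rw [hc] at hlt
      have hcpos : (0 : ℚ) < c := by
        rw [← hc]; exact (hord.pos_iff hX0).mpr hX
      -- ord of fF x
      have o1 : ord (x - ι e - (ι e' - ι e)) = c := by
        rw [hord.sub_eq_of_lt hX0 hr10 (by rw [hc, hN1]; exact hlt), hc]
      have o2 : ord (x - ι e - (ι e'' - ι e)) = 0 := by
        rw [hord.sub_eq_of_gt hX0 hr20 (by rw [hc, hN2]; exact hcpos), hN2]
      have n1 : x - ι e - (ι e' - ι e) ≠ 0 := by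
        have := hord.add_ne_zero_of_lt (x := x - ι e) (y := -(ι e' - ι e))
          (by rw [hord.neg, hc, hN1]; exact hlt)
        rwa [← sub_eq_add_neg] at this
      have n2 : x - ι e - (ι e'' - ι e) ≠ 0 := by
        have e2 : x - ι e - (ι e'' - ι e) = x - ι e'' := by ring
        rw [e2]
        intro h0; rw [h0, _root_.map_zero] at hU''; exact zero_ne_one hU''
      have hF0 : fF (W⁄K) x ≠ 0 := by
        rw [hr.fF_eq]; exact mul_ne_zero (mul_ne_zero (mul_ne_zero hv40 hX0) n1) n2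
      have oF : ord (fF (W⁄K) x / ((q : K) ^ c) ^ 2) = 0 := by
        rw [hord.div hF0 (pow_ne_zero 2 ht0), hord.pow ht0, hordt, hr.fF_eq,
          hord.mul _ _ (mul_ne_zero (mul_ne_zero hv40 hX0) n1) n2,
          hord.mul _ _ (mul_ne_zero hv40 hX0) n1, hord.mul _ _ hv40 hX0, hord4, hc, o1, o2]
        push_cast; ring
      have hFu := hord.unit_of_eq_zero (div_ne_zero hF0 (pow_ne_zero 2 ht0)) oF
      refine inertia_step hσ h2A ha1 ha2 hxy hxL hyL hxA heL hσe (t := (q : K) ^ c) ht0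
        (pow_mem (natCast_mem L q) _) (by rw [map_pow, map_natCast]) ?_ hFu.1 hFu.2
      apply (hord.nonneg_iff _ (div_ne_zero hX0 ht0)).mp
      rw [hord.div hX0 ht0, hc, hordt, sub_self]
    · have hXu : A.valuation (x - ι e) = 1 :=
        (val_one_iff A).mpr ⟨sub_mem hxA he, hX⟩
      apply hunit hXu
      rw [val_one_iff]
      refine ⟨sub_mem hxA he', fun hm => hX ?_⟩
      have : x - ι e = (x - ι e') + (ι e' - ι e) := by ring
      rw [this]
      exact nu_add A hm hr1M

end Local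

section Main

local notation "Kb" => AlgebraicClosure ℚ
local notation "ι" => algebraMap ℚ (AlgebraicClosure ℚ)

theorem frey_local_odd (P : FreyPackage) {q : ℕ} (hq : q.Prime) (hq2 : q ≠ 2)
    (A : ValuationSubring Kb) (hqA : (q : Kb) ∈ A.nonunits) (L : IntermediateField ℚ Kb)
    {σ : Kb ≃ₐ[ℚ] Kb} (hσ : RI L A σ)
    {R : ((P.freyCurve : WeierstrassCurve.Affine ℚ)⁄Kb).Point} (hR : P.p • R = 0)
    (hRL : InL L R) : E1 A (σ • R - R) := by
  have : Algebra.IsAlgebraic ℚ Kb := AlgebraicClosure.isAlgebraic ℚ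
  have hqZ : Prime (q : ℤ) := Nat.prime_iff_prime_int.mp hq
  have hcop : ∀ {m n : ℤ}, gcd m n = 1 → (q : ℤ) ∣ m → ¬ (q : ℤ) ∣ n := by
    intro m n hg h1 h2
    have := dvd_gcd h1 h2
    rw [hg] at this
    exact hqZ.not_dvd_one this
  have hFLT : (P.a : Kb) ^ P.p + (P.b : Kb) ^ P.p = (P.c : Kb) ^ P.p := by
    exact_mod_cast congrArg (Int.cast : ℤ → Kb) P.hFLT
  have hr := (frey_roots P).baseChange (K := Kb)
  have ea : ι ((P.a : ℚ) ^ P.p / 4) = (P.a : Kb) ^ P.p / 4 := by simp
  have eb : ι (-((P.b : ℚ) ^ P.p) / 4) = -((P.b : Kb) ^ P.p / 4) := by simp [neg_div]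
  have e0 : ι 0 = 0 := map_zero _
  have ha := mem_pow_div_four A hq hqA hq2 P.a P.p
  have hb := mem_pow_div_four A hq hqA hq2 P.b P.p
  have ha1 : ((P.freyCurve : WeierstrassCurve.Affine ℚ)⁄Kb).a₁ ∈ A := by
    rw [frey_a₁]; exact A.one_mem
  have ha2 := frey_a₂_mem A P
  by_cases hbc : ¬ (q : ℤ) ∣ P.b ∧ ¬ (q : ℤ) ∣ P.c
  · obtain ⟨s, u, hu, hs⟩ := split_pow_div_four A hq hqA hq2 P.ha0 P.p
    refine local_odd A hq hqA hq2 P.pp P.hp5 hr ?_ ?_ ?_ ?_ ?_ hu (s := s) ?_ ha1 ha2 L hσ hR hRL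
    · rw [e0]; exact A.zero_mem
    · rw [ea]; exact ha
    · rw [eb]; exact neg_mem hb
    · rw [eb, e0, sub_zero, Valuation.map_neg]
      exact val_pow_div_four A hq hqA hq2 hbc.1 P.p
    · rw [eb, ea]
      have : -((P.b : Kb) ^ P.p / 4) - (P.a : Kb) ^ P.p / 4 = -((P.c : Kb) ^ P.p / 4) := by
        rw [← hFLT]; ring
      rw [this, Valuation.map_neg]
      exact val_pow_div_four A hq hqA hq2 hbc.2 P.p
    · rw [ea, e0, sub_zero, hs]
  · by_cases hqb : (q : ℤ) ∣ P.b
    · have hqa : ¬ (q : ℤ) ∣ P.a := hcop (by rw [gcd_comm]; exact P.hgcdab) hqb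
      have hqc : ¬ (q : ℤ) ∣ P.c := hcop P.hgcdbc hqb
      obtain ⟨s, u, hu, hs⟩ := split_pow_div_four A hq hqA hq2 P.hb0 P.p
      refine local_odd A hq hqA hq2 P.pp P.hp5 hr.swap ?_ ?_ ?_ ?_ ?_
        (u := -u) (by rw [Valuation.map_neg]; exact hu) (s := s) ?_ ha1 ha2 L hσ hR hRL
      · rw [e0]; exact A.zero_mem
      · rw [eb]; exact neg_mem hb
      · rw [ea]; exact ha
      · rw [ea, e0, sub_zero]
        exact val_pow_div_four A hq hqA hq2 hqa P.p
      · rw [eb, ea]
        have : (P.a : Kb) ^ P.p / 4 - -((P.b : Kb) ^ P.p / 4) = (P.c : Kb) ^ P.p / 4 := by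
          rw [← hFLT]; ring
        rw [this]
        exact val_pow_div_four A hq hqA hq2 hqc P.p
      · rw [eb, e0, sub_zero, hs]; ring
    · have hqc : (q : ℤ) ∣ P.c := by
        by_contra h; exact hbc ⟨hqb, h⟩
      have hqa : ¬ (q : ℤ) ∣ P.a := hcop (by rw [gcd_comm]; exact P.hgcdac) hqc
      obtain ⟨s, u, hu, hs⟩ := split_pow_div_four A hq hqA hq2 P.hc0 P.p
      refine local_odd A hq hqA hq2 P.pp P.hp5 hr.rot ?_ ?_ ?_ ?_ ?_
        (u := -u) (by rw [Valuation.map_neg]; exact hu) (s := s) ?_ ha1 ha2 L hσ hR hRL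
      · rw [ea]; exact ha
      · rw [eb]; exact neg_mem hb
      · rw [e0]; exact A.zero_mem
      · rw [ea, e0, zero_sub, Valuation.map_neg]
        exact val_pow_div_four A hq hqA hq2 hqa P.p
      · rw [eb, e0, zero_sub, neg_neg]
        exact val_pow_div_four A hq hqA hq2 hqb P.p
      · rw [eb, ea]
        have : -((P.b : Kb) ^ P.p / 4) - (P.a : Kb) ^ P.p / 4 = -((P.c : Kb) ^ P.p / 4) := by
          rw [← hFLT]; ring
        rw [this, hs]; ring

/-- points of order `p` are integral away from `p`. -/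
theorem frey_E1_torsion (P : FreyPackage) {q : ℕ} (hq : q.Prime) (hqp : q ≠ P.p)
    (A : ValuationSubring Kb) (hqA : (q : Kb) ∈ A.nonunits)
    {R : ((P.freyCurve : WeierstrassCurve.Affine ℚ)⁄Kb).Point} (hR : P.p • R = 0)
    (h1 : E1 A R) : R = 0 := by
  by_contra hR0
  obtain ⟨b2, b4, b6, b8⟩ := frey_b_mem A P
  have hvp : A.valuation (P.p : Kb) = 1 := by
    have := val_int_of_not_dvd A hq hqA (n := (P.p : ℤ)) (by
      intro hd
      have := (Nat.prime_dvd_prime_iff_eq hq P.pp).mp (by exact_mod_cast hd)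
      exact hqp this)
    simpa using this
  have := xSeq_integral A b2 b4 b6 b8 P.hp5 P.hp_odd ((val_one_iff A).mp hvp).2
    (xSeq_of_prime_order P.pp hR0 hR)
  simp only [one_nsmul] at this
  exact (h1.resolve_left hR0) this

end Main

end Fermat.Agent.S13
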