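import Fermat.Agent.S05.Local

set_option autoImplicit false
set_option linter.unusedSectionVars false
set_option linter.unusedVariables false

/-!
# Points of order `p` reducing to a node: version valid in all residue characteristics
(no integrality of the points of order `p`, `2` need not be a unit).
-/

namespace Fermat.Agent.S13

open WeierstrassCurve WeierstrassCurve.Affine WeierstrassCurve.Affine.Point
open Fermat.Agent.S05

section Quad

variable {K : Type*} [Field K] [DecidableEq K] {V : WeierstrassCurve.Affine K} {e e' e'' : K}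

/-- the quadratic equation satisfied by `x(P ± Q) - e`. -/
lemma xSeq_quad (hr : Roots V e e' e'') {p : ℕ} {x : ℕ → K} (hx : XSeq V p x)
    {i j : ℕ} (hj : 0 < j) (hji : j < i) (hij : i + j < p) :
    ∀ z, (z = x (i + j) - e ∨ z = x (i - j) - e) →
    ((x i - e) - (x j - e)) ^ 2 * z ^ 2
      - (2 * ((x i - e) + (x j - e)) * ((x i - e) * (x j - e))
        - 4 * ((e' - e) + (e'' - e)) * ((x i - e) * (x j - e))
        + 2 * ((e' - e) * (e'' - e)) * ((x i - e) + (x j - e))) * z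
      + ((x i - e) * (x j - e) - (e' - e) * (e'' - e)) ^ 2 = 0 := by
  intro z hz
  have h1 := hx.addG i j hj hji hij
  have h2 := hx.mulH i j hj hji hij
  have h3 := hr.fH_eq (x i) (x j)
  have h4 := hr.fG_eq (x i) (x j)
  rw [← h3, ← h4, ← h1, ← h2]
  rcases hz with rfl | rfl <;> ring

end Quad

section E0

variable {K : Type*} [Field K] (A : ValuationSubring K)

/-- if `X_i⁻¹, X_j⁻¹ ∈ A` then a root of the quadratic is not in the maximal ideal. -/
lemma quad_not_nu {Xi Xj r₁ r₂ z : K} (hi0 : Xi ≠ 0) (hj0 : Xj ≠ 0)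
    (hi : Xi⁻¹ ∈ A) (hj : Xj⁻¹ ∈ A) (hκ : r₁ * r₂ ∈ A.nonunits) (hρ : 4 * (r₁ + r₂) ∈ A)
    (hq : (Xi - Xj) ^ 2 * z ^ 2
      - (2 * (Xi + Xj) * (Xi * Xj) - 4 * (r₁ + r₂) * (Xi * Xj) + 2 * (r₁ * r₂) * (Xi + Xj)) * z
      + (Xi * Xj - r₁ * r₂) ^ 2 = 0) : z ∉ A.nonunits := by
  intro hz
  have h2 : (2 : K) ∈ A := by exact_mod_cast S05.natCast_mem A 2
  have hzA := nu_mem A hz
  have hκA := nu_mem A hκ
  set u := Xi⁻¹ with hu
  set v := Xj⁻¹ with hv
  have hXi : Xi = u⁻¹ := by rw [hu, inv_inv]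
  have hXj : Xj = v⁻¹ := by rw [hv, inv_inv]
  have hu0 : u ≠ 0 := inv_ne_zero hi0
  have hv0 : v ≠ 0 := inv_ne_zero hj0
  have key : (1 - r₁ * r₂ * (u * v)) ^ 2 =
      z * ((2 * (u + v) - 4 * (r₁ + r₂) * (u * v) + 2 * (r₁ * r₂) * (u * v) * (u + v))
        - (v - u) ^ 2 * z) := by
    have : (u * v) ^ 2 * ((Xi - Xj) ^ 2 * z ^ 2
      - (2 * (Xi + Xj) * (Xi * Xj) - 4 * (r₁ + r₂) * (Xi * Xj) + 2 * (r₁ * r₂) * (Xi + Xj)) * z
      + (Xi * Xj - r₁ * r₂) ^ 2) = 0 := by rw [hq, mul_zero]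
    rw [hXi, hXj] at this
    field_simp at this
    linear_combination this
  have h1 : (1 - r₁ * r₂ * (u * v)) ^ 2 ∈ A.nonunits := by
    rw [key]
    apply nu_mul_right A hz
    exact sub_mem (add_mem (sub_mem (mul_mem h2 (add_mem hi hj)) (mul_mem hρ (mul_mem hi hj)))
      (mul_mem (mul_mem (mul_mem h2 hκA) (mul_mem hi hj)) (add_mem hi hj)))
      (mul_mem (pow_mem (sub_mem hj hi) 2) hzA)
  have h3 := nu_of_sq A h1
  have h4 : (1 : K) ∈ A.nonunits := by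
    have : (1 : K) = (1 - r₁ * r₂ * (u * v)) + r₁ * r₂ * (u * v) := by ring
    rw [this]
    exact nu_add A h3 (nu_mul_right A hκ (mul_mem hi hj))
  rw [A.mem_nonunits_iff, map_one] at h4
  exact lt_irrefl _ h4

/-- the duplication analogue. -/
lemma dbl_not_nu {X r₁ r₂ z : K} (h0 : X ≠ 0) (hi : X⁻¹ ∈ A)
    (hκ : r₁ * r₂ ∈ A.nonunits) (hρ : 4 * (r₁ + r₂) ∈ A)
    (hq : z * (4 * X * (X - r₁) * (X - r₂)) = (X ^ 2 - r₁ * r₂) ^ 2) : z ∉ A.nonunits := by
  intro hz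
  have h4 : (4 : K) ∈ A := by exact_mod_cast S05.natCast_mem A 4
  have hκA := nu_mem A hκ
  set u := X⁻¹ with hu
  have hX : X = u⁻¹ := by rw [hu, inv_inv]
  have hu0 : u ≠ 0 := inv_ne_zero h0
  have key : (1 - r₁ * r₂ * u ^ 2) ^ 2 =
      z * (u * (4 - 4 * (r₁ + r₂) * u + 4 * (r₁ * r₂) * u ^ 2)) := by
    have : u ^ 4 * (z * (4 * X * (X - r₁) * (X - r₂))) = u ^ 4 * (X ^ 2 - r₁ * r₂) ^ 2 := by
      rw [hq]
    rw [hX] at this
    field_simp at this
    linear_combination -this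
  have h1 : (1 - r₁ * r₂ * u ^ 2) ^ 2 ∈ A.nonunits := by
    rw [key]
    apply nu_mul_right A hz
    exact mul_mem hi (add_mem (sub_mem h4 (mul_mem hρ hi))
      (mul_mem (mul_mem h4 hκA) (pow_mem hi 2)))
  have h3 := nu_of_sq A h1
  have h5 : (1 : K) ∈ A.nonunits := by
    have : (1 : K) = (1 - r₁ * r₂ * u ^ 2) + r₁ * r₂ * u ^ 2 := by ring
    rw [this]
    exact nu_add A h3 (nu_mul_right A hκ (pow_mem hi 2))
  rw [A.mem_nonunits_iff, map_one] at h5
  exact lt_irrefl _ h5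

lemma inv_mem_of_not_nu {z : K} (hz : z ∉ A.nonunits) : z⁻¹ ∈ A := by
  rw [ValuationSubring.mem_nonunits_iff_or] at hz
  push Not at hz
  exact hz.2

end E0


section MLemmas

variable {K : Type*} [Field K] {A : ValuationSubring K} {ord : K → ℚ} (h : IsOrd A ord)
include h

variable {p : ℕ} {r₁ r₂ : K} {X : ℕ → K} {N : ℚ}

lemma ord_nonpos_iff {z : K} (hz : z ≠ 0) : ord z ≤ 0 ↔ z⁻¹ ∈ A := by
  rw [← h.nonneg_iff _ (inv_ne_zero hz), h.inv hz]
  constructor <;> intro <;> linarith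

/-- `ord` form of the duplication formula (no assumption on `ord 4`). -/
lemma ySeq_ord_dblK' (hY : YSeq p r₁ r₂ X) (h40 : (4 : K) ≠ 0)
    {k : ℕ} (hk : 0 < k) (hkp : 2 * k < p) :
    X k ^ 2 - r₁ * r₂ ≠ 0 ∧
    ord (X (2 * k)) + ord (4 : K) + ord (X k) + ord (X k - r₁) + ord (X k - r₂) =
      2 * ord (X k ^ 2 - r₁ * r₂) := by
  have h1 := hY.dblK k hk hkp
  have a1 := hY.ne0 (2 * k) (by omega) hkp
  have a2 := hY.ne0 k hk (by omega)
  have a3 := hY.dblne1 k hk hkp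
  have a4 := hY.dblne2 k hk hkp
  have a5 : X k ^ 2 - r₁ * r₂ ≠ 0 := by
    intro h0
    rw [h0] at h1
    have : X (2 * k) * (4 * X k * (X k - r₁) * (X k - r₂)) ≠ 0 :=
      mul_ne_zero a1 (mul_ne_zero (mul_ne_zero (mul_ne_zero h40 a2) a3) a4)
    exact this (by rw [h1]; ring)
  refine ⟨a5, ?_⟩
  have := congrArg ord h1
  rw [h.mul _ _ a1 (mul_ne_zero (mul_ne_zero (mul_ne_zero h40 a2) a3) a4),
    h.mul _ _ (mul_ne_zero (mul_ne_zero h40 a2) a3) a4, h.mul _ _ (mul_ne_zero h40 a2) a3,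
    h.mul _ _ h40 a2, h.pow a5] at this
  push_cast at this
  linarith

/-- (M1) a point deep in the node doubles out of it. -/
lemma ySeq_M1' (hY : YSeq p r₁ r₂ X) (h40 : (4 : K) ≠ 0)
    (hp : 2 < p) (hr1 : r₁ ≠ 0) (hr2 : r₂ ≠ 0) (h4r : ord (4 : K) + ord r₂ = 0)
    (hr2' : ord r₂ ≤ 0) (hκ : ord (r₁ * r₂) = N)
    (hpos : 0 < ord (X 1)) (hge : N ≤ ord (X 1)) (hN : 0 ≤ N) :
    ord (X 2) ≤ N - ord (X 1) := by
  obtain ⟨a5, e⟩ := ySeq_ord_dblK' h hY h40 (k := 1) one_pos (by omega)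
  have a2 := hY.ne0 1 one_pos (by omega)
  have a3 := hY.dblne1 1 one_pos (by omega)
  have hN1 : ord r₁ = N - ord r₂ := by
    rw [h.mul _ _ hr1 hr2] at hκ; linarith
  have e1 : ord (X 1 ^ 2 - r₁ * r₂) = N := by
    apply (ord_sub_kappa h (pow_ne_zero 2 a2) (mul_ne_zero hr1 hr2) hκ a5).2.1
    rw [h.pow a2]; push_cast; linarith
  have e2 : ord (X 1 - r₂) = ord r₂ := by
    rw [h.sub_eq_of_gt a2 hr2 (by linarith)]
  have e3 : N ≤ ord (X 1 - r₁) := by
    have := h.sub_ge a2 hr1 a3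
    rw [hN1] at this
    exact le_trans (le_min hge (by linarith)) this
  rw [e1, e2] at e
  simp only [mul_one] at e
  linarith

/-- (M3) linear growth of `ord (x(kQ) - e)` for the point of `⟨Q⟩` closest to the node. -/
lemma ySeq_M3' (hY : YSeq p r₁ r₂ X) (h40 : (4 : K) ≠ 0)
    {hh : ℕ} (hp : p = 2 * hh + 1) (hh2 : 2 ≤ hh)
    (hr1 : r₁ ≠ 0) (hr2 : r₂ ≠ 0) (h4r : ord (4 : K) + ord r₂ = 0)
    (hr2' : ord r₂ ≤ 0) (hκ : ord (r₁ * r₂) = N)
    (hrange : ∀ k, 0 < k → k < p → 0 < ord (X k) ∧ ord (X k) < N)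
    (hmin : ∀ k, 0 < k → k < p → ord (X 1) ≤ ord (X k)) :
    (p : ℚ) * ord (X 1) = 2 * N ∧ ∀ k, 0 < k → k ≤ hh → ord (X k) = k * ord (X 1) := by
  have hN1 : ord r₁ = N - ord r₂ := by
    rw [h.mul _ _ hr1 hr2] at hκ; linarith
  obtain ⟨c, hc⟩ : ∃ c, ord (X 1) = c := ⟨_, rfl⟩
  rw [hc]
  have hc0 : 0 < c := hc ▸ (hrange 1 one_pos (by omega)).1
  have hcN : c < N := hc ▸ (hrange 1 one_pos (by omega)).2
  have a1 := hY.ne0 1 one_pos (by omega)
  have h2 : ord (X 2) = 2 * c := by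
    obtain ⟨a5, e⟩ := ySeq_ord_dblK' h hY h40 (k := 1) one_pos (by omega)
    have e2 : ord (X 1 - r₁) = c := by
      rw [h.sub_eq_of_lt a1 hr1 (by rw [hc, hN1]; linarith), hc]
    have e3 : ord (X 1 - r₂) = ord r₂ := by
      rw [h.sub_eq_of_gt a1 hr2 (by rw [hc]; linarith)]
    rw [e2, e3, hc, sq] at e
    rw [sq] at a5
    simp only [mul_one] at e
    have := ySeq_M3_step h hY hr1 hr2 hκ (k := 1) one_pos (by omega) hc0 hc
      (by rw [hc]; simp) (by simpa using hcN) a5 (by push_cast; linarith)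
      (hrange 2 (by omega) (by omega)).2 (hc ▸ hmin 3 (by omega) (by omega))
    rw [show (1 : ℕ) + 1 = 2 from rfl] at this
    rw [this]; push_cast; ring
  have main : ∀ n, n + 2 ≤ hh →
      ord (X (n + 1)) = ((n + 1 : ℕ) : ℚ) * c ∧ ord (X (n + 2)) = ((n + 2 : ℕ) : ℚ) * c := by
    intro n
    induction n with
    | zero => intro _; exact ⟨by rw [hc]; simp, by rw [h2]; norm_num⟩
    | succ n ih =>
      intro hn
      obtain ⟨i1, i2⟩ := ih (by omega)
      refine ⟨i2, ?_⟩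
      obtain ⟨a5, e⟩ := ySeq_ord_mulK h hY (i := n + 2) (j := 1) one_pos (by omega) (by omega)
      have b1 := hY.ne0 (n + 2) (by omega) (by omega)
      have hn0 : (0 : ℚ) ≤ n := by positivity
      have e2 : ord (X (n + 2) - X 1) = c := by
        rw [h.sub_eq_of_gt b1 a1 (by rw [hc, i2]; push_cast; nlinarith), hc]
      have e4 : n + 2 - 1 = n + 1 := by omega
      rw [e4, i1, e2] at e
      have := ySeq_M3_step h hY hr1 hr2 hκ (k := n + 2) (by omega) (by omega) hc0 hc i2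
        (by rw [← i2]; exact (hrange (n + 2) (by omega) (by omega)).2) a5
        (by push_cast at e ⊢; linarith)
        (hrange (n + 2 + 1) (by omega) (by omega)).2
        (hc ▸ hmin (2 * (n + 2) + 1) (by omega) (by omega))
      have e5 : n + 1 + 2 = n + 2 + 1 := by omega
      rw [e5, this]; push_cast; ring
  have hall : ∀ k, 0 < k → k ≤ hh → ord (X k) = k * c := by
    intro k hk hkh
    rcases Nat.lt_or_ge k 2 with hk2 | hk2
    · have : k = 1 := by omega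
      rw [this, hc]; simp
    · have := (main (k - 2) (by omega)).2
      have e : k - 2 + 2 = k := by omega
      rwa [e] at this
  refine ⟨?_, hall⟩
  obtain ⟨a5, e⟩ := ySeq_ord_mulK h hY (i := hh) (j := 1) one_pos (by omega) (by omega)
  have b1 := hY.ne0 hh (by omega) (by omega)
  have hsym := hY.sym hh (by omega) (by omega)
  have e0 : p - hh = hh + 1 := by omega
  rw [e0] at hsym
  have hhQ : (2 : ℚ) ≤ hh := by exact_mod_cast hh2
  have e2 : ord (X hh - X 1) = c := by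
    rw [h.sub_eq_of_gt b1 a1 (by rw [hc, hall hh (by omega) le_rfl]; nlinarith), hc]
  have e3 : ord (X (hh - 1)) = (hh - 1) * c := by
    rw [hall (hh - 1) (by omega) (by omega)]
    push_cast [Nat.cast_sub (show 1 ≤ hh by omega)]; ring
  rw [hsym, hall hh (by omega) le_rfl, e3, e2] at e
  have hα : ord (X hh * X 1) = (hh + 1) * c := by
    rw [h.mul _ _ b1 a1, hall hh (by omega) le_rfl, hc]; ring
  obtain ⟨t1, t2, t3⟩ := ord_sub_kappa h (mul_ne_zero b1 a1) (mul_ne_zero hr1 hr2) hκ a5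
  have hpQ : (p : ℚ) = 2 * hh + 1 := by rw [hp]; push_cast; ring
  rw [hpQ]
  rcases lt_trichotomy ((hh + 1) * c) N with hlt' | heq | hgt
  · exfalso
    rw [t1 (by rw [hα]; exact hlt'), hα] at e
    linarith
  · exfalso
    have := t3 (by rw [hα]; exact heq)
    linarith
  · rw [t2 (by rw [hα]; exact hgt)] at e
    linarith

end MLemmas

section E0Seq

variable {K : Type*} [Field K] [DecidableEq K] {V : WeierstrassCurve.Affine K} {e e' e'' : K}
  (A : ValuationSubring K)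

/-- (M2') the multiples of a point that does not reduce to the node do not reduce to the node. -/
lemma xSeq_E0 (hr : Roots V e e' e'') {p : ℕ} (hodd : Odd p) (hp : 2 < p) {x : ℕ → K}
    (hx : XSeq V p x) (hκ : (e' - e) * (e'' - e) ∈ A.nonunits)
    (hρ : 4 * ((e' - e) + (e'' - e)) ∈ A) (h1 : (x 1 - e)⁻¹ ∈ A) :
    ∀ k, 0 < k → k < p → (x k - e)⁻¹ ∈ A := by
  have hY := ySeq_of_xSeq hr hodd hx
  have h2 : (x 2 - e)⁻¹ ∈ A := by
    apply inv_mem_of_not_nu
    exact dbl_not_nu A (hY.ne0 1 one_pos (by omega)) h1 hκ hρ (hY.dblK 1 one_pos (by omega))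
  have main : ∀ n, n + 2 < p → (x (n + 2) - e)⁻¹ ∈ A := by
    intro n
    induction n with
    | zero => intro _; exact h2
    | succ n ih =>
      intro hn
      have i2 := ih (by omega)
      apply inv_mem_of_not_nu
      have hq := xSeq_quad hr hx (i := n + 2) (j := 1) one_pos (by omega) (by omega)
        (x (n + 2 + 1) - e) (Or.inl rfl)
      exact quad_not_nu A (hY.ne0 (n + 2) (by omega) (by omega)) (hY.ne0 1 one_pos (by omega))
        i2 h1 hκ hρ hq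
  intro k hk hkp
  rcases Nat.lt_or_ge k 2 with hk2 | hk2
  · have : k = 1 := by omega
    rw [this]; exact h1
  · have := main (k - 2) (by omega)
    have e : k - 2 + 2 = k := by omega
    rwa [e] at this

end E0Seq

section Node

variable {K : Type*} [Field K] [DecidableEq K] {V : WeierstrassCurve.Affine K}
  {A : ValuationSubring K} {ord : K → ℚ} {e e' e'' : K} {p : ℕ}

/-- Structure of the multiples of a point of order `p` reducing to the node `e ≡ e'`. -/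
theorem node_struct (h : IsOrd A ord) (hr : Roots V e e' e'')
    (hp : p.Prime) (hp5 : 5 ≤ p) (h40 : (4 : K) ≠ 0)
    {N : ℚ} (hN : 0 < N) (hr1 : e' - e ≠ 0) (hr2 : e'' - e ≠ 0)
    (h4r : ord (4 : K) + ord (e'' - e) = 0) (hr2' : ord (e'' - e) ≤ 0)
    (hκ : ord ((e' - e) * (e'' - e)) = N) (hρ : 4 * ((e' - e) + (e'' - e)) ∈ A)
    {R : V.Point} (hR : R ≠ 0) (hpR : p • R = 0) (hpos : 0 < ord (xc V R - e)) :
    (∀ k, 0 < k → k < p → 0 < ord (xc V (k • R) - e) ∧ ord (xc V (k • R) - e) < N) ∧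
    ∃ k₀, 0 < k₀ ∧ k₀ < p ∧
      ∀ j : ℕ, 0 < j → 2 * j < p → ord (xc V (j • k₀ • R) - e) = j * (2 * N / p) := by
  have hodd : Odd p := hp.odd_of_ne_two (by omega)
  have hκM : (e' - e) * (e'' - e) ∈ A.nonunits :=
    (h.pos_iff (mul_ne_zero hr1 hr2)).mp (by rw [hκ]; exact hN)
  have hY : ∀ S : V.Point, S ≠ 0 → p • S = 0 →
      YSeq p (e' - e) (e'' - e) (fun k => xc V (k • S) - e) := fun S hS hpS =>
    ySeq_of_xSeq hr hodd (xSeq_of_prime_order hp hS hpS)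
  have hmul0 : ∀ S : V.Point, S ≠ 0 → p • S = 0 → ∀ k, 0 < k → k < p →
      k • S ≠ 0 ∧ p • (k • S) = 0 := fun S hS hpS k hk hkp =>
    ⟨nsmul_ne_zero_of_lt hp hS hpS hk hkp, by rw [nsmul_left_comm, hpS, nsmul_zero]⟩
  have hne0 : ∀ S : V.Point, S ≠ 0 → p • S = 0 → xc V S - e ≠ 0 := by
    intro S hS hpS
    have h0 := (hY S hS hpS).ne0 1 one_pos (by omega)
    simpa only [one_nsmul] using h0
  -- (M2') at the level of points
  have hM2 : ∀ S : V.Point, S ≠ 0 → p • S = 0 → ord (xc V S - e) ≤ 0 →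
      ∀ k, 0 < k → k < p → ord (xc V (k • S) - e) ≤ 0 := by
    intro S hS hpS h0 k hk hkp
    obtain ⟨hS', hpS'⟩ := hmul0 S hS hpS k hk hkp
    rw [ord_nonpos_iff h (hne0 _ hS' hpS')]
    exact xSeq_E0 A hr hodd (by omega) (xSeq_of_prime_order hp hS hpS) hκM hρ
      (by simpa only [one_nsmul] using (ord_nonpos_iff h (hne0 S hS hpS)).mp h0) k hk hkp
  -- (i)
  have hi : ∀ k, 0 < k → k < p → 0 < ord (xc V (k • R) - e) ∧ ord (xc V (k • R) - e) < N := by
    intro k hk hkp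
    obtain ⟨hS, hpS⟩ := hmul0 R hR hpR k hk hkp
    have hpos' : 0 < ord (xc V (k • R) - e) := by
      by_contra hle
      push Not at hle
      obtain ⟨k', hk', hk'p, hk'R⟩ := exists_inv_nsmul hp hpR hk hkp
      have := hM2 _ hS hpS hle k' hk' hk'p
      rw [hk'R] at this
      linarith
    refine ⟨hpos', ?_⟩
    by_contra hge
    push Not at hge
    have h1 := ySeq_M1' h (hY _ hS hpS) h40 (by omega) hr1 hr2 h4r hr2' hκ
      (by simpa using hpos') (by simpa using hge) hN.le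
    simp only [one_nsmul] at h1
    obtain ⟨hS2, hpS2⟩ := hmul0 _ hS hpS 2 (by omega) (by omega)
    have h2 : ord (xc V (2 • k • R) - e) ≤ 0 := by linarith
    obtain ⟨m, hm, hmp, hmR⟩ := exists_mul_nsmul hp hpR hk hkp (l := 2) (by omega) (by omega)
    obtain ⟨k', hk', hk'p, hk'R⟩ := exists_inv_nsmul hp hpR hm hmp
    have := hM2 _ hS2 hpS2 h2 k' hk' hk'p
    rw [hmR, hk'R] at this
    linarith
  refine ⟨hi, ?_⟩
  -- (ii) the minimal point
  obtain ⟨k₀, hk₀, hmin⟩ := Finset.exists_min_image (Finset.Ioo 0 p)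
    (fun k => ord (xc V (k • R) - e)) ⟨1, by rw [Finset.mem_Ioo]; omega⟩
  rw [Finset.mem_Ioo] at hk₀
  obtain ⟨hQ, hpQ⟩ := hmul0 R hR hpR k₀ hk₀.1 hk₀.2
  obtain ⟨hh, hhp⟩ := hodd
  have hrange : ∀ k, 0 < k → k < p →
      0 < ord (xc V (k • k₀ • R) - e) ∧ ord (xc V (k • k₀ • R) - e) < N := by
    intro k hk hkp
    obtain ⟨m, hm, hmp, hmR⟩ := exists_mul_nsmul hp hpR hk₀.1 hk₀.2 hk hkp
    rw [hmR]; exact hi m hm hmp
  have hmin' : ∀ k, 0 < k → k < p →
      ord (xc V (1 • k₀ • R) - e) ≤ ord (xc V (k • k₀ • R) - e) := by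
    intro k hk hkp
    obtain ⟨m, hm, hmp, hmR⟩ := exists_mul_nsmul hp hpR hk₀.1 hk₀.2 hk hkp
    rw [hmR, one_nsmul]; exact hmin m (by rw [Finset.mem_Ioo]; exact ⟨hm, hmp⟩)
  obtain ⟨hc, hlin⟩ := ySeq_M3' h (hY _ hQ hpQ) h40 hhp (by omega) hr1 hr2 h4r hr2' hκ
    hrange hmin'
  simp only [one_nsmul] at hc hlin
  have hpQ0 : (p : ℚ) ≠ 0 := by exact_mod_cast hp.ne_zero
  have hc' : ord (xc V (k₀ • R) - e) = 2 * N / p := by
    rw [eq_div_iff hpQ0]; linarith
  refine ⟨k₀, hk₀.1, hk₀.2, fun j hj hjp => ?_⟩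
  rw [hlin j hj (by omega), hc']

/-- the valuation of `x(R) - e` itself. -/
theorem node_ord' (h : IsOrd A ord) (hr : Roots V e e' e'')
    (hp : p.Prime) (hp5 : 5 ≤ p) (h40 : (4 : K) ≠ 0)
    {N : ℚ} (hN : 0 < N) (hr1 : e' - e ≠ 0) (hr2 : e'' - e ≠ 0)
    (h4r : ord (4 : K) + ord (e'' - e) = 0) (hr2' : ord (e'' - e) ≤ 0)
    (hκ : ord ((e' - e) * (e'' - e)) = N) (hρ : 4 * ((e' - e) + (e'' - e)) ∈ A)
    {R : V.Point} (hR : R ≠ 0) (hpR : p • R = 0) (hpos : 0 < ord (xc V R - e)) :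
    ∃ j : ℕ, 0 < j ∧ ord (xc V R - e) = j * (2 * N / p) ∧ ord (xc V R - e) < N := by
  obtain ⟨hi, k₀, hk₀, hk₀p, hlin⟩ :=
    node_struct h hr hp hp5 h40 hN hr1 hr2 h4r hr2' hκ hρ hR hpR hpos
  have hodd : Odd p := hp.odd_of_ne_two (by omega)
  obtain ⟨j, hj, hjp, hjR⟩ := exists_inv_nsmul hp hpR hk₀ hk₀p
  have hlt := (hi 1 one_pos (by omega)).2
  rw [one_nsmul] at hlt
  have hQ : k₀ • R ≠ 0 := nsmul_ne_zero_of_lt hp hR hpR hk₀ hk₀p
  have hpQ : p • (k₀ • R) = 0 := by rw [nsmul_left_comm, hpR, nsmul_zero]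
  obtain ⟨hh, hhp⟩ := hodd
  rcases Nat.lt_or_ge hh j with hjh | hjh
  · refine ⟨p - j, by omega, ?_, hlt⟩
    have := hlin (p - j) (by omega) (by omega)
    have hs := (xSeq_of_prime_order hp hQ hpQ).sym j hj hjp
    rw [hs, hjR] at this
    exact this
  · refine ⟨j, hj, ?_, hlt⟩
    have := hlin j hj (by omega)
    rw [hjR] at this
    exact this

end Node

end Fermat.Agent.S13
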