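import Fermat.Agent.S13.Node

set_option autoImplicit false
set_option linter.unusedSectionVars false
set_option linter.unusedVariables false

/-!
# Restricted inertia, the kernel of reduction, and the basic inertia step
-/

namespace Fermat.Agent.S13

open WeierstrassCurve WeierstrassCurve.Affine WeierstrassCurve.Affine.Point
open Fermat.Agent.S05

section Basic

variable {K : Type*} [Field K] (A : ValuationSubring K)

lemma one_not_nu : (1 : K) ∉ A.nonunits := by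
  intro h
  rw [A.mem_nonunits_iff, map_one] at h
  exact lt_irrefl _ h

end Basic

section E1

variable {K : Type*} [Field K] [DecidableEq K] {V : WeierstrassCurve.Affine K}
  (A : ValuationSubring K)

/-- the kernel of reduction. -/
def E1 (P : V.Point) : Prop := P = 0 ∨ xc V P ∉ A

variable {A}

lemma E1_zero : E1 A (0 : V.Point) := Or.inl rfl

lemma E1_neg {P : V.Point} (hP : E1 A P) : E1 A (-P) := by
  rcases hP with rfl | hP
  · left; simp
  · right; rwa [xc_neg]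

lemma E1_dbl (h2 : V.b₂ ∈ A) (h4 : V.b₄ ∈ A) (h6 : V.b₆ ∈ A) (h8 : V.b₈ ∈ A)
    {P : V.Point} (hP : E1 A P) : E1 A (P + P) := by
  rcases hP with rfl | hP
  · left; simp
  by_cases h0 : P + P = 0
  · exact Or.inl h0
  right
  intro hz
  have hP0 : P ≠ 0 := by
    rintro rfl; exact h0 (by simp)
  obtain ⟨hF, hD⟩ := xc_two_nsmul hP0 h0
  set x := xc V P with hx
  set z := xc V (P + P) with hzdef
  have hx0 : x ≠ 0 := by
    intro h; exact hP (h ▸ A.zero_mem)
  have hu := inv_nu_of_not_mem A hP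
  set u := x⁻¹ with hudef
  have hxu : x = u⁻¹ := by rw [hudef, inv_inv]
  have hu0 : u ≠ 0 := inv_ne_zero hx0
  have huA := nu_mem A hu
  have c2 : (2 : K) ∈ A := by exact_mod_cast S05.natCast_mem A 2
  have c4 : (4 : K) ∈ A := by exact_mod_cast S05.natCast_mem A 4
  have key : (1 : K) = u * (z * (4 + V.b₂ * u + 2 * V.b₄ * u ^ 2 + V.b₆ * u ^ 3)
      + (V.b₄ * u + 2 * V.b₆ * u ^ 2 + V.b₈ * u ^ 3)) := by
    have : u ^ 4 * (z * fF V x) = u ^ 4 * fD V x := by rw [hD]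
    simp only [fF, fD] at this
    rw [hxu] at this
    field_simp at this
    linear_combination -this
  apply one_not_nu A
  rw [key]
  apply nu_mul_right A hu
  exact add_mem (mul_mem hz (add_mem (add_mem (add_mem c4 (mul_mem h2 huA))
    (mul_mem (mul_mem c2 h4) (pow_mem huA 2))) (mul_mem h6 (pow_mem huA 3))))
    (add_mem (add_mem (mul_mem h4 huA) (mul_mem (mul_mem c2 h6) (pow_mem huA 2)))
      (mul_mem h8 (pow_mem huA 3)))

lemma E1_add (h2 : V.b₂ ∈ A) (h4 : V.b₄ ∈ A) (h6 : V.b₆ ∈ A) (h8 : V.b₈ ∈ A)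
    {P Q : V.Point} (hP : E1 A P) (hQ : E1 A Q) : E1 A (P + Q) := by
  by_cases hP0 : P = 0
  · rw [hP0, zero_add]; exact hQ
  by_cases hQ0 : Q = 0
  · rw [hQ0, add_zero]; exact hP
  have hP' : xc V P ∉ A := hP.resolve_left hP0
  have hQ' : xc V Q ∉ A := hQ.resolve_left hQ0
  by_cases hx : xc V P = xc V Q
  · rcases eq_or_eq_neg_of_xc_eq hP0 hQ0 hx with h | h
    · rw [h]; exact E1_dbl h2 h4 h6 h8 hQ
    · left; rw [h]; simp
  right
  intro hz
  obtain ⟨hG, hH⟩ := xc_add_sub hP0 hQ0 hx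
  set x₁ := xc V P with hx₁
  set x₂ := xc V Q with hx₂
  set z := xc V (P + Q) with hzdef
  set z' := xc V (P - Q) with hz'def
  have hquad : (x₁ - x₂) ^ 2 * z ^ 2 - fG V x₁ x₂ * z + fH V x₁ x₂ = 0 := by
    rw [← hG, ← hH]; ring
  have hx10 : x₁ ≠ 0 := by
    intro h; exact hP' (h ▸ A.zero_mem)
  have hx20 : x₂ ≠ 0 := by
    intro h; exact hQ' (h ▸ A.zero_mem)
  have hu := inv_nu_of_not_mem A hP'
  have hv := inv_nu_of_not_mem A hQ'
  set u := x₁⁻¹ with hudef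
  set v := x₂⁻¹ with hvdef
  have hxu : x₁ = u⁻¹ := by rw [hudef, inv_inv]
  have hxv : x₂ = v⁻¹ := by rw [hvdef, inv_inv]
  have hu0 : u ≠ 0 := inv_ne_zero hx10
  have hv0 : v ≠ 0 := inv_ne_zero hx20
  have huA := nu_mem A hu
  have hvA := nu_mem A hv
  have c2 : (2 : K) ∈ A := by exact_mod_cast S05.natCast_mem A 2
  have key : (1 : K) = (2 * (u + v) + V.b₂ * (u * v) + V.b₄ * (u * v) * (u + v)
        + V.b₆ * (u * v) ^ 2) * z - (v - u) ^ 2 * z ^ 2
      + (V.b₄ * (u * v) + V.b₆ * (u * v) * (u + v) + V.b₈ * (u * v) ^ 2) := by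
    have : (u * v) ^ 2 * ((x₁ - x₂) ^ 2 * z ^ 2 - fG V x₁ x₂ * z + fH V x₁ x₂) = 0 := by
      rw [hquad, mul_zero]
    simp only [fG, fH] at this
    rw [hxu, hxv] at this
    field_simp at this
    linear_combination this
  have huv : u * v ∈ A.nonunits := nu_mul_left A huA hv
  have huvs : u + v ∈ A.nonunits := nu_add A hu hv
  apply one_not_nu A
  rw [key]
  refine nu_add A (nu_sub A (nu_mul_right A ?_ hz) (nu_mul_right A ?_ (pow_mem hz 2))) ?_
  · refine nu_add A (nu_add A (nu_add A (nu_mul_left A c2 huvs) (nu_mul_left A h2 huv))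
      (nu_mul_left A (mul_mem h4 (nu_mem A huv)) huvs)) ?_
    rw [sq]; exact nu_mul_left A h6 (nu_mul_left A (nu_mem A huv) huv)
  · rw [sq]; exact nu_mul_left A (sub_mem hvA huA) (nu_sub A hv hu)
  · refine nu_add A (nu_add A (nu_mul_left A h4 huv)
      (nu_mul_left A (mul_mem h6 (nu_mem A huv)) huvs)) ?_
    rw [sq]; exact nu_mul_left A h8 (nu_mul_left A (nu_mem A huv) huv)

lemma E1_sub (h2 : V.b₂ ∈ A) (h4 : V.b₄ ∈ A) (h6 : V.b₆ ∈ A) (h8 : V.b₈ ∈ A)
    {P Q : V.Point} (hP : E1 A P) (hQ : E1 A Q) : E1 A (P - Q) := by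
  rw [sub_eq_add_neg]; exact E1_add h2 h4 h6 h8 hP (E1_neg hQ)

lemma E1_nsmul (h2 : V.b₂ ∈ A) (h4 : V.b₄ ∈ A) (h6 : V.b₆ ∈ A) (h8 : V.b₈ ∈ A)
    {P : V.Point} (hP : E1 A P) (n : ℕ) : E1 A (n • P) := by
  induction n with
  | zero => rw [zero_nsmul]; exact E1_zero
  | succ n ih => rw [succ_nsmul]; exact E1_add h2 h4 h6 h8 ih hP

/-- if `2P` lies in the kernel of reduction and `P` has odd order, so does `P`. -/
lemma E1_of_dbl (h2 : V.b₂ ∈ A) (h4 : V.b₄ ∈ A) (h6 : V.b₆ ∈ A) (h8 : V.b₈ ∈ A)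
    {P : V.Point} {p : ℕ} (hodd : Odd p) (hpP : p • P = 0) (hP : E1 A (P + P)) : E1 A P := by
  obtain ⟨h, rfl⟩ := hodd
  have : P = (h + 1) • (P + P) := by
    have e : (h + 1) • (P + P) = (2 * h + 1) • P + P := by
      rw [← two_nsmul, ← mul_nsmul', ← succ_nsmul]; congr 1; ring
    rw [e, hpP, zero_add]
  rw [this]
  exact E1_nsmul h2 h4 h6 h8 hP _

end E1


section RIdef

variable {K : Type*} [Field K] [Algebra ℚ K]

/-- restricted inertia: `σ` acts trivially on `(A ∩ L) / (m_A ∩ L)`. -/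
def RI (L : IntermediateField ℚ K) (A : ValuationSubring K) (σ : K ≃ₐ[ℚ] K) : Prop :=
  ∀ z ∈ L, z ∈ A → σ z - z ∈ A.nonunits

variable {L : IntermediateField ℚ K} {A : ValuationSubring K} {σ : K ≃ₐ[ℚ] K}

lemma RI.mem (h : RI L A σ) {z : K} (hzL : z ∈ L) (hz : z ∈ A) : σ z ∈ A := by
  have := add_mem (nu_mem A (h z hzL hz)) hz
  simpa using this

lemma RI.nu (h : RI L A σ) {z : K} (hzL : z ∈ L) (hz : z ∈ A.nonunits) : σ z ∈ A.nonunits := by
  have := nu_add A (h z hzL (nu_mem A hz)) hz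
  simpa using this

lemma RI.not_mem (h : RI L A σ) {z : K} (hzL : z ∈ L) (hz : z ∉ A) : σ z ∉ A := by
  intro hσz
  have h1 := h.nu (L.inv_mem hzL) (inv_nu_of_not_mem A hz)
  rw [map_inv₀] at h1
  have hz0 : z ≠ 0 := by rintro rfl; exact hz A.zero_mem
  have hσz0 : σ z ≠ 0 := by simpa using hz0
  apply one_not_nu A
  rw [← mul_inv_cancel₀ hσz0]
  exact nu_mul_left A hσz h1

lemma RI.not_nu (h : RI L A σ) {z : K} (hzL : z ∈ L) (hzA : z ∈ A) (hz : z ∉ A.nonunits) :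
    σ z ∉ A.nonunits := by
  intro hσz
  apply hz
  have := nu_sub A hσz (h z hzL hzA)
  simpa using this

end RIdef

section OrdMore

variable {K : Type*} [Field K] {A : ValuationSubring K} {ord : K → ℚ}

lemma isOrd_zpow (h : IsOrd A ord) {x : K} (hx : x ≠ 0) (m : ℤ) : ord (x ^ m) = m * ord x := by
  cases m with
  | ofNat n => simpa using h.pow hx n
  | negSucc n =>
    rw [zpow_negSucc, h.inv (pow_ne_zero _ hx), h.pow hx]
    push_cast; ring

variable [Algebra ℚ K] {L : IntermediateField ℚ K} {σ : K ≃ₐ[ℚ] K}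

lemma RI.ord_eq (h : RI L A σ) (hord : IsOrd A ord) {q : ℕ} (hq0 : (q : K) ≠ 0)
    (hordq : ord (q : K) = 1) {z : K} (hzL : z ∈ L) (hz0 : z ≠ 0) : ord (σ z) = ord z := by
  obtain ⟨r, hr⟩ : ∃ r, ord z = r := ⟨_, rfl⟩
  set n := r.den with hn
  set m := r.num with hm
  have hn0 : (n : ℚ) ≠ 0 := by exact_mod_cast r.den_ne_zero
  have hrmn : (n : ℚ) * r = m := by
    rw [hn, hm, mul_comm]; exact Rat.mul_den_eq_num r
  set t : K := z ^ n * (q : K) ^ (-m) with ht
  have hσz0 : σ z ≠ 0 := by simpa using hz0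
  have htL : t ∈ L := L.mul_mem (pow_mem hzL n) (zpow_mem (natCast_mem L q) _)
  have ht0 : t ≠ 0 := mul_ne_zero (pow_ne_zero _ hz0) (zpow_ne_zero _ hq0)
  have hordt : ord t = 0 := by
    rw [ht, hord.mul _ _ (pow_ne_zero _ hz0) (zpow_ne_zero _ hq0), hord.pow hz0,
      isOrd_zpow hord hq0, hordq, hr, hrmn]
    push_cast; ring
  obtain ⟨h1, h2⟩ := hord.unit_of_eq_zero ht0 hordt
  have h3 := hord.eq_zero_of_unit (h.mem htL h1) (h.not_nu htL h1 h2)
  have hσt : σ t = (σ z) ^ n * (q : K) ^ (-m) := by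
    rw [ht, map_mul, map_pow, map_zpow₀, map_natCast]
  rw [hσt, hord.mul _ _ (pow_ne_zero _ hσz0) (zpow_ne_zero _ hq0), hord.pow hσz0,
    isOrd_zpow hord hq0, hordq] at h3
  push_cast at h3
  have : (n : ℚ) * ord (σ z) = n * r := by rw [hrmn]; linarith
  rw [hr]
  exact mul_left_cancel₀ hn0 this

end OrdMore

section BC

variable {K : Type*} [Field K] [Algebra ℚ K] {W : WeierstrassCurve.Affine ℚ}

lemma bc_a₁ : (W⁄K).a₁ = algebraMap ℚ K W.a₁ := by simp [WeierstrassCurve.baseChange]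
lemma bc_a₂ : (W⁄K).a₂ = algebraMap ℚ K W.a₂ := by simp [WeierstrassCurve.baseChange]
lemma bc_a₃ : (W⁄K).a₃ = algebraMap ℚ K W.a₃ := by simp [WeierstrassCurve.baseChange]
lemma bc_a₄ : (W⁄K).a₄ = algebraMap ℚ K W.a₄ := by simp [WeierstrassCurve.baseChange]
lemma bc_a₆ : (W⁄K).a₆ = algebraMap ℚ K W.a₆ := by simp [WeierstrassCurve.baseChange]

end BC

section Step

variable {K : Type*} [Field K] [DecidableEq K] [Algebra ℚ K] {W : WeierstrassCurve.Affine ℚ}
  {L : IntermediateField ℚ K} {A : ValuationSubring K} {σ : K ≃ₐ[ℚ] K}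

/-- the coordinates of the point lie in `L`. -/
def InL (L : IntermediateField ℚ K) (R : (W⁄K).Point) : Prop :=
  ∀ (x y : K) (h : (W⁄K).Nonsingular x y), R = some x y h → x ∈ L ∧ y ∈ L

lemma mem_of_sq_mem {η : K} (h : η ^ 2 ∈ A) : η ∈ A := by
  by_contra hn
  have h3 := inv_nu_of_not_mem A hn
  have hη0 : η ≠ 0 := by rintro rfl; exact hn A.zero_mem
  apply one_not_nu A
  have e3 : (1 : K) = η ^ 2 * (η⁻¹ * η⁻¹) := by field_simp
  rw [e3]
  exact nu_mul_left A h (nu_mul_left A (nu_mem A h3) h3)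

/-- **The inertia step**: either `σ P = P` or `σ P - P` lies in the kernel of reduction. -/
theorem inertia_step (hσ : RI L A σ) (h2A : (2 : K) ∉ A.nonunits)
    (ha1 : (W⁄K).a₁ ∈ A) (ha2 : (W⁄K).a₂ ∈ A)
    {x y : K} (hxy : (W⁄K).Nonsingular x y) (hxL : x ∈ L) (hyL : y ∈ L) (hxA : x ∈ A)
    {e t : K} (heL : e ∈ L) (hσe : σ e = e) (ht0 : t ≠ 0) (htL : t ∈ L) (hσt : σ t = t)
    (hw : (x - e) / t ∈ A)
    (hu : fF (W⁄K) x / t ^ 2 ∈ A) (hu' : fF (W⁄K) x / t ^ 2 ∉ A.nonunits) :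
    σ • (some x y hxy : (W⁄K).Point) = some x y hxy ∨
      xc (W⁄K) (σ • (some x y hxy : (W⁄K).Point) - some x y hxy) ∉ A := by
  have h2inv : (2 : K) ≠ 0 ∧ (2 : K)⁻¹ ∈ A := by
    rw [ValuationSubring.mem_nonunits_iff_or] at h2A
    push Not at h2A
    exact h2A
  have h20 := h2inv.1
  have hσa1 : σ (W⁄K).a₁ = (W⁄K).a₁ := by rw [bc_a₁]; exact σ.commutes _
  have hσa3 : σ (W⁄K).a₃ = (W⁄K).a₃ := by rw [bc_a₃]; exact σ.commutes _
  have ha1L : (W⁄K).a₁ ∈ L := by rw [bc_a₁]; exact L.algebraMap_mem _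
  have ha3L : (W⁄K).a₃ ∈ L := by rw [bc_a₃]; exact L.algebraMap_mem _
  obtain ⟨h', e1⟩ := smul_some σ hxy
  rw [e1]
  -- the auxiliary quantities
  obtain ⟨w, hwdef⟩ : ∃ w, (x - e) / t = w := ⟨_, rfl⟩
  obtain ⟨η, hη⟩ : ∃ η, (y - (W⁄K).negY x y) / t = η := ⟨_, rfl⟩
  rw [hwdef] at hw
  have hwL : w ∈ L := by rw [← hwdef]; exact L.div_mem (L.sub_mem hxL heL) htL
  have hnegL : (W⁄K).negY x y ∈ L := by
    simp only [negY]
    exact L.sub_mem (L.sub_mem (L.neg_mem hyL) (L.mul_mem ha1L hxL)) ha3L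
  have hηL : η ∈ L := by rw [← hη]; exact L.div_mem (L.sub_mem hyL hnegL) htL
  have hη2 : η ^ 2 = fF (W⁄K) x / t ^ 2 := by
    rw [fF_eq_sq hxy.1, ← hη, div_pow]
  have hηA : η ∈ A := mem_of_sq_mem (by rw [hη2]; exact hu)
  have hηu : η ∉ A.nonunits := by
    intro hm
    apply hu'
    rw [← hη2, sq]
    exact nu_mul_left A hηA hm
  have hxw : x - e = t * w := by rw [← hwdef]; field_simp
  have hyη : y - (W⁄K).negY x y = t * η := by rw [← hη]; field_simp
  obtain ⟨μ, hμ⟩ : ∃ μ, σ w - w = μ := ⟨_, rfl⟩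
  obtain ⟨ν, hν⟩ : ∃ ν, σ η - η = ν := ⟨_, rfl⟩
  have hμM : μ ∈ A.nonunits := hμ ▸ hσ w hwL hw
  have hνM : ν ∈ A.nonunits := hν ▸ hσ η hηL hηA
  have hσx : σ x - x = t * μ := by
    have : σ (x - e) = σ (t * w) := by rw [hxw]
    rw [map_sub, map_mul, hσe, hσt] at this
    rw [← hμ]; linear_combination this - hxw
  have hσy : σ y - (W⁄K).negY (σ x) (σ y) = t * (η + ν) := by
    have : σ (y - (W⁄K).negY x y) = σ (t * η) := by rw [hyη]
    simp only [negY, map_sub, map_mul, map_neg, hσa1, hσa3, hσt] at this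
    simp only [negY]
    rw [← hν]; linear_combination this
  by_cases hμ0 : μ = 0
  · left
    have hx' : σ x = x := by
      rw [hμ0, mul_zero] at hσx; exact sub_eq_zero.mp hσx
    rcases Y_eq_of_X_eq h'.1 hxy.1 hx' with hy | hy
    · simp only [hx', hy]
    · exfalso
      apply hηu
      have e2 : t * (2 * η + ν) = 0 := by
        simp only [negY] at hσy hyη hy
        rw [hx'] at hσy
        linear_combination -hσy - hyη + 2 * hy
      have e3 : 2 * η + ν = 0 := by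
        rcases mul_eq_zero.mp e2 with h | h
        · exact absurd h ht0
        · exact h
      have : η = (2 : K)⁻¹ * (-ν) := by
        field_simp; linear_combination e3
      rw [this]
      exact nu_mul_left A h2inv.2 (nu_neg A hνM)
  · right
    have hne : σ x ≠ x := by
      intro h
      rw [h, sub_self] at hσx
      rcases mul_eq_zero.mp hσx.symm with h | h
      · exact ht0 h
      · exact hμ0 h
    rw [sub_eq_add_neg, neg_some, add_of_X_ne hne]
    simp only [xc_some]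
    rw [slope_of_X_ne hne]
    simp only [addX]
    obtain ⟨κ, hκ⟩ : ∃ κ, η + (2 : K)⁻¹ * (ν - (W⁄K).a₁ * μ) = κ := ⟨_, rfl⟩
    have hκA : κ ∈ A := by
      rw [← hκ]
      exact add_mem hηA (mul_mem h2inv.2 (sub_mem (nu_mem A hνM) (mul_mem ha1 (nu_mem A hμM))))
    have hnum : σ y - (W⁄K).negY x y = t * κ := by
      rw [← hκ]
      simp only [negY] at hσy hyη ⊢
      field_simp
      linear_combination hσy + hyη - (W⁄K).a₁ * hσx
    rw [hnum, hσx]
    intro hz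
    obtain ⟨z, hzdef⟩ : ∃ z, (t * κ / (t * μ)) ^ 2 + (W⁄K).a₁ * (t * κ / (t * μ)) - (W⁄K).a₂
      - σ x - x = z := ⟨_, rfl⟩
    rw [hzdef] at hz
    have hσxA : σ x ∈ A := hσ.mem hxL hxA
    have key : κ ^ 2 = μ * (z * μ - (W⁄K).a₁ * κ + ((W⁄K).a₂ + σ x + x) * μ) := by
      rw [← hzdef]; field_simp; ring
    have hκM : κ ∈ A.nonunits := by
      apply nu_of_sq A
      rw [key]
      apply nu_mul_right A hμM
      exact add_mem (sub_mem (mul_mem hz (nu_mem A hμM)) (mul_mem ha1 hκA))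
        (mul_mem (add_mem (add_mem ha2 hσxA) hxA) (nu_mem A hμM))
    apply hηu
    have : η = κ - (2 : K)⁻¹ * (ν - (W⁄K).a₁ * μ) := by rw [← hκ]; ring
    rw [this]
    exact nu_sub A hκM (nu_mul_left A h2inv.2 (nu_sub A hνM (nu_mul_left A ha1 hμM)))

end Step

end Fermat.Agent.S13
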